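/-
S44lib / Kap / CMap  (helper6)  — Project LSq, block Q2a.

**The component maps `c₁, c₂ : J[m] → (ℤ/m)^{nodes}`.**

For a nodal reduction datum `D : N.NRedDatum A F F₁ F₂` and `x = [D₀]`, `m • D₀ = div z`
(`z` normalised to a `Vᵢ`-unit):

  `cMapᵢ x c = ord_{xᵢ c} (Vᵢ.redF z)  mod m`.

* `kapOrd_eq_zero_of_good` : the reduction Kummer function has order `≡ 0 (m)` at every point with a
                             nonempty residue disc ((LC): `ord_Q z̄ = m · (push D₀)(Q)`);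
* `sum_ord_nodes`          : `Σ_c ord_{x c} z̄ = - m · deg (push D₀)`;
* `cMap₁`, `cMap₂`         : the homomorphisms, `cMap₁_eq`, `cMap₂_eq` (ANY normalised representative
                             computes them), `sum_cMap₁`, `sum_cMap₂` (`Σ_c cMapᵢ x c = 0`),
                             `cMap₁_smul`, `cMap₂_smul` (invariance under inertial automorphisms).
No annulus is looked at: the node orders of the reductions are what the annuli "see" from outside.
-/
import Fermat.Agent.S44lib.Kap.KapFun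
import Fermat.Agent.S33lib.NB.RedRR

set_option autoImplicit false
set_option linter.unusedSectionVars false

noncomputable section

namespace Fermat.Agent.S44lib.Kap

open AlgebraicCurve Fermat.Agent.LSb Fermat.Agent.S18lib Fermat.Agent.S33lib
open Fermat.Agent.S33lib.N

variable {L : Type*} [Field L] {A : ValuationSubring L}
variable {F : Type*} [Field F] [Algebra L F] [HasPrincipalDivisors L F]

local notation "k" => IsLocalRing.ResidueField A

/-! ### one component -/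

section Disc

variable {Fk : Type*} [Field Fk] [Algebra (IsLocalRing.ResidueField A) Fk]
variable [HasPrincipalDivisors (IsLocalRing.ResidueField A) Fk]

/-- `div z = m • D₀` as divisors -/
theorem divOf_eq_smul {m : ℕ} {D₀ : Divisor L F} {z : F}
    (hz : ∀ P : Place L F, P.ord z = (m : ℤ) * D₀ P) : divOf (K := L) z = (m : ℤ) • D₀ := by
  ext P
  rw [divOf_apply', hz, Finsupp.smul_apply, smul_eq_mul]

/-- (LC) at a good point: `ord_Q z̄ = m · (push D₀)(Q)` -/
theorem ord_redF_eq_of_good (Dd : DiscDatum A F Fk) {m : ℕ} {D₀ : Divisor L F} {z : F}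
    (hz : ∀ P : Place L F, P.ord z = (m : ℤ) * D₀ P) (hne : Dd.G.redF z ≠ 0) {Q : Place k Fk}
    (hQ : Dd.Good Q) : Q.ord (Dd.G.redF z) = (m : ℤ) * pushO Dd.r D₀ Q := by
  rw [← Dd.pushO_divOf hne hQ, divOf_eq_smul hz, map_zsmul, Finsupp.smul_apply, smul_eq_mul]

/-- the reduction Kummer function has order `≡ 0` modulo `m` at every good point -/
theorem kapOrd_eq_zero_of_good {g : ℕ} (hF : IsCurveOfGenus L F g) (Dd : DiscDatum A F Fk)
    {m : ℕ} {x : Pic0 L F} (hx : (m : ℤ) • x = 0) {Q : Place k Fk} (hQ : Dd.Good Q) :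
    kapOrd Dd.G m Q x = 0 := by
  obtain ⟨D₀, z, rfl, hz0, hz, hred⟩ := kapFun_rep Dd.G hx
  have hne : Dd.G.redF z ≠ 0 := by rw [hred]; exact kapFun_ne_zero _ _ _
  rw [kapOrd_eq hF Dd.G Q hz0 hz hne, ord_redF_eq_of_good Dd hz hne hQ]
  push_cast
  rw [ZMod.natCast_self, zero_mul]

/-- **the sum of the node orders**: if every point off the family `x` is good and no point of the
family is, then `Σ_c ord_{x c} z̄ = - m · deg (push D₀)` -/
theorem sum_ord_nodes {gk : ℕ} (hFk : IsCurveOfGenus k Fk gk) (Dd : DiscDatum A F Fk) {s : ℕ}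
    (x : Fin s → Place k Fk) (hxinj : Function.Injective x)
    (hgood : ∀ Q : Place k Fk, (∀ c, Q ≠ x c) → Dd.Good Q)
    (hbad : ∀ (c : Fin s) (P : Place L F), Dd.r P ≠ some (x c))
    {m : ℕ} {D₀ : Divisor L F} {z : F}
    (hz : ∀ P : Place L F, P.ord z = (m : ℤ) * D₀ P) (hne : Dd.G.redF z ≠ 0) :
    ∑ c, (x c).ord (Dd.G.redF z) = -((m : ℤ) * Divisor.degree (pushO Dd.r D₀)) := by
  classical
  set φ : Fk := Dd.G.redF z with hφ
  have hdiv : divOf (K := k) φ = (m : ℤ) • pushO Dd.r D₀ +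
      ∑ c, Finsupp.single (x c) ((x c).ord φ) := by
    ext Q
    rw [divOf_apply', Finsupp.add_apply, Finsupp.smul_apply, smul_eq_mul, Finsupp.finsetSum_apply]
    by_cases hQ : ∃ c₀, Q = x c₀
    · obtain ⟨c₀, rfl⟩ := hQ
      rw [NB.pushO_apply_eq_zero Dd.r D₀ (hbad c₀), mul_zero, zero_add,
        Finset.sum_eq_single c₀ (fun c _ hc => by
          rw [Finsupp.single_apply, if_neg (fun h => hc (hxinj h))])
          (fun h => absurd (Finset.mem_univ c₀) h), Finsupp.single_eq_same]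
    · push Not at hQ
      rw [ord_redF_eq_of_good Dd hz hne (hgood Q hQ),
        Finset.sum_eq_zero (fun c _ => by
          rw [Finsupp.single_apply, if_neg (fun h => hQ c h.symm)]), add_zero]
  have hdeg := congrArg Divisor.degree hdiv
  rw [degree_divOf, map_add, map_zsmul, map_sum, smul_eq_mul] at hdeg
  have hs : ∑ c, Divisor.degree (Finsupp.single (x c) ((x c).ord φ)) = ∑ c, (x c).ord φ := by
    refine Finset.sum_congr rfl fun c _ => ?_
    rw [Divisor.degree_single, hFk.deg_eq_one, Nat.cast_one, mul_one]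
  rw [hs] at hdeg
  linarith

end Disc

/-! ### the two components of a nodal datum -/

section Global

variable {F₁ F₂ : Type*} [Field F₁] [Field F₂]
variable [Algebra (IsLocalRing.ResidueField A) F₁] [Algebra (IsLocalRing.ResidueField A) F₂]
variable [HasPrincipalDivisors (IsLocalRing.ResidueField A) F₁]
  [HasPrincipalDivisors (IsLocalRing.ResidueField A) F₂]

variable (D : NRedDatum A F F₁ F₂) {g g₁ g₂ : ℕ} (C : NodalCtx D.nod g g₁ g₂)

theorem good₁_of_ne {Q : Place k F₁} (hQ : ∀ c, Q ≠ D.nod.x₁ c) : D.D₁.Good Q := by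
  obtain ⟨P, hP⟩ := D.r_surj₁ Q hQ
  exact ⟨P, fst?_eq_some.2 hP⟩

theorem good₂_of_ne {Q : Place k F₂} (hQ : ∀ c, Q ≠ D.nod.x₂ c) : D.D₂.Good Q := by
  obtain ⟨P, hP⟩ := D.r_surj₂ Q hQ
  exact ⟨P, snd?_eq_some.2 hP⟩

theorem not_good₁ (c : Fin D.nod.s) (P : Place L F) : D.D₁.r P ≠ some (D.nod.x₁ c) :=
  fun h => D.r_ne_x₁ P _ (fst?_eq_some.1 h) c rfl

theorem not_good₂ (c : Fin D.nod.s) (P : Place L F) : D.D₂.r P ≠ some (D.nod.x₂ c) :=
  fun h => D.r_ne_x₂ P _ (snd?_eq_some.1 h) c rfl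

/-- **the component map on the first component** -/
def cMap₁ (m : ℕ) : Pic0.torsion L F m →+ (Fin D.nod.s → ZMod m) :=
  AddMonoidHom.pi fun c => kapOrdHom C.hF D.nod.V₁ m (D.nod.x₁ c)

/-- **the component map on the second component** -/
def cMap₂ (m : ℕ) : Pic0.torsion L F m →+ (Fin D.nod.s → ZMod m) :=
  AddMonoidHom.pi fun c => kapOrdHom C.hF D.nod.V₂ m (D.nod.x₂ c)

theorem cMap₁_apply (m : ℕ) (x : Pic0.torsion L F m) (c : Fin D.nod.s) :
    cMap₁ D C m x c = kapOrd D.nod.V₁ m (D.nod.x₁ c) (x : Pic0 L F) := rfl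

theorem cMap₂_apply (m : ℕ) (x : Pic0.torsion L F m) (c : Fin D.nod.s) :
    cMap₂ D C m x c = kapOrd D.nod.V₂ m (D.nod.x₂ c) (x : Pic0 L F) := rfl

/-- **characterisation of `cMap₁`**: ANY representative `(D₀, z)`, `z` a `V₁`-unit, computes it -/
theorem cMap₁_eq {m : ℕ} (x : Pic0.torsion L F m) {D₀ : Divisor.degZero (K := L) (F := F)} {z : F}
    (hx : Pic0.mk D₀ = (x : Pic0 L F)) (hz0 : z ≠ 0)
    (hz : ∀ P : Place L F, P.ord z = (m : ℤ) * (D₀ : Divisor L F) P)
    (hne : D.nod.V₁.redF z ≠ 0) (c : Fin D.nod.s) :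
    cMap₁ D C m x c = (((D.nod.x₁ c).ord (D.nod.V₁.redF z) : ℤ) : ZMod m) := by
  rw [cMap₁_apply, ← hx]
  exact kapOrd_eq C.hF D.nod.V₁ _ hz0 hz hne

/-- **characterisation of `cMap₂`** -/
theorem cMap₂_eq {m : ℕ} (x : Pic0.torsion L F m) {D₀ : Divisor.degZero (K := L) (F := F)} {z : F}
    (hx : Pic0.mk D₀ = (x : Pic0 L F)) (hz0 : z ≠ 0)
    (hz : ∀ P : Place L F, P.ord z = (m : ℤ) * (D₀ : Divisor L F) P)
    (hne : D.nod.V₂.redF z ≠ 0) (c : Fin D.nod.s) :
    cMap₂ D C m x c = (((D.nod.x₂ c).ord (D.nod.V₂.redF z) : ℤ) : ZMod m) := by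
  rw [cMap₂_apply, ← hx]
  exact kapOrd_eq C.hF D.nod.V₂ _ hz0 hz hne

/-- **the residue theorem on the first component**: `Σ_c cMap₁ x c = 0` -/
theorem sum_cMap₁ (m : ℕ) (x : Pic0.torsion L F m) : ∑ c, cMap₁ D C m x c = 0 := by
  obtain ⟨D₀, z, hx, hz0, hz, hred⟩ := kapFun_rep D.nod.V₁ (Pic0.mem_torsion.1 x.2)
  have hne : D.nod.V₁.redF z ≠ 0 := by rw [hred]; exact kapFun_ne_zero _ _ _
  have h := sum_ord_nodes C.hF₁ D.D₁ D.nod.x₁ C.x₁_injective (fun Q hQ => good₁_of_ne D hQ)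
    (not_good₁ D) hz hne
  simp_rw [cMap₁_eq D C x hx hz0 hz hne]
  rw [← Int.cast_sum]
  have h' : ∑ c, (D.nod.x₁ c).ord (D.nod.V₁.redF z) =
      -((m : ℤ) * Divisor.degree (pushO D.D₁.r (D₀ : Divisor L F))) := h
  rw [h']
  push_cast
  rw [ZMod.natCast_self, zero_mul, neg_zero]

/-- **the residue theorem on the second component**: `Σ_c cMap₂ x c = 0` -/
theorem sum_cMap₂ (m : ℕ) (x : Pic0.torsion L F m) : ∑ c, cMap₂ D C m x c = 0 := by
  obtain ⟨D₀, z, hx, hz0, hz, hred⟩ := kapFun_rep D.nod.V₂ (Pic0.mem_torsion.1 x.2)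
  have hne : D.nod.V₂.redF z ≠ 0 := by rw [hred]; exact kapFun_ne_zero _ _ _
  have h := sum_ord_nodes C.hF₂ D.D₂ D.nod.x₂ C.x₂_injective (fun Q hQ => good₂_of_ne D hQ)
    (not_good₂ D) hz hne
  simp_rw [cMap₂_eq D C x hx hz0 hz hne]
  rw [← Int.cast_sum]
  have h' : ∑ c, (D.nod.x₂ c).ord (D.nod.V₂.redF z) =
      -((m : ℤ) * Divisor.degree (pushO D.D₂.r (D₀ : Divisor L F))) := h
  rw [h']
  push_cast
  rw [ZMod.natCast_self, zero_mul, neg_zero]

/-- **inertia invariance of `cMap₁`** -/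
theorem cMap₁_smul {σ : SemilinearAut L F} (hσ : D.nod.IsInertial σ) (m : ℕ)
    (x : Pic0.torsion L F m) : cMap₁ D C m (σ • x) = cMap₁ D C m x := by
  obtain ⟨D₀, z, hx, hz0, hz, hred⟩ := kapFun_rep D.nod.V₁ (Pic0.mem_torsion.1 x.2)
  have hne : D.nod.V₁.redF z ≠ 0 := by rw [hred]; exact kapFun_ne_zero _ _ _
  have hσz0 : σ • z ≠ 0 := by
    rw [SemilinearAut.smul_def]
    exact (map_ne_zero _).2 hz0
  have hσz : ∀ P : Place L F, P.ord (σ • z) =
      (m : ℤ) * ((SemilinearAut.degZeroSMulHom σ D₀ : Divisor.degZero (K := L) (F := F)) :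
        Divisor L F) P := by
    intro P
    rw [NodalDatum.IsInertial.ord_smul_eq, hz, SemilinearAut.coe_degZeroSMulHom,
      SemilinearAut.divisor_smul_apply]
  have hred' : D.nod.V₁.redF (σ • z) = D.nod.V₁.redF z :=
    hσ.red₁ z (D.nod.V₁.mem_of_redF_ne_zero hne)
  have hσx : Pic0.mk (SemilinearAut.degZeroSMulHom σ D₀) = ((σ • x : Pic0.torsion L F m) : Pic0 L F) := by
    rw [SemilinearAut.coe_torsion_smul, ← hx, SemilinearAut.pic0_smul_mk]
  funext c
  rw [cMap₁_eq D C (σ • x) hσx hσz0 hσz (by rw [hred']; exact hne) c,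
    cMap₁_eq D C x hx hz0 hz hne c, hred']

/-- **inertia invariance of `cMap₂`** -/
theorem cMap₂_smul {σ : SemilinearAut L F} (hσ : D.nod.IsInertial σ) (m : ℕ)
    (x : Pic0.torsion L F m) : cMap₂ D C m (σ • x) = cMap₂ D C m x := by
  obtain ⟨D₀, z, hx, hz0, hz, hred⟩ := kapFun_rep D.nod.V₂ (Pic0.mem_torsion.1 x.2)
  have hne : D.nod.V₂.redF z ≠ 0 := by rw [hred]; exact kapFun_ne_zero _ _ _
  have hσz0 : σ • z ≠ 0 := by
    rw [SemilinearAut.smul_def]
    exact (map_ne_zero _).2 hz0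
  have hσz : ∀ P : Place L F, P.ord (σ • z) =
      (m : ℤ) * ((SemilinearAut.degZeroSMulHom σ D₀ : Divisor.degZero (K := L) (F := F)) :
        Divisor L F) P := by
    intro P
    rw [NodalDatum.IsInertial.ord_smul_eq, hz, SemilinearAut.coe_degZeroSMulHom,
      SemilinearAut.divisor_smul_apply]
  have hred' : D.nod.V₂.redF (σ • z) = D.nod.V₂.redF z :=
    hσ.red₂ z (D.nod.V₂.mem_of_redF_ne_zero hne)
  have hσx : Pic0.mk (SemilinearAut.degZeroSMulHom σ D₀) = ((σ • x : Pic0.torsion L F m) : Pic0 L F) := by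
    rw [SemilinearAut.coe_torsion_smul, ← hx, SemilinearAut.pic0_smul_mk]
  funext c
  rw [cMap₂_eq D C (σ • x) hσx hσz0 hσz (by rw [hred']; exact hne) c,
    cMap₂_eq D C x hx hz0 hz hne c, hred']

end Global

end Fermat.Agent.S44lib.Kap

end
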