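/-
S44lib / Kap / ModInst  (helper6)  — Project LSq: THE CONCRETE NODAL PACKAGE.

`S33lib.N.nonempty_nModInst` produces the nodal package `NModInst (M q) q A` from the EXISTENTIAL
`NInst.HasNRedInstance`, which hides that both components are `FRes A M` and that the nodal datum is
`LSb.Unit.modDatum`.  Here the package is rebuilt as a DEFINITION (`q ≥ 5`):

* `modD1 = Val.gaussOne M q A hqM hA`, `modD2' = Unit.modD2 hqM modD1`;
* `modCtx  : NodalCtx (Unit.modDatum hA modD1 modD2') (modG M q) (modGk hqM hA) (modGk hqM hA)`;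
* `modNRed : N.NRedDatum A (FBar (M q)) (FRes A M) (FRes A M)`, `modNRed_nod` (`rfl`);
* **`modNModInst hqM hA h5 : N.NModInst (M * q) q A`** with
  `(modNModInst ..).F₁ = FRes A M`, `.F₂ = FRes A M`, `.D = modNRed ..` by `rfl`.
-/
import Fermat.Agent.S33lib.N.Final
import Fermat.Agent.S33lib.N.Geom
import Fermat.Agent.S33lib.NInst.Inst

set_option autoImplicit false
set_option linter.unusedSectionVars false
set_option linter.style.haveILetI false

noncomputable section

namespace Fermat.Agent.S44lib.Kap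

open AlgebraicCurve ModularCurve Fermat.Agent.S18lib Fermat.Agent.LSb Fermat.Agent.S37lib
open Fermat.Agent.S29lib.GH Fermat.Agent.S33lib Fermat.Agent.S33lib.N Fermat.Agent.S33lib.NInst
open Fermat.Agent.S19lib

local notation "Qb" => AlgebraicClosure ℚ
local notation "GQ" => (AlgebraicClosure ℚ ≃ₐ[ℚ] AlgebraicClosure ℚ)

section Genus

variable (M q : ℕ) [NeZero M] [NeZero q]

/-- the genus of `FBar (M q)` -/
def modG : ℕ := (Gin0.exists_isCurveOfGenus_FBar (M * q)).choose

theorem modG_spec : IsCurveOfGenus Qb (FBar (M * q)) (modG M q) :=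
  (Gin0.exists_isCurveOfGenus_FBar (M * q)).choose_spec.1

instance modHpd : HasPrincipalDivisors Qb (FBar (M * q)) := (modG_spec M q).hasPrincipalDivisors

end Genus

variable {M q : ℕ} [NeZero M] [NeZero q] [hq : Fact q.Prime] {A : ValuationSubring Qb}
theorem modInfinite : Infinite (IsLocalRing.ResidueField A) :=
  haveI : IsAlgClosed (IsLocalRing.ResidueField A) := Gink.isAlgClosed_residueField A
  IsAlgClosed.instInfinite

variable (hqM : ¬ q ∣ M) (hA : A.LiesOverPrime q)
include hqM hA

/-- the genus of `FRes A M` -/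
def modGk : ℕ := (S37lib.B3.exists_isCurveOfGenus_FRes A M hqM hA).choose

theorem modGk_spec : IsCurveOfGenus (IsLocalRing.ResidueField A) (FRes A M) (modGk hqM hA) :=
  (S37lib.B3.exists_isCurveOfGenus_FRes A M hqM hA).choose_spec

/-- principal divisors on `FRes A M` -/
theorem modHpdK : HasPrincipalDivisors (IsLocalRing.ResidueField A) (FRes A M) :=
  (modGk_spec hqM hA).hasPrincipalDivisors

/-- the first Gauss datum -/
def modD1 : GaussDatum A (FBar (M * q)) (FRes A M) := Val.gaussOne M q A hqM hA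

theorem modD1_isGaussOne : Old.IsGaussOne (modD1 hqM hA) := Val.isGaussOne_gaussOne M q A hqM hA

/-- the second Gauss datum `= modD1 ∘ w_q` -/
def modD2' : GaussDatum A (FBar (M * q)) (FRes A M) := Unit.modD2 hqM (modD1 hqM hA)

theorem modD2'_isGaussTwo :
    Old.IsGaussTwo (modD1 hqM hA) (modD2' hqM hA) (Unit.wqR M q hqM) :=
  Unit.isGaussTwo_modD2 hqM (modD1 hqM hA)

/-- **the modular nodal datum** -/
def modNod : NodalDatum A (FBar (M * q)) (FRes A M) (FRes A M) :=
  letI := modHpdK hqM hA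
  Unit.modDatum hA (modD1 hqM hA) (modD2' hqM hA)

variable (h5 : 5 ≤ q)
include h5

/-- **the nodal context of the modular datum**, `q ≥ 5` -/
theorem modCtx : NodalCtx (modNod hqM hA) (modG M q) (modGk hqM hA) (modGk hqM hA) :=
  haveI := modHpdK hqM hA
  Unit.modNodalCtx' hqM hA (modD1_isGaussOne hqM hA) (modG_spec M q) (modGk_spec hqM hA)
    (Unit.mod_count_five_le h5 hqM hA (modD1_isGaussOne hqM hA) (modG_spec M q)
      (modGk_spec hqM hA))

/-- **the modular nodal reduction datum** -/
def modNRed :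
    letI := modHpdK hqM hA
    N.NRedDatum A (FBar (M * q)) (FRes A M) (FRes A M) :=
  letI := modHpdK hqM hA
  haveI := modInfinite (A := A)
  NRed.toNRedDatum (modCtx hqM hA h5).toNCtx

theorem modNRed_nod : (modNRed hqM hA h5).nod = modNod hqM hA := rfl

theorem modInertial : ∀ σ ∈ IAq A, (modNod hqM hA).IsInertial (galAutBar (M * q) σ) :=
  fun σ hσ =>
    letI := modHpdK hqM hA
    Unit.modDatum_isInertial hqM hA (modD1_isGaussOne hqM hA)
      (fun _ hx => Val.gaussOne_O_le M q A hqM hA hx) σ hσ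

theorem modRSmul : ∀ σ ∈ IAq A, ∀ P : Place Qb (FBar (M * q)),
    (modNRed hqM hA h5).r (galAutBar (M * q) σ • P) = (modNRed hqM hA h5).r P :=
  fun σ hσ P =>
    letI := modHpdK hqM hA
    haveI := modInfinite (A := A)
    NRed.toNRedDatum_r_smul (modCtx hqM hA h5) (modInertial hqM hA h5 σ hσ) P

/-- the inertia symmetries -/
def modSym :
    letI := modHpdK hqM hA
    N.NSym (modNRed hqM hA h5) ↥(IAq A) :=
  letI := modHpdK hqM hA
  nSymOf (modNRed hqM hA h5) (modInertial hqM hA h5) (modRSmul hqM hA h5)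

/-- the lifting context -/
theorem modLiftCtx :
    letI := modHpdK hqM hA
    N.NLiftCtx (modNRed hqM hA h5) (modSym hqM hA h5) (modG M q) (modGk hqM hA)
      (modGk hqM hA) :=
  letI := modHpdK hqM hA
  haveI := modInfinite (A := A)
  { ctx := modCtx hqM hA h5
    infinite_k := inferInstance
    lifts := nSymOf_hasFixedLifts hqM hA (modNRed hqM hA h5) (modInertial hqM hA h5)
      (modRSmul hqM hA h5) (modD1_isGaussOne hqM hA) (modD2'_isGaussTwo hqM hA) (modG_spec M q)
    frame := ⟨nFrameOf (modCtx hqM hA h5) _ fun h =>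
      ⟨(modInertial hqM hA h5 h.1 h.2).smul_P₁, (modInertial hqM hA h5 h.1 h.2).smul_P₂⟩⟩ }

/-- **THE CONCRETE NODAL PACKAGE** at level `M q`, `q ≥ 5` -/
def modNModInst : N.NModInst (M * q) q A :=
  letI := modHpdK hqM hA
  have hϖ : A.valuation ((q : ℕ) : Qb) < 1 := (A.mem_nonunits_iff).mp hA
  have hR : (modSym hqM hA h5).R = A0 A := N.R_eq_of (modSym hqM hA h5).toIAct fun _ => rfl
  have hε : ∀ ε ∈ (modSym hqM hA h5).R, A.valuation ε < 1 →
      A.valuation ε ≤ A.valuation ((q : ℕ) : Qb) := by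
    intro ε hε hlt
    rw [hR] at hε
    exact Fermat.Agent.S19lib.D.valuation_le_of_mem_A0 hq.out A hA hε hlt
  { F₁ := FRes A M
    F₂ := FRes A M
    fld₁ := inferInstance
    fld₂ := inferInstance
    alg₁ := inferInstance
    alg₂ := inferInstance
    g := modG M q
    g₁ := modGk hqM hA
    g₂ := modGk hqM hA
    hpd := modHpd M q
    hpd₁ := modHpdK hqM hA
    hpd₂ := modHpdK hqM hA
    D := modNRed hqM hA h5
    ctx := modCtx hqM hA h5
    inertial := modInertial hqM hA h5
    S := modSym hqM hA h5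
    ρ_eq := fun _ => rfl
    famS := N.nFamOfCtx_holds A (FBar (M * q)) (FRes A M) (FRes A M) _ (modNRed hqM hA h5)
      (modSym hqM hA h5) _ _ _ (modLiftCtx hqM hA h5)
    triS := N.nExistsTriStmt_of (modLiftCtx hqM hA h5) hϖ hε
      (N.nTriOfCtx_holds A (FBar (M * q)) (FRes A M) (FRes A M) _ (modNRed hqM hA h5)
        (modSym hqM hA h5) _ _ _ (modLiftCtx hqM hA h5))
    kerS := NB.nKerStmt_of (modCtx hqM hA h5) }

theorem modNModInst_F₁ : (modNModInst hqM hA h5).F₁ = FRes A M := rfl

theorem modNModInst_F₂ : (modNModInst hqM hA h5).F₂ = FRes A M := rfl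

theorem modNModInst_nod : (modNModInst hqM hA h5).D.nod = modNod hqM hA := rfl

theorem modNModInst_V₁ : (modNModInst hqM hA h5).D.nod.V₁ = modD1 hqM hA := rfl

theorem modNModInst_V₂ : (modNModInst hqM hA h5).D.nod.V₂ = modD2' hqM hA := rfl

end Fermat.Agent.S44lib.Kap

end
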