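/-
S44lib / Kap / CPow  (helper6)  — Project LSq, block Q2a.

**Trivial reduction Kummer classes.**  For a Gauss datum `G` (a valuation ring of `F` above `A` with
residue field `Fk`) and `m : ℕ`:

* `IsCPow m φ`  : `φ ∈ Fk` is a constant times an `m`-th power (`φ = 0` allowed);
* `KTriv G m u` : `u ∈ F` has trivial Kummer class modulo `m` along `G`: for one (equivalently every)
                  constant `c` making `c u` a `G`-unit, the reduction of `c u` is a constant times an
                  `m`-th power;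
* `KTriv.isCPow_redF` : then EVERY constant multiple of `u` lying in `G.O` reduces to an `IsCPow`.
-/
import Fermat.Agent.S18lib.Weak.Lemmas

set_option autoImplicit false

noncomputable section

namespace Fermat.Agent.S44lib.Kap

open Fermat.Agent.S18lib

variable {L : Type*} [Field L] {A : ValuationSubring L}
variable {F : Type*} [Field F] [Algebra L F]
variable {Fk : Type*} [Field Fk] [Algebra (IsLocalRing.ResidueField A) Fk]

local notation "k" => IsLocalRing.ResidueField A

/-- `φ` is a constant times an `m`-th power -/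
def IsCPow (A : ValuationSubring L) {Fk : Type*} [Field Fk]
    [Algebra (IsLocalRing.ResidueField A) Fk] (m : ℕ) (φ : Fk) : Prop :=
  ∃ (a : IsLocalRing.ResidueField A) (ψ : Fk),
    φ = algebraMap (IsLocalRing.ResidueField A) Fk a * ψ ^ m

namespace IsCPow

variable {m : ℕ} {φ φ' : Fk}

theorem zero : IsCPow A m (0 : Fk) := ⟨0, 0, by rw [map_zero, zero_mul]⟩

theorem one : IsCPow A m (1 : Fk) := ⟨1, 1, by rw [map_one, one_pow, one_mul]⟩

theorem pow_self (ψ : Fk) : IsCPow A m (ψ ^ m) := ⟨1, ψ, by rw [map_one, one_mul]⟩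

theorem const (a : k) : IsCPow A m (algebraMap k Fk a) := ⟨a, 1, by rw [one_pow, mul_one]⟩

theorem mul (h : IsCPow A m φ) (h' : IsCPow A m φ') : IsCPow A m (φ * φ') := by
  obtain ⟨a, ψ, rfl⟩ := h
  obtain ⟨a', ψ', rfl⟩ := h'
  exact ⟨a * a', ψ * ψ', by rw [map_mul, mul_pow]; ring⟩

theorem smul (a : k) (h : IsCPow A m φ) : IsCPow A m (a • φ) := by
  rw [Algebra.smul_def]
  exact (const a).mul h

theorem inv (h : IsCPow A m φ) : IsCPow A m φ⁻¹ := by
  obtain ⟨a, ψ, rfl⟩ := h
  exact ⟨a⁻¹, ψ⁻¹, by rw [mul_inv, map_inv₀, inv_pow]⟩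

end IsCPow

/-- `u` has **trivial Kummer class modulo `m`** along the Gauss datum `G` -/
def KTriv (G : GaussDatum A F Fk) (m : ℕ) (u : F) : Prop :=
  ∃ c : L, c ≠ 0 ∧ G.redF (algebraMap L F c * u) ≠ 0 ∧ IsCPow A m (G.redF (algebraMap L F c * u))

namespace KTriv

variable {G : GaussDatum A F Fk} {m : ℕ} {u u' : F}

theorem ne_zero (h : KTriv G m u) : u ≠ 0 := by
  rintro rfl
  obtain ⟨c, -, hne, -⟩ := h
  rw [mul_zero] at hne
  exact hne G.redF_zero

/-- a `G`-unit whose reduction is a constant times an `m`-th power -/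
theorem of_redF {u : F} (hne : G.redF u ≠ 0) (h : IsCPow A m (G.redF u)) : KTriv G m u :=
  ⟨1, one_ne_zero, by rwa [map_one, one_mul], by rwa [map_one, one_mul]⟩

theorem mul (h : KTriv G m u) (h' : KTriv G m u') : KTriv G m (u * u') := by
  obtain ⟨c, hc, hne, hp⟩ := h
  obtain ⟨c', hc', hne', hp'⟩ := h'
  have e : algebraMap L F (c * c') * (u * u') =
      (algebraMap L F c * u) * (algebraMap L F c' * u') := by
    rw [map_mul]; ring
  have hm := G.redF_mul (G.mem_of_redF_ne_zero hne) (G.mem_of_redF_ne_zero hne')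
  refine ⟨c * c', mul_ne_zero hc hc', ?_, ?_⟩
  · rw [e, hm]
    exact mul_ne_zero hne hne'
  · rw [e, hm]
    exact hp.mul hp'

theorem inv (h : KTriv G m u) : KTriv G m u⁻¹ := by
  obtain ⟨c, hc, hne, hp⟩ := h
  have e : algebraMap L F c⁻¹ * u⁻¹ = (algebraMap L F c * u)⁻¹ := by
    rw [map_inv₀, mul_inv]
  refine ⟨c⁻¹, inv_ne_zero hc, ?_, ?_⟩
  · rw [e, G.redF_inv hne]
    exact inv_ne_zero hne
  · rw [e, G.redF_inv hne]
    exact hp.inv

/-- `m`-th powers have trivial class -/
theorem pow_self {f : F} (hf : f ≠ 0) (m : ℕ) : KTriv G m (f ^ m) := by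
  obtain ⟨c, hc, hne⟩ := G.exists_const_mul_redF_ne_zero hf
  have e : algebraMap L F (c ^ m) * f ^ m = (algebraMap L F c * f) ^ m := by
    rw [map_pow, mul_pow]
  refine ⟨c ^ m, pow_ne_zero _ hc, ?_, ?_⟩
  · rw [e, G.redF_pow (G.mem_of_redF_ne_zero hne)]
    exact pow_ne_zero _ hne
  · rw [e, G.redF_pow (G.mem_of_redF_ne_zero hne)]
    exact IsCPow.pow_self _

/-- nonzero constants have trivial class -/
theorem const {a : L} (ha : a ≠ 0) (m : ℕ) : KTriv G m (algebraMap L F a) := by
  refine ⟨a⁻¹, inv_ne_zero ha, ?_, ?_⟩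
  · rw [← map_mul, inv_mul_cancel₀ ha, map_one, G.redF_one]
    exact one_ne_zero
  · rw [← map_mul, inv_mul_cancel₀ ha, map_one, G.redF_one]
    exact IsCPow.one

/-- **every** constant multiple of `u` lying in `G.O` reduces to a constant times an `m`-th power -/
theorem isCPow_redF (h : KTriv G m u) {d : L} (hd : algebraMap L F d * u ∈ G.O) :
    IsCPow A m (G.redF (algebraMap L F d * u)) := by
  obtain ⟨c, hc, hne, hp⟩ := h
  set w : F := algebraMap L F c * u with hw
  have hwO : w ∈ G.O := G.mem_of_redF_ne_zero hne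
  have hwinv : w⁻¹ ∈ G.O := G.inv_mem_of_redF_ne_zero hne
  have hw0 : w ≠ 0 := by
    rintro h0
    rw [h0] at hne
    exact hne G.redF_zero
  have hcF : algebraMap L F c ≠ 0 := (map_ne_zero _).2 hc
  -- `d u = (d / c) w`
  have e : algebraMap L F d * u = algebraMap L F (d / c) * w := by
    rw [hw, map_div₀]
    field_simp
  -- `d / c ∈ A`
  have hmem : d / c ∈ A := by
    rw [← G.algebraMap_mem_iff]
    have : algebraMap L F (d / c) = (algebraMap L F d * u) * w⁻¹ := by
      rw [e, mul_assoc, mul_inv_cancel₀ hw0, mul_one]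
    rw [this]
    exact G.O.mul_mem _ _ hd hwinv
  rw [e]
  have := G.redF_smul ⟨d / c, hmem⟩ hwO
  rw [this]
  exact hp.smul _

end KTriv

end Fermat.Agent.S44lib.Kap

end
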