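/-
S44lib / Kap / Link  (helper6)  — Project LSq, block Q2a, THE CORE.

**Classes with trivial reduction Kummer classes lie in the kernel of reduction.**

Let `x = [D₀] ∈ Pic⁰(F)` with `m • D₀ = div z`, `m = p ^ n`, `p` the residue characteristic (the
residue field being perfect).  If the Kummer class of `z` along BOTH Gauss valuations is trivial
(`KTriv D.V₁ m z`, `KTriv D.V₂ m z`: a normalisation of `z` reduces to a constant times an `m`-th
power), then `x = [∑ P_i - ∑ ctr_i]` with `P_i` in the residue disc of the centre `ctr_i`, for ANY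
family of `g` nodally non-special centres in distinct smooth residue discs (`Kum.LinkCtx`).

This is helper7's link `Kum.exists_points_of_mem_kumSub` with the one-unit replaced by an arbitrary
function with trivial classes; the non-special centres absorb the possible difference of the two
norms of `z`: `φ = c f^m z ∈ L(m E₀)` of sup-norm one reduces to `(χ₁^m, χ₂^m) ∈ NS(m Ē₀)`, hence
`(χ₁, χ₂) ∈ NS(Ē₀) = k`; in particular BOTH reductions of `φ` are the same nonzero constant.
No annulus is ever looked at.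
-/
import Fermat.Agent.S44lib.Kap.CPow
import Fermat.Agent.S33lib.Kum.Link

set_option autoImplicit false

noncomputable section

namespace Fermat.Agent.S44lib.Kap

open AlgebraicCurve Fermat.Agent.LSb Fermat.Agent.S18lib Fermat.Agent.S33lib.Kum

variable {L : Type*} [Field L] {A : ValuationSubring L}
variable {F : Type*} [Field F] [Algebra L F]
variable {F₁ F₂ : Type*} [Field F₁] [Field F₂]
variable [Algebra (IsLocalRing.ResidueField A) F₁] [Algebra (IsLocalRing.ResidueField A) F₂]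

local notation "k" => IsLocalRing.ResidueField A

/-- in a perfect field of characteristic `p` every element is a `p ^ n`-th power -/
theorem exists_pow_pow_eq {K : Type*} [Field K] {p : ℕ} (hroot : ∀ a : K, ∃ b : K, b ^ p = a)
    (n : ℕ) (a : K) : ∃ b : K, b ^ p ^ n = a := by
  induction n generalizing a with
  | zero => exact ⟨a, by rw [pow_zero, pow_one]⟩
  | succ n ih =>
    obtain ⟨b, hb⟩ := hroot a
    obtain ⟨c, hc⟩ := ih b
    exact ⟨c, by rw [pow_succ, pow_mul, hc, hb]⟩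

/-- a constant times an `m`-th power is an `m`-th power, when constants have `m`-th roots -/
theorem IsCPow.exists_eq_pow {Fk : Type*} [Field Fk] [Algebra k Fk] {m : ℕ}
    (hroot : ∀ a : k, ∃ b : k, b ^ m = a) {φ : Fk} (h : IsCPow A m φ) : ∃ χ : Fk, φ = χ ^ m := by
  obtain ⟨a, ψ, rfl⟩ := h
  obtain ⟨b, rfl⟩ := hroot a
  exact ⟨algebraMap k Fk b * ψ, by rw [mul_pow, map_pow]⟩

/-- **The link for trivial reduction Kummer classes.** -/
theorem exists_points_of_kTriv {D : NodalDatum A F F₁ F₂} {g g₁ g₂ : ℕ}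
    (C : NodalCtx D g g₁ g₂) (X : LinkCtx D g) (p : ℕ) [ExpChar k p]
    (hroot : ∀ a : k, ∃ b : k, b ^ p = a) (n : ℕ)
    (D₀ : Divisor.degZero (K := L) (F := F)) {z : F} (hz0 : z ≠ 0)
    (hzord : ∀ P : Place L F, P.ord z = ((p ^ n : ℕ) : ℤ) * (D₀ : Divisor L F) P)
    (h₁ : KTriv D.V₁ (p ^ n) z) (h₂ : KTriv D.V₂ (p ^ n) z) :
    ∃ P : Fin g → Place L F, (∀ i, X.r (P i) = some (X.Qc i)) ∧
      ∃ h : Core.sumPts P - Core.sumPts X.ctr ∈ Divisor.degZero (K := L) (F := F),
        Pic0.mk D₀ = Pic0.mk ⟨Core.sumPts P - Core.sumPts X.ctr, h⟩ := by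
  classical
  set m : ℕ := p ^ n with hm
  have hmpos : 0 < m := pow_pos (expChar_pos k p) n
  have hmZ : (0 : ℤ) < m := by exact_mod_cast hmpos
  have hrootm : ∀ a : k, ∃ b : k, b ^ m = a := exists_pow_pow_eq hroot n
  set E₀ : Divisor L F := Core.sumPts X.ctr with hE₀
  have hdegE₀ : Divisor.degree E₀ = g := Core.degree_sumPts _ C.hF.deg_eq_one
  have hdegD₀ : Divisor.degree (D₀ : Divisor L F) = 0 := D₀.2
  -- Riemann: `L(D₀ + E₀) ≠ 0`
  have hpos : 0 < Module.finrank L (riemannRochSpace ((D₀ : Divisor L F) + E₀)) := by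
    have h1 := C.hF.riemann_le ((D₀ : Divisor L F) + E₀)
    rw [map_add, hdegD₀, hdegE₀] at h1
    have : (0 : ℤ) < (Module.finrank L (riemannRochSpace ((D₀ : Divisor L F) + E₀)) : ℤ) := by
      linarith
    exact_mod_cast this
  have := C.hF.finiteDimensional ((D₀ : Divisor L F) + E₀)
  obtain ⟨f₀, hf₀⟩ := Module.finrank_pos_iff_exists_ne_zero.1 hpos
  have hf0 : (f₀ : F) ≠ 0 := fun h => hf₀ (Subtype.ext h)
  set f : F := (f₀ : F) with hf
  have hfrr : f ∈ riemannRochSpace ((D₀ : Divisor L F) + E₀) := f₀.2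
  have hford : ∀ P : Place L F, -((D₀ : Divisor L F) P + E₀ P) ≤ P.ord f := by
    intro P
    have := (S18lib.Cech.mem_rr_of_ne hf0).1 hfrr P
    rwa [Finsupp.add_apply] at this
  -- the divisor of `f`
  obtain ⟨Df, hDf, hDfdeg⟩ := C.hF.hasPrincipalDivisors.exists_divisor f hf0
  set E' : Divisor L F := (D₀ : Divisor L F) + E₀ + Df with hE'
  have hE'nonneg : ∀ P, 0 ≤ E' P := by
    intro P
    rw [hE', Finsupp.add_apply, Finsupp.add_apply, hDf]
    linarith [hford P]
  -- the function `φ = c f^m z`, normalised to sup-norm one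
  have hw0 : f ^ m * z ≠ 0 := mul_ne_zero (pow_ne_zero _ hf0) hz0
  obtain ⟨c, hc, hφO₁, hφO₂, hφred⟩ := exists_const_mul_mem D hw0
  set φ : F := algebraMap L F c * (f ^ m * z) with hφ
  have hφ0 : φ ≠ 0 := mul_ne_zero ((map_ne_zero _).2 hc) hw0
  have hφord : ∀ P : Place L F, P.ord φ = (m : ℤ) * (E' P - E₀ P) := by
    intro P
    rw [hφ, P.ord_mul ((map_ne_zero _).2 hc) hw0, S18lib.ord_algebraMap_eq_zero P hc, zero_add,
      P.ord_mul (pow_ne_zero _ hf0) hz0, S18lib.Cech.ord_pow, hzord, hE',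
      Finsupp.add_apply, Finsupp.add_apply, hDf]
    ring
  have hφrr : φ ∈ riemannRochSpace ((m : ℤ) • E₀) := by
    rw [S18lib.Cech.mem_rr_of_ne hφ0]
    intro P
    rw [hφord, Finsupp.smul_apply, smul_eq_mul]
    nlinarith [hE'nonneg P]
  -- both reductions of `φ` are `m`-th powers
  have hk₁ : KTriv D.V₁ m (f ^ m * z) := (KTriv.pow_self hf0 m).mul h₁
  have hk₂ : KTriv D.V₂ m (f ^ m * z) := (KTriv.pow_self hf0 m).mul h₂
  obtain ⟨χ₁, hχ₁⟩ := (hk₁.isCPow_redF hφO₁).exists_eq_pow hrootm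
  obtain ⟨χ₂, hχ₂⟩ := (hk₂.isCPow_redF hφO₂).exists_eq_pow hrootm
  -- reduce and extract the root
  have h1 := X.red_mem m φ hφrr hφO₁ hφO₂
  rw [hχ₁, hχ₂] at h1
  have h2 : (χ₁, χ₂) ∈ Core.nodalSpace D.x₁ D.x₂ 1 X.E₁ X.E₂ :=
    mem_nodalSpace_of_pow_mem p n C.hF₁.deg_eq_one C.hF₂.deg_eq_one (φ := (χ₁, χ₂))
      (by simpa [hm] using h1)
  obtain ⟨c₀, hc₀⟩ := X.nonspecial _ h2
  have hc₀1 : χ₁ = algebraMap k F₁ c₀ := congrArg Prod.fst hc₀
  have hc₀2 : χ₂ = algebraMap k F₂ c₀ := congrArg Prod.snd hc₀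
  have hc₀ne : c₀ ≠ 0 := by
    rintro rfl
    rw [map_zero] at hc₀1 hc₀2
    rcases hφred with h | h
    · exact h (by rw [hχ₁, hc₀1, zero_pow hmpos.ne'])
    · exact h (by rw [hχ₂, hc₀2, zero_pow hmpos.ne'])
  -- conservation in the discs of the centres
  have hcons := X.cons φ (c₀ ^ m) (pow_ne_zero _ hc₀ne)
    (by rw [hχ₁, hc₀1, map_pow]) (by rw [hχ₂, hc₀2, map_pow])
  have hDv : ∀ P : Place L F, ((m : ℤ) • (E' - E₀)) P = P.ord φ := by
    intro P
    rw [hφord, Finsupp.smul_apply, Finsupp.sub_apply, smul_eq_mul]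
  have hQinj : Function.Injective fun i => (some (X.Qc i) : Option (Place k F₁ ⊕ Place k F₂)) :=
    fun i j hij => X.Qc_inj (Option.some.inj hij)
  have hrctr : (fun i => X.r (X.ctr i)) = fun i => some (X.Qc i) := funext X.r_ctr
  have hfib1 : ∀ i, fibreSum X.r (some (X.Qc i)) E' = 1 := by
    intro i
    have h3 := hcons _ hDv i
    rw [map_zsmul, map_sub, smul_eq_mul] at h3
    have h4 : fibreSum X.r (some (X.Qc i)) E' = fibreSum X.r (some (X.Qc i)) E₀ := by
      rcases mul_eq_zero.1 h3 with h | h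
      · exact absurd h hmZ.ne'
      · exact sub_eq_zero.1 h
    rw [h4]
    exact fibreSum_sum_single_of_exists X.r X.ctr (by rw [hrctr]; exact hQinj) ⟨i, X.r_ctr i⟩
  -- degree count
  have htot : totalSum E' = g := by
    rw [← degree_eq_totalSum C.hF.deg_eq_one, hE', map_add, map_add, hdegD₀, hdegE₀, hDfdeg]
    ring
  obtain ⟨P, hPr, hPE⟩ := exists_points_of_fibreSum X.r E' hE'nonneg
    (fun i => some (X.Qc i)) hQinj hfib1
    (fun b hb => fibreSum_eq_zero_of_totalSum X.r hE'nonneg _ hQinj hfib1 htot hb)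
  have hPE' : E' = Core.sumPts P := hPE
  refine ⟨P, hPr, ?_⟩
  have hdeg : Core.sumPts P - Core.sumPts X.ctr ∈ Divisor.degZero (K := L) (F := F) := by
    rw [Divisor.mem_degZero, map_sub, Core.degree_sumPts _ C.hF.deg_eq_one,
      Core.degree_sumPts _ C.hF.deg_eq_one, sub_self]
  refine ⟨hdeg, ?_⟩
  -- `D₀ = (E' - E₀) - div f`
  apply (QuotientAddGroup.eq).2
  rw [AddSubgroup.mem_addSubgroupOf]
  refine ⟨f, hf0, fun v => ?_⟩
  show (-(D₀ : Divisor L F) + (Core.sumPts P - Core.sumPts X.ctr)) v = v.ord f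
  rw [← hPE', ← hE₀, hE', ← hDf v]
  simp only [Finsupp.add_apply, Finsupp.sub_apply, Finsupp.neg_apply]
  ring

end Fermat.Agent.S44lib.Kap

end
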