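/-
S44lib / Kap / NKred  (helper6)  — Project LSq, block Q2a.

**The kernel of reduction on torsion = the classes with trivial reduction Kummer classes.**
For a nodal reduction datum `D : N.NRedDatum A F F₁ F₂` (with its `LSb.NodalCtx`), `m = p ^ n` a power
of the residue characteristic (perfect residue field) and `x = [D₀]`, `m • D₀ = div z`:

* `mem_NKred_of_kTriv` : `KTriv V₁ m z → KTriv V₂ m z → x ∈ N.NKred D`
                         (given `g` nodally non-special centres in distinct smooth discs);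
* `kTriv_of_mem_NKred` : conversely, `x ∈ N.NKred D` implies both;
* `kTriv_congr`        : the conditions do not depend on the representative `(D₀, z)`.
-/
import Fermat.Agent.S44lib.Kap.Link
import Fermat.Agent.S33lib.Kum.NLink
import Fermat.Agent.S33lib.N.Family

set_option autoImplicit false
set_option linter.unusedSectionVars false

noncomputable section

namespace Fermat.Agent.S44lib.Kap

open AlgebraicCurve Fermat.Agent.LSb Fermat.Agent.S18lib Fermat.Agent.S33lib
open Fermat.Agent.S33lib.N Fermat.Agent.S33lib.Kum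

variable {L : Type*} [Field L] {A : ValuationSubring L}
variable {F : Type*} [Field F] [Algebra L F] [HasPrincipalDivisors L F]
variable {F₁ F₂ : Type*} [Field F₁] [Field F₂]
variable [Algebra (IsLocalRing.ResidueField A) F₁] [Algebra (IsLocalRing.ResidueField A) F₂]
variable [HasPrincipalDivisors (IsLocalRing.ResidueField A) F₁]
  [HasPrincipalDivisors (IsLocalRing.ResidueField A) F₂]

local notation "k" => IsLocalRing.ResidueField A

/-- a difference of two sums of points lying in the same smooth residue discs is in the kernel of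
reduction -/
theorem mk_sumPts_sub_mem_NKred (D : NRedDatum A F F₁ F₂) {g : ℕ} (P ctr : Fin g → Place L F)
    (Qc : Fin g → Pt A F₁ F₂) (hP : ∀ i, D.r (P i) = some (Qc i))
    (hr : ∀ i, D.r (ctr i) = some (Qc i))
    (h : Core.sumPts P - Core.sumPts ctr ∈ Divisor.degZero (K := L) (F := F)) :
    Pic0.mk ⟨Core.sumPts P - Core.sumPts ctr, h⟩ ∈ NKred D := by
  refine ⟨⟨Core.sumPts P - Core.sumPts ctr, h⟩, rfl, ?_, ?_⟩
  · refine NRedDatum.SmoothSupp.sub ?_ ?_
    · exact NRedDatum.smoothSupp_sum _ _ fun i _ => NRedDatum.smoothSupp_single (hP i) 1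
    · exact NRedDatum.smoothSupp_sum _ _ fun i _ => NRedDatum.smoothSupp_single (hr i) 1
  · show D.push (Core.sumPts P - Core.sumPts ctr) = 0
    rw [map_sub, Core.sumPts, Core.sumPts, map_sum, map_sum, sub_eq_zero]
    refine Finset.sum_congr rfl fun i _ => ?_
    rw [D.push_single_of_eq (hP i), D.push_single_of_eq (hr i)]

/-- **trivial reduction Kummer classes ⟹ kernel of reduction** -/
theorem mem_NKred_of_kTriv (D : NRedDatum A F F₁ F₂) {g g₁ g₂ : ℕ}
    (C : NodalCtx D.nod g g₁ g₂) (ctr : Fin g → Place L F) (Qc : Fin g → Pt A F₁ F₂)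
    (hr : ∀ i, D.r (ctr i) = some (Qc i)) (hQ : Function.Injective Qc)
    (hell : D.ell (D.push₁ (Core.sumPts ctr)) (D.push₂ (Core.sumPts ctr)) = 1)
    (p : ℕ) [ExpChar k p] (hroot : ∀ a : k, ∃ b : k, b ^ p = a) (n : ℕ)
    (D₀ : Divisor.degZero (K := L) (F := F)) {z : F} (hz0 : z ≠ 0)
    (hzord : ∀ P : Place L F, P.ord z = ((p ^ n : ℕ) : ℤ) * (D₀ : Divisor L F) P)
    (h₁ : KTriv D.nod.V₁ (p ^ n) z) (h₂ : KTriv D.nod.V₂ (p ^ n) z) :
    Pic0.mk D₀ ∈ NKred D := by
  have hns := nonspecial_of_ell_eq_one D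
    (fun v => pushO_nonneg _ (Core.sumPts_nonneg ctr) v)
    (fun v => pushO_nonneg _ (Core.sumPts_nonneg ctr) v) hell
  obtain ⟨P, hP, hdeg, hx⟩ := exists_points_of_kTriv C (linkCtx D ctr Qc hr hQ hns) p hroot n D₀
    hz0 hzord h₁ h₂
  rw [hx]
  exact mk_sumPts_sub_mem_NKred D P ctr Qc hP hr hdeg

/-- the same with the centres of a chart family -/
theorem mem_NKred_of_kTriv_of_nFam (D : NRedDatum A F F₁ F₂) {g g₁ g₂ : ℕ}
    (C : NodalCtx D.nod g g₁ g₂) {G : Type*} [Group G] {S : NSym D G} (a : NFam D S g)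
    (p : ℕ) [ExpChar k p] (hroot : ∀ a : k, ∃ b : k, b ^ p = a) (n : ℕ)
    (D₀ : Divisor.degZero (K := L) (F := F)) {z : F} (hz0 : z ≠ 0)
    (hzord : ∀ P : Place L F, P.ord z = ((p ^ n : ℕ) : ℤ) * (D₀ : Divisor L F) P)
    (h₁ : KTriv D.nod.V₁ (p ^ n) z) (h₂ : KTriv D.nod.V₂ (p ^ n) z) :
    Pic0.mk D₀ ∈ NKred D :=
  mem_NKred_of_kTriv D C (fun i => (a.ch i).P0) a.Qb a.r_P0 a.inj a.ell_push_E p hroot n D₀ hz0
    hzord h₁ h₂

/-- **kernel of reduction ⟹ trivial reduction Kummer classes**: if `E` is supported on the smooth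
locus with `push E = 0` and `m • E = div z`, then a normalisation of `z` reduces to the SAME nonzero
constant on both components -/
theorem exists_const_of_push_eq_zero (D : NRedDatum A F F₁ F₂) {g g₁ g₂ : ℕ}
    (C : NodalCtx D.nod g g₁ g₂) {E : Divisor L F} (hE : D.SmoothSupp E) (hpush : D.push E = 0)
    (m : ℕ) {z : F} (hz0 : z ≠ 0) (hzord : ∀ P : Place L F, P.ord z = (m : ℤ) * E P) :
    ∃ (c : L) (a : k), c ≠ 0 ∧ a ≠ 0 ∧
      D.nod.V₁.redF (algebraMap L F c * z) = algebraMap k F₁ a ∧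
      D.nod.V₂.redF (algebraMap L F c * z) = algebraMap k F₂ a := by
  obtain ⟨c, hc, hO₁, hO₂, hred⟩ := exists_const_mul_mem D.nod hz0
  set w : F := algebraMap L F c * z with hw
  have hw0 : w ≠ 0 := mul_ne_zero ((map_ne_zero _).2 hc) hz0
  have hword : ∀ P : Place L F, P.ord w = (m : ℤ) * E P := by
    intro P
    rw [hw, P.ord_mul ((map_ne_zero _).2 hc) hz0, S18lib.ord_algebraMap_eq_zero P hc, zero_add,
      hzord]
  -- `w ∈ L(-(m • E))`
  have hwrr : w ∈ riemannRochSpace (-((m : ℤ) • E)) := by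
    rw [S18lib.Cech.mem_rr_of_ne hw0]
    intro P
    rw [hword, Finsupp.neg_apply, Finsupp.smul_apply, smul_eq_mul, neg_neg]
  have hsupp : ∀ P, (-((m : ℤ) • E)) P ≠ 0 → D.r P ≠ none := by
    intro P hP
    refine hE P fun h0 => hP ?_
    rw [Finsupp.neg_apply, Finsupp.smul_apply, h0, smul_zero, neg_zero]
  have hmem := D.red_mem _ hsupp w hwrr hO₁ hO₂
  have hp₁ : pushO (fst? D.r) (-((m : ℤ) • E)) = 0 := by
    have : D.push₁ E = 0 := by rw [← D.fst_push, hpush, map_zero]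
    rw [map_neg, map_zsmul]
    show -((m : ℤ) • D.push₁ E) = 0
    rw [this, smul_zero, neg_zero]
  have hp₂ : pushO (snd? D.r) (-((m : ℤ) • E)) = 0 := by
    have : D.push₂ E = 0 := by rw [← D.snd_push, hpush, map_zero]
    rw [map_neg, map_zsmul]
    show -((m : ℤ) • D.push₂ E) = 0
    rw [this, smul_zero, neg_zero]
  rw [hp₁, hp₂] at hmem
  obtain ⟨m1, m2, hglue⟩ := hmem
  -- both components are constants
  rw [C.hF₁.riemannRochSpace_zero] at m1
  rw [C.hF₂.riemannRochSpace_zero] at m2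
  obtain ⟨a₁, ha₁⟩ := Algebra.mem_bot.1 m1
  obtain ⟨a₂, ha₂⟩ := Algebra.mem_bot.1 m2
  have e₁ : D.nod.V₁.redF w = algebraMap k F₁ a₁ := ha₁.symm
  have e₂ : D.nod.V₂.redF w = algebraMap k F₂ a₂ := ha₂.symm
  -- glued at a node
  have c₀ : Fin D.nod.s := ⟨0, C.s_pos⟩
  have hg := ((Core.gluedAt_iff C.hF₁.deg_eq_one C.hF₂.deg_eq_one c₀ _ _).1 (hglue c₀)).2.2
  have e₁' : (D.nod.redF w).1 = algebraMap k F₁ a₁ := e₁
  have e₂' : (D.nod.redF w).2 = algebraMap k F₂ a₂ := e₂
  rw [e₁', e₂', Core.valAt_algebraMap, Core.valAt_algebraMap] at hg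
  simp only [Pi.one_apply, one_mul] at hg
  have ha : a₁ ≠ 0 := by
    rintro rfl
    rw [hg] at e₂
    rw [map_zero] at e₁ e₂
    rcases hred with h | h
    · exact h e₁
    · exact h e₂
  exact ⟨c, a₁, hc, ha, e₁, by rw [e₂, hg]⟩

theorem kTriv_of_push_eq_zero (D : NRedDatum A F F₁ F₂) {g g₁ g₂ : ℕ}
    (C : NodalCtx D.nod g g₁ g₂) {E : Divisor L F} (hE : D.SmoothSupp E) (hpush : D.push E = 0)
    (m : ℕ) {z : F} (hz0 : z ≠ 0) (hzord : ∀ P : Place L F, P.ord z = (m : ℤ) * E P) :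
    KTriv D.nod.V₁ m z ∧ KTriv D.nod.V₂ m z := by
  obtain ⟨c, a, hc, ha, e₁, e₂⟩ := exists_const_of_push_eq_zero D C hE hpush m hz0 hzord
  refine ⟨⟨c, hc, ?_, ?_⟩, ⟨c, hc, ?_, ?_⟩⟩
  · rw [e₁]; exact (map_ne_zero _).2 ha
  · rw [e₁]; exact IsCPow.const a
  · rw [e₂]; exact (map_ne_zero _).2 ha
  · rw [e₂]; exact IsCPow.const a

end Fermat.Agent.S44lib.Kap

end
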