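/-
S44lib / Kap / Class  (helper6)  — Project LSq, block Q2a.

**The reduction Kummer class is a class function.**

* `exists_rep_of_smul_eq_zero` : an `m`-torsion class `x` has a representative `(D₀, z)`,
                                 `x = [D₀]`, `m • D₀ = div z`;
* `exists_eq_const_mul_pow`    : two representatives satisfy `z' = a · z · f ^ m`;
* `KTriv.congr`                : hence `KTriv G m z ↔ KTriv G m z'`;
* `KTriv.smul_iff`             : `KTriv Vᵢ m (σ • z) ↔ KTriv Vᵢ m z` for an inertial `σ`;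
* `KTrivCl D m x`              : the class `x` has trivial reduction Kummer classes on both
                                 components; `kTrivCl_iff`, `kTrivCl_smul_iff`;
* `mem_NKred_iff_kTrivCl`      : for `x` of `p ^ n`-torsion, `x ∈ N.NKred D ↔ KTrivCl D.nod (p ^ n) x`.
-/
import Fermat.Agent.S44lib.Kap.NKred
import Fermat.Agent.S29lib.K1.Const
import Fermat.Agent.LSb.Core.Kummer1
import Fermat.Agent.LSb.Core.Kummer2

set_option autoImplicit false
set_option linter.unusedSectionVars false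

noncomputable section

namespace Fermat.Agent.S44lib.Kap

open AlgebraicCurve Fermat.Agent.LSb Fermat.Agent.S18lib Fermat.Agent.S33lib
open Fermat.Agent.S33lib.N

variable {L : Type*} [Field L] {A : ValuationSubring L}
variable {F : Type*} [Field F] [Algebra L F]
variable {Fk : Type*} [Field Fk] [Algebra (IsLocalRing.ResidueField A) Fk]
variable {F₁ F₂ : Type*} [Field F₁] [Field F₂]
variable [Algebra (IsLocalRing.ResidueField A) F₁] [Algebra (IsLocalRing.ResidueField A) F₂]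

local notation "k" => IsLocalRing.ResidueField A

/-- an `m`-torsion class has a representative `(D₀, z)` with `m • D₀ = div z` -/
theorem exists_rep_of_smul_eq_zero {m : ℕ} {x : Pic0 L F} (hx : (m : ℤ) • x = 0) :
    ∃ (D₀ : Divisor.degZero (K := L) (F := F)) (z : F), Pic0.mk D₀ = x ∧ z ≠ 0 ∧
      ∀ P : Place L F, P.ord z = (m : ℤ) * (D₀ : Divisor L F) P := by
  obtain ⟨D₀, rfl⟩ := Pic0.mk_surjective x
  have h1 : Pic0.mk ((m : ℤ) • D₀) = 0 := hx
  have h2 := (QuotientAddGroup.eq_zero_iff _).1 h1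
  rw [AddSubgroup.mem_addSubgroupOf] at h2
  obtain ⟨z, hz0, hz⟩ := h2
  refine ⟨D₀, z, rfl, hz0, fun P => ?_⟩
  rw [← hz P]
  simp

/-- two representatives of the same `m`-torsion class differ by a constant times an `m`-th power -/
theorem exists_eq_const_mul_pow {g : ℕ} (hF : IsCurveOfGenus L F g) (m : ℕ)
    {D₀ D₀' : Divisor.degZero (K := L) (F := F)} (h : Pic0.mk D₀ = Pic0.mk D₀')
    {z z' : F} (hz0 : z ≠ 0) (hz0' : z' ≠ 0)
    (hz : ∀ P : Place L F, P.ord z = (m : ℤ) * (D₀ : Divisor L F) P)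
    (hz' : ∀ P : Place L F, P.ord z' = (m : ℤ) * (D₀' : Divisor L F) P) :
    ∃ (a : L) (f : F), a ≠ 0 ∧ f ≠ 0 ∧ z' = algebraMap L F a * z * f ^ m := by
  have h1 := (QuotientAddGroup.eq).1 h
  rw [AddSubgroup.mem_addSubgroupOf] at h1
  obtain ⟨f, hf0, hf⟩ := h1
  have hf' : ∀ P : Place L F, P.ord f = (D₀' : Divisor L F) P - (D₀ : Divisor L F) P := by
    intro P
    rw [← hf P]
    show (-(D₀ : Divisor L F) + (D₀' : Divisor L F)) P = _
    rw [Finsupp.add_apply, Finsupp.neg_apply]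
    ring
  set u : F := z' * (z * f ^ m)⁻¹ with hu
  have hzf0 : z * f ^ m ≠ 0 := mul_ne_zero hz0 (pow_ne_zero _ hf0)
  have hu0 : u ≠ 0 := mul_ne_zero hz0' (inv_ne_zero hzf0)
  have hord : ∀ P : Place L F, P.ord u = 0 := by
    intro P
    rw [hu, P.ord_mul hz0' (inv_ne_zero hzf0), P.ord_inv, P.ord_mul hz0 (pow_ne_zero _ hf0),
      S18lib.Cech.ord_pow, hz, hz', hf']
    ring
  obtain ⟨a, ha⟩ := S29lib.K1.const_of_ord_eq_zero hF u hu0 hord
  have ha0 : a ≠ 0 := by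
    rintro rfl
    rw [map_zero] at ha
    exact hu0 ha.symm
  refine ⟨a, f, ha0, hf0, ?_⟩
  rw [ha, hu]
  field_simp

/-- the triviality of the reduction Kummer class does not depend on the representative -/
theorem KTriv.congr {g : ℕ} (hF : IsCurveOfGenus L F g) {G : GaussDatum A F Fk} {m : ℕ}
    {D₀ D₀' : Divisor.degZero (K := L) (F := F)} (h : Pic0.mk D₀ = Pic0.mk D₀')
    {z z' : F} (hz0 : z ≠ 0) (hz0' : z' ≠ 0)
    (hz : ∀ P : Place L F, P.ord z = (m : ℤ) * (D₀ : Divisor L F) P)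
    (hz' : ∀ P : Place L F, P.ord z' = (m : ℤ) * (D₀' : Divisor L F) P)
    (hk : KTriv G m z) : KTriv G m z' := by
  obtain ⟨a, f, ha0, hf0, rfl⟩ := exists_eq_const_mul_pow hF m h hz0 hz0' hz hz'
  exact ((KTriv.const ha0 m).mul hk).mul (KTriv.pow_self hf0 m)

/-- **inertia invariance**: `σ z` and `z` have the same reduction Kummer class, first component -/
theorem KTriv.smul_iff₁ {D : NodalDatum A F F₁ F₂} {σ : SemilinearAut L F} (hσ : D.IsInertial σ)
    (m : ℕ) {z : F} (hz0 : z ≠ 0) : KTriv D.V₁ m (σ • z) ↔ KTriv D.V₁ m z := by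
  obtain ⟨⟨b₁, hb₁0, hb₁⟩, -⟩ := kummerStatement D σ hσ z hz0
  have hne : D.V₁.redF (σ • z * z⁻¹) ≠ 0 := by rw [hb₁]; exact (map_ne_zero _).2 hb₁0
  have hq : KTriv D.V₁ m (σ • z * z⁻¹) := KTriv.of_redF hne (by rw [hb₁]; exact IsCPow.const b₁)
  constructor
  · intro h
    have := h.mul hq.inv
    rwa [mul_inv, inv_inv, ← mul_assoc, mul_inv_cancel₀ (KTriv.ne_zero h), one_mul] at this
  · intro h
    have := hq.mul h
    rwa [mul_assoc, inv_mul_cancel₀ hz0, mul_one] at this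

/-- **inertia invariance**, second component -/
theorem KTriv.smul_iff₂ {D : NodalDatum A F F₁ F₂} {σ : SemilinearAut L F} (hσ : D.IsInertial σ)
    (m : ℕ) {z : F} (hz0 : z ≠ 0) : KTriv D.V₂ m (σ • z) ↔ KTriv D.V₂ m z := by
  obtain ⟨-, ⟨b₂, hb₂0, hb₂⟩⟩ := kummerStatement D σ hσ z hz0
  have hne : D.V₂.redF (σ • z * z⁻¹) ≠ 0 := by rw [hb₂]; exact (map_ne_zero _).2 hb₂0
  have hq : KTriv D.V₂ m (σ • z * z⁻¹) := KTriv.of_redF hne (by rw [hb₂]; exact IsCPow.const b₂)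
  constructor
  · intro h
    have := h.mul hq.inv
    rwa [mul_inv, inv_inv, ← mul_assoc, mul_inv_cancel₀ (KTriv.ne_zero h), one_mul] at this
  · intro h
    have := hq.mul h
    rwa [mul_assoc, inv_mul_cancel₀ hz0, mul_one] at this

/-- the class `x` has **trivial reduction Kummer classes modulo `m`** on both components -/
def KTrivCl (D : NodalDatum A F F₁ F₂) (m : ℕ) (x : Pic0 L F) : Prop :=
  ∃ (D₀ : Divisor.degZero (K := L) (F := F)) (z : F), Pic0.mk D₀ = x ∧ z ≠ 0 ∧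
    (∀ P : Place L F, P.ord z = (m : ℤ) * (D₀ : Divisor L F) P) ∧
    KTriv D.V₁ m z ∧ KTriv D.V₂ m z

/-- `KTrivCl` can be tested on ANY representative -/
theorem kTrivCl_iff {D : NodalDatum A F F₁ F₂} {g : ℕ} (hF : IsCurveOfGenus L F g) {m : ℕ}
    {D₀ : Divisor.degZero (K := L) (F := F)} {z : F} (hz0 : z ≠ 0)
    (hz : ∀ P : Place L F, P.ord z = (m : ℤ) * (D₀ : Divisor L F) P) :
    KTrivCl D m (Pic0.mk D₀) ↔ KTriv D.V₁ m z ∧ KTriv D.V₂ m z := by
  constructor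
  · rintro ⟨D₀', z', h, hz0', hz', h₁, h₂⟩
    exact ⟨h₁.congr hF h hz0' hz0 hz' hz, h₂.congr hF h hz0' hz0 hz' hz⟩
  · rintro ⟨h₁, h₂⟩
    exact ⟨D₀, z, rfl, hz0, hz, h₁, h₂⟩

theorem KTrivCl.smul_eq_zero {D : NodalDatum A F F₁ F₂} {m : ℕ} {x : Pic0 L F}
    (h : KTrivCl D m x) : (m : ℤ) • x = 0 := by
  obtain ⟨D₀, z, rfl, hz0, hz, -, -⟩ := h
  show Pic0.mk ((m : ℤ) • D₀) = 0
  apply (QuotientAddGroup.eq_zero_iff _).2
  rw [AddSubgroup.mem_addSubgroupOf]
  refine ⟨z, hz0, fun P => ?_⟩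
  rw [hz P]
  simp

/-- **inertia invariance of `KTrivCl`** -/
theorem kTrivCl_smul_iff {D : NodalDatum A F F₁ F₂} {g : ℕ} (hF : IsCurveOfGenus L F g)
    {σ : SemilinearAut L F} (hσ : D.IsInertial σ) (m : ℕ) (x : Pic0 L F) :
    KTrivCl D m (σ • x) ↔ KTrivCl D m x := by
  by_cases hx : (m : ℤ) • x = 0
  · obtain ⟨D₀, z, rfl, hz0, hz⟩ := exists_rep_of_smul_eq_zero hx
    have hσz0 : σ • z ≠ 0 := by
      rw [SemilinearAut.smul_def]
      exact (map_ne_zero _).2 hz0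
    have hσz : ∀ P : Place L F, P.ord (σ • z) =
        (m : ℤ) * ((SemilinearAut.degZeroSMulHom σ D₀ : Divisor.degZero (K := L) (F := F)) :
          Divisor L F) P := by
      intro P
      rw [NodalDatum.IsInertial.ord_smul_eq, hz, SemilinearAut.coe_degZeroSMulHom,
        SemilinearAut.divisor_smul_apply]
    rw [SemilinearAut.pic0_smul_mk, kTrivCl_iff hF hσz0 hσz, kTrivCl_iff hF hz0 hz,
      KTriv.smul_iff₁ hσ m hz0, KTriv.smul_iff₂ hσ m hz0]
  · constructor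
    · intro h
      exfalso
      apply hx
      have h1 := h.smul_eq_zero
      rw [← SemilinearAut.smul_zsmul] at h1
      exact (smul_eq_zero_iff_eq σ).1 h1
    · intro h
      exact absurd h.smul_eq_zero hx

/-! ### the kernel of reduction -/

section NK

variable [HasPrincipalDivisors L F]
variable [HasPrincipalDivisors (IsLocalRing.ResidueField A) F₁]
  [HasPrincipalDivisors (IsLocalRing.ResidueField A) F₂]

/-- **kernel of reduction ⟹ trivial reduction Kummer classes**, class form -/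
theorem kTrivCl_of_mem_NKred (D : NRedDatum A F F₁ F₂) {g g₁ g₂ : ℕ}
    (C : NodalCtx D.nod g g₁ g₂) (m : ℕ) {x : Pic0 L F} (hx : (m : ℤ) • x = 0)
    (hK : x ∈ NKred D) : KTrivCl D.nod m x := by
  obtain ⟨E, rfl, hE, hpush⟩ := hK
  have h1 : Pic0.mk ((m : ℤ) • E) = 0 := hx
  have h2 := (QuotientAddGroup.eq_zero_iff _).1 h1
  rw [AddSubgroup.mem_addSubgroupOf] at h2
  obtain ⟨z, hz0, hz⟩ := h2
  have hzord : ∀ P : Place L F, P.ord z = (m : ℤ) * (E : Divisor L F) P := by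
    intro P
    rw [← hz P]
    simp
  obtain ⟨h₁, h₂⟩ := kTriv_of_push_eq_zero D C hE hpush m hz0 hzord
  exact ⟨E, z, rfl, hz0, hzord, h₁, h₂⟩

/-- **THE KERNEL OF REDUCTION ON `p ^ n`-TORSION = the classes with trivial reduction Kummer
classes** (given `g` nodally non-special centres in distinct smooth residue discs). -/
theorem mem_NKred_iff_kTrivCl (D : NRedDatum A F F₁ F₂) {g g₁ g₂ : ℕ}
    (C : NodalCtx D.nod g g₁ g₂) (ctr : Fin g → Place L F) (Qc : Fin g → Pt A F₁ F₂)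
    (hr : ∀ i, D.r (ctr i) = some (Qc i)) (hQ : Function.Injective Qc)
    (hell : D.ell (D.push₁ (Core.sumPts ctr)) (D.push₂ (Core.sumPts ctr)) = 1)
    (p : ℕ) [ExpChar k p] (hroot : ∀ a : k, ∃ b : k, b ^ p = a) (n : ℕ) {x : Pic0 L F}
    (hx : ((p ^ n : ℕ) : ℤ) • x = 0) :
    x ∈ NKred D ↔ KTrivCl D.nod (p ^ n) x := by
  constructor
  · exact kTrivCl_of_mem_NKred D C (p ^ n) hx
  · rintro ⟨D₀, z, rfl, hz0, hz, h₁, h₂⟩
    exact mem_NKred_of_kTriv D C ctr Qc hr hQ hell p hroot n D₀ hz0 hz h₁ h₂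

/-- **Inertia acts trivially on `J[p ^ n]` modulo the kernel of reduction**, in the form:
membership of a `p ^ n`-torsion class in the kernel of reduction can be tested on any inertial
translate. -/
theorem smul_mem_NKred_iff (D : NRedDatum A F F₁ F₂) {g g₁ g₂ : ℕ}
    (C : NodalCtx D.nod g g₁ g₂) (ctr : Fin g → Place L F) (Qc : Fin g → Pt A F₁ F₂)
    (hr : ∀ i, D.r (ctr i) = some (Qc i)) (hQ : Function.Injective Qc)
    (hell : D.ell (D.push₁ (Core.sumPts ctr)) (D.push₂ (Core.sumPts ctr)) = 1)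
    (p : ℕ) [ExpChar k p] (hroot : ∀ a : k, ∃ b : k, b ^ p = a) (n : ℕ) {x : Pic0 L F}
    (hx : ((p ^ n : ℕ) : ℤ) • x = 0) {σ : SemilinearAut L F} (hσ : D.nod.IsInertial σ) :
    σ • x ∈ NKred D ↔ x ∈ NKred D := by
  have hσx : ((p ^ n : ℕ) : ℤ) • (σ • x) = 0 := by
    rw [← SemilinearAut.smul_zsmul, hx]
    exact smul_zero (A := Pic0 L F) σ
  rw [mem_NKred_iff_kTrivCl D C ctr Qc hr hQ hell p hroot n hσx,
    mem_NKred_iff_kTrivCl D C ctr Qc hr hQ hell p hroot n hx, kTrivCl_smul_iff C.hF hσ]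

/-- **`(σ - 1) J[p ^ n] ⊆ K`**: for an inertial `σ` and a `p ^ n`-torsion class `x`, the class
`σ • x - x` lies in the kernel of reduction. -/
theorem smul_sub_mem_NKred (D : NRedDatum A F F₁ F₂) {g g₁ g₂ : ℕ}
    (C : NodalCtx D.nod g g₁ g₂) (ctr : Fin g → Place L F) (Qc : Fin g → Pt A F₁ F₂)
    (hr : ∀ i, D.r (ctr i) = some (Qc i)) (hQ : Function.Injective Qc)
    (hell : D.ell (D.push₁ (Core.sumPts ctr)) (D.push₂ (Core.sumPts ctr)) = 1)
    (p : ℕ) [ExpChar k p] (hroot : ∀ a : k, ∃ b : k, b ^ p = a) (n : ℕ) {x : Pic0 L F}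
    (hx : ((p ^ n : ℕ) : ℤ) • x = 0) {σ : SemilinearAut L F} (hσ : D.nod.IsInertial σ) :
    σ • x - x ∈ NKred D := by
  obtain ⟨D₀, z, rfl, hz0, hz⟩ := exists_rep_of_smul_eq_zero hx
  have hσz0 : σ • z ≠ 0 := by
    rw [SemilinearAut.smul_def]
    exact (map_ne_zero _).2 hz0
  have hu0 : σ • z * z⁻¹ ≠ 0 := mul_ne_zero hσz0 (inv_ne_zero hz0)
  have hu : ∀ P : Place L F, P.ord (σ • z * z⁻¹) = (((p ^ n : ℕ) : ℕ) : ℤ) *
      ((SemilinearAut.degZeroSMulHom σ D₀ - D₀ : Divisor.degZero (K := L) (F := F)) :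
        Divisor L F) P := by
    intro P
    rw [P.ord_mul hσz0 (inv_ne_zero hz0), P.ord_inv, NodalDatum.IsInertial.ord_smul_eq, hz, hz,
      AddSubgroup.coe_sub, Finsupp.sub_apply, SemilinearAut.coe_degZeroSMulHom,
      SemilinearAut.divisor_smul_apply]
    ring
  obtain ⟨⟨b₁, hb₁0, hb₁⟩, ⟨b₂, hb₂0, hb₂⟩⟩ := kummerStatement D.nod σ hσ z hz0
  have hne₁ : D.nod.V₁.redF (σ • z * z⁻¹) ≠ 0 := by rw [hb₁]; exact (map_ne_zero _).2 hb₁0
  have hne₂ : D.nod.V₂.redF (σ • z * z⁻¹) ≠ 0 := by rw [hb₂]; exact (map_ne_zero _).2 hb₂0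
  have e : σ • Pic0.mk D₀ - Pic0.mk D₀ = Pic0.mk (SemilinearAut.degZeroSMulHom σ D₀ - D₀) := by
    rw [SemilinearAut.pic0_smul_mk]
    rfl
  rw [e]
  exact mem_NKred_of_kTriv D C ctr Qc hr hQ hell p hroot n _ hu0 hu
    (KTriv.of_redF hne₁ (by rw [hb₁]; exact IsCPow.const b₁))
    (KTriv.of_redF hne₂ (by rw [hb₂]; exact IsCPow.const b₂))

end NK

end Fermat.Agent.S44lib.Kap

end
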