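/-
S44lib / Kap / KapFun  (helper6)  — Project LSq, block Q2a.

**The reduction Kummer function of a torsion class, along one Gauss valuation.**

For a Gauss datum `G` on `F` (residue field `Fk`) and an `m`-torsion class `x = [D₀]`,
`m • D₀ = div z`, the reduction `G.redF z ∈ Fkˣ` (for `z` normalised to a `G`-unit) is well defined up
to `kˣ · (Fkˣ) ^ m`:

* `isCPow_redF_div`  : two normalised representatives have reductions with ratio in `kˣ (Fkˣ)^m`;
* `kapFun G m x`     : a choice of such a reduction (`1` if `x` is not `m`-torsion), `kapFun_spec`;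
* `IsCPow.dvd_ord`   : orders of elements of `kˣ (Fkˣ)^m` are divisible by `m`;
* `kapOrd G m Q x`   : `ord_Q (kapFun G m x) mod m`, with `kapOrd_eq` (any representative computes it),
                       `kapOrd_add`, `kapOrd_zero`, the homomorphism `kapOrdHom`.
-/
import Fermat.Agent.S44lib.Kap.Class

set_option autoImplicit false
set_option linter.unusedSectionVars false

noncomputable section

namespace Fermat.Agent.S44lib.Kap

open AlgebraicCurve Fermat.Agent.LSb Fermat.Agent.S18lib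

variable {L : Type*} [Field L] {A : ValuationSubring L}
variable {F : Type*} [Field F] [Algebra L F]
variable {Fk : Type*} [Field Fk] [Algebra (IsLocalRing.ResidueField A) Fk]

local notation "k" => IsLocalRing.ResidueField A

/-- orders of a nonzero constant times an `m`-th power are divisible by `m` -/
theorem IsCPow.dvd_ord {m : ℕ} {φ : Fk} (h : IsCPow A m φ) (hφ : φ ≠ 0) (Q : Place k Fk) :
    (m : ℤ) ∣ Q.ord φ := by
  obtain ⟨a, ψ, rfl⟩ := h
  have ha : algebraMap k Fk a ≠ 0 := left_ne_zero_of_mul hφ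
  have hψ : ψ ^ m ≠ 0 := right_ne_zero_of_mul hφ
  rw [Q.ord_mul ha hψ, S18lib.Cech.ord_const, zero_add, S18lib.Cech.ord_pow]
  exact dvd_mul_right _ _

/-- two normalised representatives of an `m`-torsion class have reductions whose ratio is a constant
times an `m`-th power -/
theorem isCPow_redF_div {g : ℕ} (hF : IsCurveOfGenus L F g) (G : GaussDatum A F Fk) {m : ℕ}
    {D₀ D₀' : Divisor.degZero (K := L) (F := F)} (h : Pic0.mk D₀ = Pic0.mk D₀')
    {z z' : F} (hz0 : z ≠ 0) (hz0' : z' ≠ 0)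
    (hz : ∀ P : Place L F, P.ord z = (m : ℤ) * (D₀ : Divisor L F) P)
    (hz' : ∀ P : Place L F, P.ord z' = (m : ℤ) * (D₀' : Divisor L F) P)
    (hne : G.redF z ≠ 0) (hne' : G.redF z' ≠ 0) :
    IsCPow A m (G.redF z' * (G.redF z)⁻¹) := by
  obtain ⟨a, f, ha0, hf0, hzz⟩ := exists_eq_const_mul_pow hF m h hz0 hz0' hz hz'
  -- `w = z' / z = a f ^ m` has trivial class and is a unit
  have hk : KTriv G m (z' * z⁻¹) := by
    have : z' * z⁻¹ = algebraMap L F a * f ^ m := by
      rw [hzz]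
      field_simp
    rw [this]
    exact (KTriv.const ha0 m).mul (KTriv.pow_self hf0 m)
  have hmem : z' * z⁻¹ ∈ G.O :=
    G.O.mul_mem _ _ (G.mem_of_redF_ne_zero hne') (G.inv_mem_of_redF_ne_zero hne)
  have h1 := hk.isCPow_redF (d := 1) (by rwa [map_one, one_mul])
  rwa [map_one, one_mul, G.redF_mul (G.mem_of_redF_ne_zero hne') (G.inv_mem_of_redF_ne_zero hne),
    G.redF_inv hne] at h1

/-- existence of a normalised representative -/
theorem exists_kapFun (G : GaussDatum A F Fk) {m : ℕ} {x : Pic0 L F} (hx : (m : ℤ) • x = 0) :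
    ∃ φ : Fk, φ ≠ 0 ∧ ∃ (D₀ : Divisor.degZero (K := L) (F := F)) (z : F), Pic0.mk D₀ = x ∧ z ≠ 0 ∧
      (∀ P : Place L F, P.ord z = (m : ℤ) * (D₀ : Divisor L F) P) ∧ G.redF z = φ := by
  obtain ⟨D₀, z, rfl, hz0, hz⟩ := exists_rep_of_smul_eq_zero hx
  obtain ⟨c, hc, hne⟩ := G.exists_const_mul_redF_ne_zero hz0
  refine ⟨_, hne, D₀, algebraMap L F c * z, rfl, mul_ne_zero ((map_ne_zero _).2 hc) hz0,
    fun P => ?_, rfl⟩
  rw [P.ord_mul ((map_ne_zero _).2 hc) hz0, S18lib.ord_algebraMap_eq_zero P hc, zero_add, hz]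

open Classical in
/-- **the reduction Kummer function** of the class `x` along `G` (a choice; well defined up to
`kˣ (Fkˣ) ^ m`, see `kapFun_spec`); `1` if `x` is not `m`-torsion -/
def kapFun (G : GaussDatum A F Fk) (m : ℕ) (x : Pic0 L F) : Fk :=
  if hx : (m : ℤ) • x = 0 then (exists_kapFun G hx).choose else 1

theorem kapFun_ne_zero (G : GaussDatum A F Fk) (m : ℕ) (x : Pic0 L F) : kapFun G m x ≠ 0 := by
  classical
  rw [kapFun]
  split_ifs with hx
  · exact (exists_kapFun G hx).choose_spec.1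
  · exact one_ne_zero

theorem kapFun_rep (G : GaussDatum A F Fk) {m : ℕ} {x : Pic0 L F} (hx : (m : ℤ) • x = 0) :
    ∃ (D₀ : Divisor.degZero (K := L) (F := F)) (z : F), Pic0.mk D₀ = x ∧ z ≠ 0 ∧
      (∀ P : Place L F, P.ord z = (m : ℤ) * (D₀ : Divisor L F) P) ∧ G.redF z = kapFun G m x := by
  classical
  rw [kapFun, dif_pos hx]
  exact (exists_kapFun G hx).choose_spec.2

/-- a representative `(D₀, z)` makes `[D₀]` an `m`-torsion class -/
theorem smul_mk_eq_zero_of_ord {m : ℕ} {D₀ : Divisor.degZero (K := L) (F := F)} {z : F}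
    (hz0 : z ≠ 0) (hz : ∀ P : Place L F, P.ord z = (m : ℤ) * (D₀ : Divisor L F) P) :
    (m : ℤ) • Pic0.mk D₀ = 0 := by
  show Pic0.mk ((m : ℤ) • D₀) = 0
  apply (QuotientAddGroup.eq_zero_iff _).2
  rw [AddSubgroup.mem_addSubgroupOf]
  refine ⟨z, hz0, fun P => ?_⟩
  rw [hz P]
  simp

/-- **SPEC**: the reduction of ANY normalised representative is `kapFun` up to `kˣ (Fkˣ) ^ m` -/
theorem kapFun_spec {g : ℕ} (hF : IsCurveOfGenus L F g) (G : GaussDatum A F Fk) {m : ℕ}
    {D₀ : Divisor.degZero (K := L) (F := F)} {z : F} (hz0 : z ≠ 0)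
    (hz : ∀ P : Place L F, P.ord z = (m : ℤ) * (D₀ : Divisor L F) P) (hne : G.redF z ≠ 0) :
    IsCPow A m (G.redF z * (kapFun G m (Pic0.mk D₀))⁻¹) := by
  obtain ⟨D₁, z₁, h1, hz10, hz1, hred⟩ := kapFun_rep G (smul_mk_eq_zero_of_ord hz0 hz)
  rw [← hred]
  exact isCPow_redF_div hF G h1 hz10 hz0 hz1 hz (by rw [hred]; exact kapFun_ne_zero _ _ _) hne

/-- `kapFun` is trivial exactly on the classes with trivial reduction Kummer class -/
theorem isCPow_kapFun_iff {g : ℕ} (hF : IsCurveOfGenus L F g) (G : GaussDatum A F Fk) {m : ℕ}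
    {D₀ : Divisor.degZero (K := L) (F := F)} {z : F} (hz0 : z ≠ 0)
    (hz : ∀ P : Place L F, P.ord z = (m : ℤ) * (D₀ : Divisor L F) P) :
    IsCPow A m (kapFun G m (Pic0.mk D₀)) ↔ KTriv G m z := by
  obtain ⟨D₁, z₁, h1, hz10, hz1, hred⟩ := kapFun_rep G (smul_mk_eq_zero_of_ord hz0 hz)
  have hne1 : G.redF z₁ ≠ 0 := by rw [hred]; exact kapFun_ne_zero _ _ _
  rw [← hred]
  constructor
  · intro h
    exact (KTriv.of_redF hne1 h).congr hF h1 hz10 hz0 hz1 hz
  · intro h
    have h2 := (h.congr hF h1.symm hz0 hz10 hz hz1).isCPow_redF (d := 1)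
      (by rw [map_one, one_mul]; exact G.mem_of_redF_ne_zero hne1)
    rwa [map_one, one_mul] at h2

/-! ### orders of the reduction Kummer function modulo `m` -/

/-- `ord_Q` of the reduction Kummer function, modulo `m` -/
def kapOrd (G : GaussDatum A F Fk) (m : ℕ) (Q : Place k Fk) (x : Pic0 L F) : ZMod m :=
  ((Q.ord (kapFun G m x) : ℤ) : ZMod m)

/-- **any normalised representative computes `kapOrd`** -/
theorem kapOrd_eq {g : ℕ} (hF : IsCurveOfGenus L F g) (G : GaussDatum A F Fk) {m : ℕ}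
    (Q : Place k Fk) {D₀ : Divisor.degZero (K := L) (F := F)} {z : F} (hz0 : z ≠ 0)
    (hz : ∀ P : Place L F, P.ord z = (m : ℤ) * (D₀ : Divisor L F) P) (hne : G.redF z ≠ 0) :
    kapOrd G m Q (Pic0.mk D₀) = ((Q.ord (G.redF z) : ℤ) : ZMod m) := by
  have hk := kapFun_ne_zero G m (Pic0.mk D₀)
  have hspec := kapFun_spec hF G hz0 hz hne
  have hr0 : G.redF z * (kapFun G m (Pic0.mk D₀))⁻¹ ≠ 0 := mul_ne_zero hne (inv_ne_zero hk)
  obtain ⟨t, ht⟩ := hspec.dvd_ord hr0 Q
  rw [Q.ord_mul hne (inv_ne_zero hk), Q.ord_inv] at ht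
  rw [kapOrd]
  have : Q.ord (G.redF z) = Q.ord (kapFun G m (Pic0.mk D₀)) + (m : ℤ) * t := by linarith
  rw [this]
  push_cast
  rw [ZMod.natCast_self, zero_mul, add_zero]

theorem kapOrd_zero {g : ℕ} (hF : IsCurveOfGenus L F g) (G : GaussDatum A F Fk) (m : ℕ)
    (Q : Place k Fk) : kapOrd G m Q (0 : Pic0 L F) = 0 := by
  have h := kapOrd_eq hF G (m := m) Q (D₀ := 0) (z := 1) one_ne_zero
    (fun P => by rw [Place.ord_one]; simp) (by rw [G.redF_one]; exact one_ne_zero)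
  rw [Pic0.mk_zero] at h
  rw [h, G.redF_one, Place.ord_one, Int.cast_zero]

theorem kapOrd_add {g : ℕ} (hF : IsCurveOfGenus L F g) (G : GaussDatum A F Fk) {m : ℕ}
    (Q : Place k Fk) {x y : Pic0 L F} (hx : (m : ℤ) • x = 0) (hy : (m : ℤ) • y = 0) :
    kapOrd G m Q (x + y) = kapOrd G m Q x + kapOrd G m Q y := by
  obtain ⟨D₁, z₁, rfl, hz10, hz1, hred1⟩ := kapFun_rep G hx
  obtain ⟨D₂, z₂, rfl, hz20, hz2, hred2⟩ := kapFun_rep G hy
  have hne1 : G.redF z₁ ≠ 0 := by rw [hred1]; exact kapFun_ne_zero _ _ _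
  have hne2 : G.redF z₂ ≠ 0 := by rw [hred2]; exact kapFun_ne_zero _ _ _
  have hmul : G.redF (z₁ * z₂) = G.redF z₁ * G.redF z₂ :=
    G.redF_mul (G.mem_of_redF_ne_zero hne1) (G.mem_of_redF_ne_zero hne2)
  have hne : G.redF (z₁ * z₂) ≠ 0 := by rw [hmul]; exact mul_ne_zero hne1 hne2
  have hz12 : ∀ P : Place L F, P.ord (z₁ * z₂) =
      (m : ℤ) * ((D₁ + D₂ : Divisor.degZero (K := L) (F := F)) : Divisor L F) P := by
    intro P
    rw [P.ord_mul hz10 hz20, hz1, hz2, AddSubgroup.coe_add, Finsupp.add_apply]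
    ring
  rw [← Pic0.mk_add, kapOrd_eq hF G Q (mul_ne_zero hz10 hz20) hz12 hne,
    kapOrd_eq hF G Q hz10 hz1 hne1, kapOrd_eq hF G Q hz20 hz2 hne2, hmul, Q.ord_mul hne1 hne2,
    Int.cast_add]

/-- `kapOrd` as a homomorphism on the `m`-torsion -/
def kapOrdHom {g : ℕ} (hF : IsCurveOfGenus L F g) (G : GaussDatum A F Fk) (m : ℕ)
    (Q : Place k Fk) : Pic0.torsion L F m →+ ZMod m :=
  AddMonoidHom.mk' (fun x => kapOrd G m Q (x : Pic0 L F)) fun x y => by
    rw [AddSubgroup.coe_add]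
    exact kapOrd_add hF G Q (Pic0.mem_torsion.1 x.2) (Pic0.mem_torsion.1 y.2)

@[simp] theorem kapOrdHom_apply {g : ℕ} (hF : IsCurveOfGenus L F g) (G : GaussDatum A F Fk) (m : ℕ)
    (Q : Place k Fk) (x : Pic0.torsion L F m) :
    kapOrdHom hF G m Q x = kapOrd G m Q (x : Pic0 L F) := rfl

end Fermat.Agent.S44lib.Kap

end
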