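/-
S44lib / Kap / Om  (helper6)  — Project LSq, block Q2a.

**The group of reduction Kummer classes** `Om A Fk m = Fkˣ / (kˣ · (Fkˣ) ^ m)`, written additively
(for `m = p` this is the group of logarithmic differentials `dlog φ` on the component), and the class
map `kapCl G m : Pic⁰(F) → Om A Fk m`, `x = [D₀]`, `m • D₀ = div z ↦ [G.redF z]`.

* `Om.mk φ h`, `Om.mk_eq_mk_iff`, `Om.mk_mul`, `Om.mk_eq_zero_iff`, `Om.exists_rep`;
* `Om.ordHom Q : Om A Fk m →+ ZMod m`           (order at a place modulo `m`);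
* `Om.map f : Om A Fk m →+ Om A Fk' m`           (`f : Fk →ₐ[k] Fk'`);
* `Om.norm : Om A Fk' m →+ Om A Fk m`            (`Fk' / Fk` finite);
* `kapCl_eq` (any normalised representative computes the class), `kapCl_add`,
  `kapCl_eq_zero_iff : kapCl G m [D₀] = 0 ↔ KTriv G m z`, `ordHom_kapCl`.
-/
import Fermat.Agent.S44lib.Kap.KapFun

set_option autoImplicit false
set_option linter.unusedSectionVars false

noncomputable section

namespace Fermat.Agent.S44lib.Kap

open AlgebraicCurve Fermat.Agent.LSb Fermat.Agent.S18lib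

variable {L : Type*} [Field L] {A : ValuationSubring L}
variable {F : Type*} [Field F] [Algebra L F]
variable {Fk : Type*} [Field Fk] [Algebra (IsLocalRing.ResidueField A) Fk]
variable {Fk' : Type*} [Field Fk'] [Algebra (IsLocalRing.ResidueField A) Fk']

local notation "k" => IsLocalRing.ResidueField A

/-- the subgroup `kˣ · (Fkˣ) ^ m` of `Fkˣ` -/
def cpowSub (A : ValuationSubring L) (Fk : Type*) [Field Fk]
    [Algebra (IsLocalRing.ResidueField A) Fk] (m : ℕ) : Subgroup Fkˣ where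
  carrier := {u | IsCPow A m (u : Fk)}
  one_mem' := IsCPow.one
  mul_mem' := fun {a b} ha hb => by
    show IsCPow A m ((a * b : Fkˣ) : Fk)
    rw [Units.val_mul]
    exact ha.mul hb
  inv_mem' := fun {a} ha => by
    show IsCPow A m ((a⁻¹ : Fkˣ) : Fk)
    rw [Units.val_inv_eq_inv_val]
    exact ha.inv

theorem mem_cpowSub {m : ℕ} {u : Fkˣ} : u ∈ cpowSub A Fk m ↔ IsCPow A m (u : Fk) := Iff.rfl

/-- **the group of reduction Kummer classes**, written additively -/
abbrev Om (A : ValuationSubring L) (Fk : Type*) [Field Fk]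
    [Algebra (IsLocalRing.ResidueField A) Fk] (m : ℕ) : Type _ :=
  Additive (Fkˣ ⧸ cpowSub A Fk m)

namespace Om

variable {m : ℕ}

/-- the class of a nonzero function -/
def mk (φ : Fk) (h : φ ≠ 0) : Om A Fk m :=
  Additive.ofMul (QuotientGroup.mk (Units.mk0 φ h))

theorem exists_rep (ω : Om A Fk m) : ∃ (φ : Fk) (h : φ ≠ 0), ω = mk φ h := by
  obtain ⟨u, hu⟩ := QuotientGroup.mk_surjective (Additive.toMul ω)
  refine ⟨(u : Fk), u.ne_zero, ?_⟩
  rw [mk, Units.mk0_val, hu]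
  rfl

theorem mk_eq_mk_iff {φ φ' : Fk} (h : φ ≠ 0) (h' : φ' ≠ 0) :
    (mk φ h : Om A Fk m) = mk φ' h' ↔ IsCPow A m (φ' * φ⁻¹) := by
  rw [mk, mk, Additive.ofMul.apply_eq_iff_eq, QuotientGroup.eq, mem_cpowSub]
  have : (((Units.mk0 φ h)⁻¹ * Units.mk0 φ' h' : Fkˣ) : Fk) = φ' * φ⁻¹ := by
    rw [Units.val_mul, Units.val_inv_eq_inv_val, Units.val_mk0, Units.val_mk0, mul_comm]
  rw [this]

theorem mk_mul {φ φ' : Fk} (h : φ ≠ 0) (h' : φ' ≠ 0) :
    (mk (φ * φ') (mul_ne_zero h h') : Om A Fk m) = mk φ h + mk φ' h' := by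
  rw [mk, mk, mk, ← ofMul_mul, ← QuotientGroup.mk_mul]
  congr 2
  ext
  rfl

theorem mk_one : (mk (1 : Fk) one_ne_zero : Om A Fk m) = 0 := by
  rw [mk]
  have : Units.mk0 (1 : Fk) one_ne_zero = 1 := by ext; rfl
  rw [this, QuotientGroup.mk_one]
  rfl

theorem mk_eq_zero_iff {φ : Fk} (h : φ ≠ 0) : (mk φ h : Om A Fk m) = 0 ↔ IsCPow A m φ := by
  rw [← mk_one, eq_comm, mk_eq_mk_iff, inv_one, mul_one]

theorem mk_congr {φ φ' : Fk} (h : φ ≠ 0) (e : φ = φ') :
    (mk φ h : Om A Fk m) = mk φ' (e ▸ h) := by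
  subst e
  rfl

/-! ### the order at a place modulo `m` -/

/-- the order at `Q` modulo `m`, on units -/
def ordUnits (m : ℕ) (Q : Place k Fk) : Fkˣ →* Multiplicative (ZMod m) where
  toFun u := Multiplicative.ofAdd ((Q.ord (u : Fk) : ℤ) : ZMod m)
  map_one' := by
    rw [Units.val_one, Place.ord_one, Int.cast_zero]
    rfl
  map_mul' u v := by
    rw [Units.val_mul, Q.ord_mul u.ne_zero v.ne_zero, Int.cast_add]
    rfl

theorem cpowSub_le_ker_ordUnits (m : ℕ) (Q : Place k Fk) :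
    cpowSub A Fk m ≤ (ordUnits m Q).ker := by
  intro u hu
  rw [MonoidHom.mem_ker]
  obtain ⟨t, ht⟩ := (mem_cpowSub.1 hu).dvd_ord u.ne_zero Q
  show Multiplicative.ofAdd ((Q.ord (u : Fk) : ℤ) : ZMod m) = 1
  rw [ht]
  push_cast
  rw [ZMod.natCast_self, zero_mul]
  rfl

/-- **the order at `Q` modulo `m`** -/
def ordHom (Q : Place k Fk) : Om A Fk m →+ ZMod m :=
  MonoidHom.toAdditive (QuotientGroup.lift (cpowSub A Fk m) (ordUnits m Q)
    (cpowSub_le_ker_ordUnits m Q))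

theorem ordHom_mk (Q : Place k Fk) {φ : Fk} (h : φ ≠ 0) :
    ordHom Q (mk φ h : Om A Fk m) = ((Q.ord φ : ℤ) : ZMod m) := rfl

/-! ### functoriality -/

/-- a `k`-algebra homomorphism maps constants times `m`-th powers to such -/
theorem IsCPow.map (f : Fk →ₐ[k] Fk') {φ : Fk} (h : IsCPow A m φ) : IsCPow A m (f φ) := by
  obtain ⟨a, ψ, rfl⟩ := h
  exact ⟨a, f ψ, by rw [map_mul, map_pow, f.commutes]⟩

/-- **pull-back of classes** along `f : Fk →ₐ[k] Fk'` -/
def map (f : Fk →ₐ[k] Fk') : Om A Fk m →+ Om A Fk' m :=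
  MonoidHom.toAdditive (QuotientGroup.map (cpowSub A Fk m) (cpowSub A Fk' m)
    (Units.map (f : Fk →* Fk')) (by
      intro u hu
      rw [Subgroup.mem_comap, mem_cpowSub]
      exact IsCPow.map f (mem_cpowSub.1 hu)))

theorem map_mk (f : Fk →ₐ[k] Fk') {φ : Fk} (h : φ ≠ 0) :
    map f (mk φ h : Om A Fk m) = mk (f φ) ((map_ne_zero f).2 h) := by
  rw [mk, mk]
  show Additive.ofMul (QuotientGroup.mk (Units.map (f : Fk →* Fk') (Units.mk0 φ h))) = _
  congr 2
  ext
  rfl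

section Norm

variable [Algebra Fk Fk'] [IsScalarTower (IsLocalRing.ResidueField A) Fk Fk']

/-- the norm maps constants times `m`-th powers to such -/
theorem IsCPow.norm {φ : Fk'} (h : IsCPow A m φ) : IsCPow A m (Algebra.norm Fk φ) := by
  obtain ⟨a, ψ, rfl⟩ := h
  refine ⟨a ^ Module.finrank Fk Fk', Algebra.norm Fk ψ, ?_⟩
  rw [map_mul, map_pow, IsScalarTower.algebraMap_apply k Fk Fk', Algebra.norm_algebraMap, map_pow]

variable [FiniteDimensional Fk Fk']

/-- the norm on units -/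
def normUnits : Fk'ˣ →* Fkˣ := Units.map (Algebra.norm Fk : Fk' →* Fk)

/-- **the norm of classes** -/
def norm : Om A Fk' m →+ Om A Fk m :=
  MonoidHom.toAdditive (QuotientGroup.map (cpowSub A Fk' m) (cpowSub A Fk m)
    (normUnits (Fk := Fk) (Fk' := Fk')) (by
      intro u hu
      rw [Subgroup.mem_comap, mem_cpowSub]
      exact IsCPow.norm (mem_cpowSub.1 hu)))

theorem norm_mk {φ : Fk'} (h : φ ≠ 0) :
    norm (mk φ h : Om A Fk' m) =
      (mk (Algebra.norm Fk φ) (Algebra.norm_ne_zero_iff.2 h) : Om A Fk m) := by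
  rw [mk, mk]
  show Additive.ofMul (QuotientGroup.mk (normUnits (Fk := Fk) (Units.mk0 φ h))) = _
  congr 2
  ext
  rfl

end Norm

end Om

/-! ### the class map -/

/-- **the reduction Kummer class** of `x` along `G` -/
def kapCl (G : GaussDatum A F Fk) (m : ℕ) (x : Pic0 L F) : Om A Fk m :=
  Om.mk (kapFun G m x) (kapFun_ne_zero G m x)

/-- **any normalised representative computes the class** -/
theorem kapCl_eq {g : ℕ} (hF : IsCurveOfGenus L F g) (G : GaussDatum A F Fk) {m : ℕ}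
    {D₀ : Divisor.degZero (K := L) (F := F)} {z : F} (hz0 : z ≠ 0)
    (hz : ∀ P : Place L F, P.ord z = (m : ℤ) * (D₀ : Divisor L F) P) (hne : G.redF z ≠ 0) :
    kapCl G m (Pic0.mk D₀) = Om.mk (G.redF z) hne := by
  rw [kapCl, Om.mk_eq_mk_iff]
  exact kapFun_spec hF G hz0 hz hne

theorem kapCl_add {g : ℕ} (hF : IsCurveOfGenus L F g) (G : GaussDatum A F Fk) {m : ℕ}
    {x y : Pic0 L F} (hx : (m : ℤ) • x = 0) (hy : (m : ℤ) • y = 0) :
    kapCl G m (x + y) = kapCl G m x + kapCl G m y := by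
  obtain ⟨D₁, z₁, rfl, hz10, hz1, hred1⟩ := kapFun_rep G hx
  obtain ⟨D₂, z₂, rfl, hz20, hz2, hred2⟩ := kapFun_rep G hy
  have hne1 : G.redF z₁ ≠ 0 := by rw [hred1]; exact kapFun_ne_zero _ _ _
  have hne2 : G.redF z₂ ≠ 0 := by rw [hred2]; exact kapFun_ne_zero _ _ _
  have hmul : G.redF (z₁ * z₂) = G.redF z₁ * G.redF z₂ :=
    G.redF_mul (G.mem_of_redF_ne_zero hne1) (G.mem_of_redF_ne_zero hne2)
  have hne : G.redF (z₁ * z₂) ≠ 0 := by rw [hmul]; exact mul_ne_zero hne1 hne2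
  have hz12 : ∀ P : Place L F, P.ord (z₁ * z₂) =
      (m : ℤ) * ((D₁ + D₂ : Divisor.degZero (K := L) (F := F)) : Divisor L F) P := by
    intro P
    rw [P.ord_mul hz10 hz20, hz1, hz2, AddSubgroup.coe_add, Finsupp.add_apply]
    ring
  rw [← Pic0.mk_add, kapCl_eq hF G (mul_ne_zero hz10 hz20) hz12 hne, kapCl_eq hF G hz10 hz1 hne1,
    kapCl_eq hF G hz20 hz2 hne2, ← Om.mk_mul hne1 hne2]
  exact Om.mk_congr hne hmul

/-- **the kernel of the class map = trivial reduction Kummer class** -/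
theorem kapCl_eq_zero_iff {g : ℕ} (hF : IsCurveOfGenus L F g) (G : GaussDatum A F Fk) {m : ℕ}
    {D₀ : Divisor.degZero (K := L) (F := F)} {z : F} (hz0 : z ≠ 0)
    (hz : ∀ P : Place L F, P.ord z = (m : ℤ) * (D₀ : Divisor L F) P) :
    kapCl G m (Pic0.mk D₀) = 0 ↔ KTriv G m z := by
  rw [kapCl, Om.mk_eq_zero_iff, isCPow_kapFun_iff hF G hz0 hz]

theorem ordHom_kapCl (G : GaussDatum A F Fk) (m : ℕ) (Q : Place k Fk) (x : Pic0 L F) :
    Om.ordHom Q (kapCl G m x) = kapOrd G m Q x := rfl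

end Fermat.Agent.S44lib.Kap

end
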