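/-
S44lib / Kap / Hecke  (helper6)  — Project LSq, block Q2a.

**Equivariance of the reduction Kummer class under a correspondence.**

`F`, `F'` function fields over `L` with Gauss data `G` (residue field `Fk`), `G'` (residue field
`Fk'`); `φ ψ : F →ₐ[L] F'` the two legs of a correspondence `T = ψ_* ∘ φ^*` on `Pic⁰(F)`.

* `GaussCompat G G' φ φb` : `φ` maps `G.O` into `G'.O` and induces `φb : Fk →ₐ[k] Fk'` on the residue
                            fields;
* `NormCompat G G' ψ m nb`: the norm along `ψ` maps `G'`-units to `G`-units and induces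
                            `nb : Om A Fk' m →+ Om A Fk m` on the classes of the reductions
                            (for an inert `ψ`: `nb` = the norm of the residue extension,
                            `Kap/NormInert.lean`);
* **`kapCl_correspondence`** : `kapCl G m (T x) = nb (Om.map φb (kapCl G m x))` for `m • x = 0`.
-/
import Fermat.Agent.S44lib.Kap.Om
import Fermat.Agent.S29lib.D.KummerCorr

set_option autoImplicit false
set_option linter.unusedSectionVars false

noncomputable section

namespace Fermat.Agent.S44lib.Kap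

open AlgebraicCurve Fermat.Agent.LSb Fermat.Agent.S18lib Fermat.Agent.S29lib.D

variable {L : Type*} [Field L] {A : ValuationSubring L}
variable {F : Type*} [Field F] [Algebra L F]
variable {F' : Type*} [Field F'] [Algebra L F']
variable {Fk : Type*} [Field Fk] [Algebra (IsLocalRing.ResidueField A) Fk]
variable {Fk' : Type*} [Field Fk'] [Algebra (IsLocalRing.ResidueField A) Fk']

local notation "k" => IsLocalRing.ResidueField A

/-- `φ : F → F'` is compatible with the Gauss data and induces `φb` on the residue fields -/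
structure GaussCompat (G : GaussDatum A F Fk) (G' : GaussDatum A F' Fk') (φ : F →ₐ[L] F')
    (φb : Fk →ₐ[IsLocalRing.ResidueField A] Fk') : Prop where
  mem : ∀ y ∈ G.O, φ y ∈ G'.O
  red : ∀ y ∈ G.O, G'.redF (φ y) = φb (G.redF y)

/-- the norm along `ψ : F → F'` is compatible with the Gauss data and induces `nb` on the classes of
the reductions -/
structure NormCompat (G : GaussDatum A F Fk) (G' : GaussDatum A F' Fk') (ψ : F →ₐ[L] F') (m : ℕ)
    (nb : Om A Fk' m →+ Om A Fk m) : Prop where
  ne : ∀ f : F', G'.redF f ≠ 0 → G.redF (normAlong ψ f) ≠ 0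
  cl : ∀ (f : F') (h : G'.redF f ≠ 0),
    Om.mk (G.redF (normAlong ψ f)) (ne f h) = nb (Om.mk (G'.redF f) h)

/-- the class of a Kummer representative which is a `G`-unit -/
theorem kapCl_of_kummerRel {g : ℕ} (hF : IsCurveOfGenus L F g) (G : GaussDatum A F Fk) {m : ℕ}
    {x : Pic0 L F} {f : F} (h : KummerRel m x f) (hne : G.redF f ≠ 0) :
    kapCl G m x = Om.mk (G.redF f) hne := by
  obtain ⟨hf, D, rfl, hD⟩ := h
  exact kapCl_eq hF G hf (fun P => (hD P).symm) hne

/-- an `m`-torsion class has a Kummer representative which is a `G`-unit reducing to `kapFun` -/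
theorem exists_kummerRel (G : GaussDatum A F Fk) {m : ℕ} {x : Pic0 L F} (hx : (m : ℤ) • x = 0) :
    ∃ f : F, KummerRel m x f ∧ G.redF f = kapFun G m x := by
  obtain ⟨D₀, z, hxD, hz0, hz, hred⟩ := kapFun_rep G hx
  exact ⟨z, ⟨hz0, D₀, hxD, fun P => (hz P).symm⟩, hred⟩

variable [HasPrincipalDivisors L F']
variable (φ ψ : F →ₐ[L] F') (hφ : φ.toRingHom.IsIntegral) (hψ : ψ.toRingHom.IsIntegral)
variable (hFI : FundamentalIdentityAlong L φ hφ)
variable (hfin : FiniteAlong L ψ) (hN : NormFormulaAlong L ψ hfin)

/-- **Equivariance of the reduction Kummer class under the correspondence `ψ_* ∘ φ^*`.** -/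
theorem kapCl_correspondence {g : ℕ} (hF : IsCurveOfGenus L F g) {G : GaussDatum A F Fk}
    {G' : GaussDatum A F' Fk'} {φb : Fk →ₐ[IsLocalRing.ResidueField A] Fk'}
    (hφG : GaussCompat G G' φ φb) {m : ℕ} {nb : Om A Fk' m →+ Om A Fk m}
    (hψG : NormCompat G G' ψ m nb) {x : Pic0 L F} (hx : (m : ℤ) • x = 0) :
    kapCl G m (Pic0.correspondence φ ψ hφ hψ hFI hfin hN x) = nb (Om.map φb (kapCl G m x)) := by
  obtain ⟨f, hrel, hred⟩ := exists_kummerRel G hx
  have hne : G.redF f ≠ 0 := by rw [hred]; exact kapFun_ne_zero _ _ _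
  have hfO : f ∈ G.O := G.mem_of_redF_ne_zero hne
  have hne' : G'.redF (φ f) ≠ 0 := by
    rw [hφG.red f hfO]
    exact (map_ne_zero φb).2 hne
  have hrel' := hrel.correspondence φ ψ hφ hψ hFI hfin hN
  rw [kapCl_of_kummerRel hF G hrel' (hψG.ne _ hne'), hψG.cl _ hne', kapCl_of_kummerRel hF G hrel hne,
    Om.map_mk]
  congr 1
  exact Om.mk_congr hne' (hφG.red f hfO)

end Fermat.Agent.S44lib.Kap

end
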