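/-
S44lib / Kap / NormInert  (helper6)  — Project LSq, block Q2a.

**NORM–REDUCTION for an inert extension of Gauss valuations.**

`F' / F` a finite extension of fields over `L`, `G` a Gauss datum on `F` (residue field `Fk`), `G'` a
Gauss datum on `F'` (residue field `Fk'`, an `Fk`-algebra) restricting to `G`, with
`[F' : F] = [Fk' : Fk]` (the valuation is INERT: no ramification, no defect, no other extension).
Then for every `f ∈ G'.O`:

  `N_{F'/F} f ∈ G.O`   and   `G.redF (N_{F'/F} f) = N_{Fk'/Fk} (G'.redF f)`.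

(One-component version of helper9's `LSc.redF_norm`; same proof: a lifted basis of the residue
extension is an orthonormal `F`-basis of `F'`.)  Consequence: `normCompat_of_inert`, the hypothesis
`NormCompat` of `Kap/Hecke.lean` with `nb` = the norm of the residue extension.
-/
import Fermat.Agent.S44lib.Kap.Hecke
import Fermat.Agent.LSc.Core.NormRed

set_option autoImplicit false
set_option linter.unusedSectionVars false
set_option linter.style.haveILetI false

noncomputable section

namespace Fermat.Agent.S44lib.Kap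

open AlgebraicCurve Fermat.Agent.LSb Fermat.Agent.S18lib Fermat.Agent.LSc

section Abstract

variable {L : Type*} [Field L] {A : ValuationSubring L}
variable {F F' : Type*} [Field F] [Field F'] [Algebra L F] [Algebra L F'] [Algebra F F']
variable {Fk Fk' : Type*} [Field Fk] [Field Fk']
variable [Algebra (IsLocalRing.ResidueField A) Fk] [Algebra (IsLocalRing.ResidueField A) Fk']
  [Algebra Fk Fk']

variable {G : GaussDatum A F Fk} {G' : GaussDatum A F' Fk'}
variable {ι : Type*} [Fintype ι] {b : ι → Fk'} {e : ι → F'}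

/-- a family in `G'.O` lifting `b` -/
structure IsLift (G' : GaussDatum A F' Fk') (b : ι → Fk') (e : ι → F') : Prop where
  mem : ∀ i, e i ∈ G'.O
  red : ∀ i, G'.redF (e i) = b i

theorem exists_isLift (G' : GaussDatum A F' Fk') (b : ι → Fk') : ∃ e : ι → F', IsLift G' b e := by
  choose y hy using fun i => G'.red_surjective (b i)
  refine ⟨fun i => ((y i : G'.O) : F'), fun i => (y i).2, fun i => ?_⟩
  rw [G'.redF_of_mem (y i).2]
  exact hy i

theorem IsLift.sum_mem (he : IsLift G' b e) (h : Restricts G G') (α : ι → F)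
    (hα : ∀ i, α i ∈ G.O) : ∑ i, α i • e i ∈ G'.O :=
  G'.O.sum_mem fun i _ => by
    rw [Algebra.smul_def]; exact G'.O.mul_mem _ _ (h.mem _ (hα i)) (he.mem i)

theorem IsLift.redF_sum (he : IsLift G' b e) (h : Restricts G G') (α : ι → F)
    (hα : ∀ i, α i ∈ G.O) : G'.redF (∑ i, α i • e i) = ∑ i, G.redF (α i) • b i := by
  have hmem : ∀ i ∈ (Finset.univ : Finset ι), α i • e i ∈ G'.O := fun i _ => by
    rw [Algebra.smul_def]; exact G'.O.mul_mem _ _ (h.mem _ (hα i)) (he.mem i)
  rw [G'.redF_sum _ _ hmem]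
  refine Finset.sum_congr rfl fun i _ => ?_
  rw [Algebra.smul_def, G'.redF_mul (h.mem _ (hα i)) (he.mem i), h.red _ (hα i), he.red,
    Algebra.smul_def]

theorem IsLift.key (he : IsLift G' b e) (h : Restricts G G') (hb : LinearIndependent Fk b)
    (α : ι → F) (hα : α ≠ 0) :
    ∃ i₀, α i₀ ≠ 0 ∧ (∀ i, α i / α i₀ ∈ G.O) ∧ G'.redF ((α i₀)⁻¹ • ∑ i, α i • e i) ≠ 0 := by
  obtain ⟨i₀, hi₀, hdiv⟩ := LSc.exists_max_coeff G.O α hα
  refine ⟨i₀, hi₀, hdiv, ?_⟩
  have hsum : (α i₀)⁻¹ • ∑ i, α i • e i = ∑ i, (α i / α i₀) • e i := by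
    rw [Finset.smul_sum]
    refine Finset.sum_congr rfl fun i _ => ?_
    rw [smul_smul, div_eq_inv_mul]
  have hone : G.redF (α i₀ / α i₀) = 1 := by rw [div_self hi₀, G.redF_one]
  rw [hsum, he.redF_sum h _ hdiv]
  intro h0
  have := Fintype.linearIndependent_iff.mp hb _ h0 i₀
  rw [hone] at this
  exact one_ne_zero this

theorem IsLift.linearIndependent (he : IsLift G' b e) (h : Restricts G G')
    (hb : LinearIndependent Fk b) : LinearIndependent F e := by
  rw [Fintype.linearIndependent_iff]
  intro α hsum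
  by_contra hne
  have hα : α ≠ 0 := fun h => hne (fun i => congrFun h i)
  obtain ⟨i₀, -, -, h'⟩ := he.key h hb α hα
  rw [hsum, smul_zero, G'.redF_zero] at h'
  exact h' rfl

theorem IsLift.coeff_mem (he : IsLift G' b e) (h : Restricts G G') (hb : LinearIndependent Fk b)
    (α : ι → F) (hx : ∑ i, α i • e i ∈ G'.O) : ∀ i, α i ∈ G.O := by
  rcases eq_or_ne α 0 with rfl | hα
  · intro i; exact G.O.zero_mem
  obtain ⟨i₀, hi₀, hdiv, h'⟩ := he.key h hb α hα
  have hγ : α i₀ ∈ G.O := by
    by_contra hnot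
    have hinv := Frame.inMax_inv_of_not_mem (D := G) hnot
    have e1 : G'.redF ((α i₀)⁻¹ • ∑ i, α i • e i) = 0 := by
      rw [Algebra.smul_def, G'.redF_mul (h.mem _ hinv.1) hx, h.red _ hinv.1, hinv.2, map_zero,
        zero_mul]
    exact h' e1
  intro i
  have : α i = α i / α i₀ * α i₀ := by field_simp
  rw [this]
  exact G.O.mul_mem _ _ (hdiv i) hγ

variable [FiniteDimensional F F'] [Module.Finite Fk Fk']

/-- **NORM–REDUCTION, inert case.** -/
theorem redF_norm_inert (G : GaussDatum A F Fk) (G' : GaussDatum A F' Fk') (h : Restricts G G')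
    (hdeg : Module.finrank F F' = Module.finrank Fk Fk') {f : F'} (hf : f ∈ G'.O) :
    Algebra.norm F f ∈ G.O ∧ G.redF (Algebra.norm F f) = Algebra.norm Fk (G'.redF f) := by
  classical
  set B₁ := Module.Free.chooseBasis Fk Fk' with hB₁
  obtain ⟨e, he⟩ := exists_isLift G' (⇑B₁)
  have hli : LinearIndependent F e := he.linearIndependent h B₁.linearIndependent
  have hcard : Fintype.card (Module.Free.ChooseBasisIndex Fk Fk') = Module.finrank F F' := by
    rw [← Module.finrank_eq_card_chooseBasisIndex, hdeg]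
  set B := basisOfLinearIndependentOfCardEqFinrank hli hcard with hBdef
  have hB : ∀ i, B i = e i := fun i => by
    rw [hBdef, coe_basisOfLinearIndependentOfCardEqFinrank]
  set M := Algebra.leftMulMatrix B f with hMdef
  have hexp : ∀ j, ∑ i, M i j • e i = f * e j := by
    intro j
    have := B.sum_repr (f * B j)
    simp only [hB] at this
    rw [← this]
    refine Finset.sum_congr rfl fun i _ => ?_
    rw [hMdef, Algebra.leftMulMatrix_eq_repr_mul, hB]
  have hcol : ∀ j, f * e j ∈ G'.O := fun j => G'.O.mul_mem _ _ hf (he.mem j)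
  have hM : ∀ i j, M i j ∈ G.O := fun i j =>
    he.coeff_mem h B₁.linearIndependent (fun i => M i j) (by rw [hexp]; exact hcol j) i
  have hr : ∀ j, ∑ i, G.redF (M i j) • B₁ i = G'.redF f * G'.redF (e j) := by
    intro j
    rw [← he.redF_sum h (fun i => M i j) (fun i => hM i j), hexp, G'.redF_mul hf (he.mem j)]
  have hmap : M.map G.redF = Algebra.leftMulMatrix B₁ (G'.redF f) := by
    ext i j
    rw [Matrix.map_apply, Algebra.leftMulMatrix_eq_repr_mul, ← he.red j, ← hr j,
      B₁.repr_sum_self]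
  obtain ⟨hdet_mem, hdet_red⟩ := det_mem_and_redF_det G M hM
  rw [Algebra.norm_eq_matrix_det B f]
  refine ⟨hdet_mem, ?_⟩
  rw [hdet_red, hmap, ← Algebra.norm_eq_matrix_det]

end Abstract

/-! ### the `Along` form and `NormCompat` -/

section Along

variable {L : Type*} [Field L] {A : ValuationSubring L}
variable {F F' : Type*} [Field F] [Field F'] [Algebra L F] [Algebra L F']
variable {Fk Fk' : Type*} [Field Fk] [Field Fk']
variable [Algebra (IsLocalRing.ResidueField A) Fk] [Algebra (IsLocalRing.ResidueField A) Fk']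

local notation "k" => IsLocalRing.ResidueField A

/-- the norm of classes along a `k`-algebra homomorphism `ψb : Fk → Fk'` making `Fk'` finite -/
def Om.normAlong (ψb : Fk →ₐ[IsLocalRing.ResidueField A] Fk') (m : ℕ)
    (hfin : FiniteAlong (IsLocalRing.ResidueField A) ψb) : Om A Fk' m →+ Om A Fk m :=
  letI := algebraAlong ψb
  haveI := isScalarTower_along ψb
  haveI : FiniteDimensional Fk Fk' := hfin
  Om.norm

theorem Om.normAlong_mk (ψb : Fk →ₐ[IsLocalRing.ResidueField A] Fk') (m : ℕ)
    (hfin : FiniteAlong (IsLocalRing.ResidueField A) ψb) {φ : Fk'} (h : φ ≠ 0) :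
    Om.normAlong ψb m hfin (Om.mk φ h) =
      Om.mk (S29lib.D.normAlong ψb φ) (S29lib.D.normAlong_ne_zero ψb h hfin) := by
  letI := algebraAlong ψb
  haveI := isScalarTower_along ψb
  haveI : FiniteDimensional Fk Fk' := hfin
  exact Om.norm_mk h

/-- **an inert leg is norm-compatible**, with `nb` the norm of the residue extension -/
theorem normCompat_of_inert {G : GaussDatum A F Fk} {G' : GaussDatum A F' Fk'} {ψ : F →ₐ[L] F'}
    {ψb : Fk →ₐ[IsLocalRing.ResidueField A] Fk'} (hψG : GaussCompat G G' ψ ψb)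
    (hfin : FiniteAlong L ψ) (hfinb : FiniteAlong (IsLocalRing.ResidueField A) ψb)
    (hdeg : finrankAlong L ψ = finrankAlong (IsLocalRing.ResidueField A) ψb) (m : ℕ) :
    NormCompat G G' ψ m (Om.normAlong ψb m hfinb) := by
  letI := algebraAlong ψ
  letI := algebraAlong ψb
  haveI := isScalarTower_along ψb
  haveI : FiniteDimensional F F' := hfin
  haveI : FiniteDimensional Fk Fk' := hfinb
  have hR : Restricts G G' := ⟨fun y hy => hψG.mem y hy, fun y hy => hψG.red y hy⟩
  have key : ∀ f : F', G'.redF f ≠ 0 →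
      Algebra.norm F f ∈ G.O ∧ G.redF (Algebra.norm F f) = Algebra.norm Fk (G'.redF f) :=
    fun f hf => redF_norm_inert G G' hR hdeg (G'.mem_of_redF_ne_zero hf)
  have hne : ∀ f : F', G'.redF f ≠ 0 → G.redF (S29lib.D.normAlong ψ f) ≠ 0 := by
    intro f hf
    show G.redF (Algebra.norm F f) ≠ 0
    rw [(key f hf).2]
    exact Algebra.norm_ne_zero_iff.2 hf
  refine ⟨hne, fun f hf => ?_⟩
  rw [Om.normAlong_mk ψb m hfinb hf]
  exact Om.mk_congr (hne f hf) (key f hf).2

end Along

end Fermat.Agent.S44lib.Kap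

end
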