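/-
S44lib / Kap / Red  (helper6)  — Project LSq, block Q2a.

**The reduction of a torsion class whose reduction Kummer function has all orders divisible by `m`.**

For a Gauss datum `G` on `F` (residue field `Fk`), `x = [D₀]`, `m • D₀ = div z` (`z` a `G`-unit) with
`m ∣ ord_Q z̄` for ALL places `Q` of `Fk` (`KapDvd G m x`):

  `redCl G m x = [(1/m) · div z̄] ∈ Pic⁰(Fk)[m]`.

* `redCl_eq`          : any normalised representative computes it;
* `redCl_add`, `redCl_zero`, `smul_redCl` (it is `m`-torsion);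
* `redCl_eq_zero_iff` : `redCl G m x = 0 ↔ KTriv G m z`  (the reduction Kummer class is trivial).
-/
import Fermat.Agent.S44lib.Kap.KapFun

set_option autoImplicit false
set_option linter.unusedSectionVars false

noncomputable section

namespace Fermat.Agent.S44lib.Kap

open AlgebraicCurve Fermat.Agent.LSb Fermat.Agent.S18lib

variable {L : Type*} [Field L] {A : ValuationSubring L}
variable {F : Type*} [Field F] [Algebra L F]
variable {Fk : Type*} [Field Fk] [Algebra (IsLocalRing.ResidueField A) Fk]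
variable [HasPrincipalDivisors (IsLocalRing.ResidueField A) Fk]

local notation "k" => IsLocalRing.ResidueField A

/-- all orders of the reduction Kummer function of `x` are divisible by `m` -/
def KapDvd (G : GaussDatum A F Fk) (m : ℕ) (x : Pic0 L F) : Prop :=
  ∀ Q : Place k Fk, kapOrd G m Q x = 0

theorem KapDvd.dvd {G : GaussDatum A F Fk} {m : ℕ} {x : Pic0 L F} (h : KapDvd G m x)
    (Q : Place k Fk) : (m : ℤ) ∣ Q.ord (kapFun G m x) := by
  have := h Q
  rw [kapOrd] at this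
  exact (ZMod.intCast_zmod_eq_zero_iff_dvd _ _).1 this

theorem kapDvd_zero {g : ℕ} (hF : IsCurveOfGenus L F g) (G : GaussDatum A F Fk) (m : ℕ) :
    KapDvd G m (0 : Pic0 L F) := fun Q => kapOrd_zero hF G m Q

theorem KapDvd.add {g : ℕ} (hF : IsCurveOfGenus L F g) {G : GaussDatum A F Fk} {m : ℕ}
    {x y : Pic0 L F} (hx : (m : ℤ) • x = 0) (hy : (m : ℤ) • y = 0) (hdx : KapDvd G m x)
    (hdy : KapDvd G m y) : KapDvd G m (x + y) := fun Q => by
  rw [kapOrd_add hF G Q hx hy, hdx Q, hdy Q, add_zero]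

/-- a representative with `div z̄ = m • E` certifies `KapDvd` -/
theorem kapDvd_of_ord {g : ℕ} (hF : IsCurveOfGenus L F g) (G : GaussDatum A F Fk) {m : ℕ}
    {D₀ : Divisor.degZero (K := L) (F := F)} {z : F} (hz0 : z ≠ 0)
    (hz : ∀ P : Place L F, P.ord z = (m : ℤ) * (D₀ : Divisor L F) P) (hne : G.redF z ≠ 0)
    {E : Divisor k Fk} (hE : ∀ Q : Place k Fk, Q.ord (G.redF z) = (m : ℤ) * E Q) :
    KapDvd G m (Pic0.mk D₀) := fun Q => by
  rw [kapOrd_eq hF G Q hz0 hz hne, hE]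
  push_cast
  rw [ZMod.natCast_self, zero_mul]

/-- the divisor `(1/m) · div (kapFun x)` (integer division; exact under `KapDvd`) -/
def redDiv (G : GaussDatum A F Fk) (m : ℕ) (x : Pic0 L F) : Divisor k Fk :=
  Finsupp.mapRange (fun n : ℤ => n / (m : ℤ)) (Int.zero_ediv _) (divOf (K := k) (kapFun G m x))

theorem redDiv_apply (G : GaussDatum A F Fk) (m : ℕ) (x : Pic0 L F) (Q : Place k Fk) :
    redDiv G m x Q = Q.ord (kapFun G m x) / (m : ℤ) := by
  rw [redDiv, Finsupp.mapRange_apply, divOf_apply']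

theorem mul_redDiv_apply {G : GaussDatum A F Fk} {m : ℕ} {x : Pic0 L F} (h : KapDvd G m x)
    (Q : Place k Fk) : (m : ℤ) * redDiv G m x Q = Q.ord (kapFun G m x) := by
  rw [redDiv_apply, Int.mul_ediv_cancel' (h.dvd Q)]

theorem smul_redDiv {G : GaussDatum A F Fk} {m : ℕ} {x : Pic0 L F} (h : KapDvd G m x) :
    (m : ℤ) • redDiv G m x = divOf (K := k) (kapFun G m x) := by
  ext Q
  rw [Finsupp.smul_apply, smul_eq_mul, mul_redDiv_apply h, divOf_apply']

theorem degree_redDiv {G : GaussDatum A F Fk} {m : ℕ} (hm : 0 < m) {x : Pic0 L F}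
    (h : KapDvd G m x) : Divisor.degree (redDiv G m x) = 0 := by
  have h1 := congrArg Divisor.degree (smul_redDiv h)
  rw [map_zsmul, degree_divOf, smul_eq_mul] at h1
  rcases mul_eq_zero.1 h1 with h2 | h2
  · exact absurd h2 (by exact_mod_cast hm.ne')
  · exact h2

open Classical in
/-- **the reduction of the class `x`** in `Pic⁰(Fk)` (meaningful under `KapDvd G m x`) -/
def redCl (G : GaussDatum A F Fk) (m : ℕ) (x : Pic0 L F) : Pic0 k Fk :=
  if h : Divisor.degree (redDiv G m x) = 0 then Pic0.mk ⟨redDiv G m x, h⟩ else 0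

theorem redCl_def {G : GaussDatum A F Fk} {m : ℕ} (hm : 0 < m) {x : Pic0 L F} (h : KapDvd G m x) :
    redCl G m x = Pic0.mk ⟨redDiv G m x, degree_redDiv hm h⟩ := by
  classical
  rw [redCl, dif_pos (degree_redDiv hm h)]

/-- a divisor `E` with `m • E = div φ` has degree zero -/
theorem degree_eq_zero_of_ord {m : ℕ} (hm : 0 < m) {φ : Fk} {E : Divisor k Fk}
    (hE : ∀ Q : Place k Fk, Q.ord φ = (m : ℤ) * E Q) : Divisor.degree E = 0 := by
  have h0 : divOf (K := k) φ = (m : ℤ) • E := by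
    ext Q
    rw [divOf_apply', hE, Finsupp.smul_apply, smul_eq_mul]
  have h1 := congrArg Divisor.degree h0
  rw [map_zsmul, degree_divOf, smul_eq_mul] at h1
  rcases mul_eq_zero.1 h1.symm with h2 | h2
  · exact absurd h2 (by exact_mod_cast hm.ne')
  · exact h2

/-- **any normalised representative computes `redCl`**: if `div z̄ = m • E` then
`redCl G m [D₀] = [E]` -/
theorem redCl_eq {g : ℕ} (hF : IsCurveOfGenus L F g) (G : GaussDatum A F Fk) {m : ℕ} (hm : 0 < m)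
    {D₀ : Divisor.degZero (K := L) (F := F)} {z : F} (hz0 : z ≠ 0)
    (hz : ∀ P : Place L F, P.ord z = (m : ℤ) * (D₀ : Divisor L F) P) (hne : G.redF z ≠ 0)
    {E : Divisor k Fk} (hE : ∀ Q : Place k Fk, Q.ord (G.redF z) = (m : ℤ) * E Q) :
    redCl G m (Pic0.mk D₀) = Pic0.mk ⟨E, degree_eq_zero_of_ord hm hE⟩ := by
  have hd : KapDvd G m (Pic0.mk D₀) := kapDvd_of_ord hF G hz0 hz hne hE
  rw [redCl_def hm hd]
  have hk := kapFun_ne_zero G m (Pic0.mk D₀)
  have hspec := kapFun_spec hF G hz0 hz hne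
  have hr0 : G.redF z * (kapFun G m (Pic0.mk D₀))⁻¹ ≠ 0 := mul_ne_zero hne (inv_ne_zero hk)
  obtain ⟨a, ψ, hψ⟩ := hspec
  have ha : algebraMap k Fk a ≠ 0 := by
    intro h0
    rw [hψ, h0, zero_mul] at hr0
    exact hr0 rfl
  have hψm : ψ ^ m ≠ 0 := by
    intro h0
    rw [hψ, h0, mul_zero] at hr0
    exact hr0 rfl
  have hψ0 : ψ ≠ 0 := by
    rintro rfl
    exact hψm (zero_pow hm.ne')
  apply (QuotientAddGroup.eq).2
  rw [AddSubgroup.mem_addSubgroupOf]
  refine ⟨ψ, hψ0, fun Q => ?_⟩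
  show (-(redDiv G m (Pic0.mk D₀)) + E) Q = Q.ord ψ
  rw [Finsupp.add_apply, Finsupp.neg_apply]
  have h1 : Q.ord (G.redF z * (kapFun G m (Pic0.mk D₀))⁻¹) = (m : ℤ) * Q.ord ψ := by
    rw [hψ, Q.ord_mul ha hψm, S18lib.Cech.ord_const, zero_add, S18lib.Cech.ord_pow]
  rw [Q.ord_mul hne (inv_ne_zero hk), Q.ord_inv, hE, ← mul_redDiv_apply hd Q] at h1
  have hmZ : (m : ℤ) ≠ 0 := by exact_mod_cast hm.ne'
  apply mul_left_cancel₀ hmZ
  linarith

theorem redCl_zero {g : ℕ} (hF : IsCurveOfGenus L F g) (G : GaussDatum A F Fk) {m : ℕ}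
    (hm : 0 < m) : redCl G m (0 : Pic0 L F) = 0 := by
  have h := redCl_eq hF G hm (D₀ := 0) (z := 1) one_ne_zero
    (fun P => by rw [Place.ord_one]; simp) (by rw [G.redF_one]; exact one_ne_zero) (E := 0)
    (fun Q => by rw [G.redF_one, Place.ord_one]; simp)
  rw [Pic0.mk_zero] at h
  rw [h]
  rfl

/-- additivity of the reduction -/
theorem redCl_add {g : ℕ} (hF : IsCurveOfGenus L F g) (G : GaussDatum A F Fk) {m : ℕ} (hm : 0 < m)
    {x y : Pic0 L F} (hx : (m : ℤ) • x = 0) (hy : (m : ℤ) • y = 0) (hdx : KapDvd G m x)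
    (hdy : KapDvd G m y) : redCl G m (x + y) = redCl G m x + redCl G m y := by
  rw [redCl_def hm hdx, redCl_def hm hdy]
  obtain ⟨D₁, z₁, rfl, hz10, hz1, hred1⟩ := kapFun_rep G hx
  obtain ⟨D₂, z₂, rfl, hz20, hz2, hred2⟩ := kapFun_rep G hy
  have hne1 : G.redF z₁ ≠ 0 := by rw [hred1]; exact kapFun_ne_zero _ _ _
  have hne2 : G.redF z₂ ≠ 0 := by rw [hred2]; exact kapFun_ne_zero _ _ _
  have hmul : G.redF (z₁ * z₂) = G.redF z₁ * G.redF z₂ :=
    G.redF_mul (G.mem_of_redF_ne_zero hne1) (G.mem_of_redF_ne_zero hne2)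
  have hne : G.redF (z₁ * z₂) ≠ 0 := by rw [hmul]; exact mul_ne_zero hne1 hne2
  have hz12 : ∀ P : Place L F, P.ord (z₁ * z₂) =
      (m : ℤ) * ((D₁ + D₂ : Divisor.degZero (K := L) (F := F)) : Divisor L F) P := by
    intro P
    rw [P.ord_mul hz10 hz20, hz1, hz2, AddSubgroup.coe_add, Finsupp.add_apply]
    ring
  have hE : ∀ Q : Place k Fk, Q.ord (G.redF (z₁ * z₂)) =
      (m : ℤ) * (redDiv G m (Pic0.mk D₁) + redDiv G m (Pic0.mk D₂)) Q := by
    intro Q
    rw [hmul, Q.ord_mul hne1 hne2, hred1, hred2, Finsupp.add_apply, mul_add,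
      mul_redDiv_apply hdx, mul_redDiv_apply hdy]
  rw [← Pic0.mk_add, redCl_eq hF G hm (mul_ne_zero hz10 hz20) hz12 hne hE]
  rfl

/-- the reduction is `m`-torsion -/
theorem smul_redCl {G : GaussDatum A F Fk} {m : ℕ} (hm : 0 < m) {x : Pic0 L F}
    (h : KapDvd G m x) : (m : ℤ) • redCl G m x = 0 := by
  rw [redCl_def hm h]
  show Pic0.mk ((m : ℤ) • _) = 0
  apply (QuotientAddGroup.eq_zero_iff _).2
  rw [AddSubgroup.mem_addSubgroupOf]
  refine ⟨kapFun G m x, kapFun_ne_zero G m x, fun Q => ?_⟩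
  show ((m : ℤ) • redDiv G m x) Q = _
  rw [Finsupp.smul_apply, smul_eq_mul, mul_redDiv_apply h]

/-- **the kernel of the reduction = the classes with trivial reduction Kummer class** -/
theorem redCl_eq_zero_iff {g gk : ℕ} (hF : IsCurveOfGenus L F g)
    (hFk : IsCurveOfGenus k Fk gk) (G : GaussDatum A F Fk) {m : ℕ} (hm : 0 < m)
    {D₀ : Divisor.degZero (K := L) (F := F)} {z : F} (hz0 : z ≠ 0)
    (hz : ∀ P : Place L F, P.ord z = (m : ℤ) * (D₀ : Divisor L F) P)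
    (hd : KapDvd G m (Pic0.mk D₀)) :
    redCl G m (Pic0.mk D₀) = 0 ↔ KTriv G m z := by
  rw [← isCPow_kapFun_iff hF G hz0 hz, redCl_def hm hd]
  set φ : Fk := kapFun G m (Pic0.mk D₀) with hφ
  have hk : φ ≠ 0 := kapFun_ne_zero G m (Pic0.mk D₀)
  have hmZ : (m : ℤ) ≠ 0 := by exact_mod_cast hm.ne'
  constructor
  · intro h
    have h2 := (QuotientAddGroup.eq_zero_iff _).1 h
    rw [AddSubgroup.mem_addSubgroupOf] at h2
    obtain ⟨ψ, hψ0, hψ⟩ := h2
    have hψ' : ∀ Q : Place k Fk, redDiv G m (Pic0.mk D₀) Q = Q.ord ψ := hψ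
    have hu0 : φ * (ψ ^ m)⁻¹ ≠ 0 := mul_ne_zero hk (inv_ne_zero (pow_ne_zero _ hψ0))
    have hord : ∀ Q : Place k Fk, Q.ord (φ * (ψ ^ m)⁻¹) = 0 := by
      intro Q
      rw [Q.ord_mul hk (inv_ne_zero (pow_ne_zero _ hψ0)), Q.ord_inv, S18lib.Cech.ord_pow,
        ← hψ' Q, mul_redDiv_apply hd Q, ← hφ, add_neg_cancel]
    obtain ⟨a, ha⟩ := S29lib.K1.const_of_ord_eq_zero hFk _ hu0 hord
    refine ⟨a, ψ, ?_⟩
    rw [ha]
    field_simp
  · rintro ⟨a, ψ, hψ⟩
    have ha : algebraMap k Fk a ≠ 0 := by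
      intro h0
      rw [hψ, h0, zero_mul] at hk
      exact hk rfl
    have hψm : ψ ^ m ≠ 0 := by
      intro h0
      rw [hψ, h0, mul_zero] at hk
      exact hk rfl
    have hψ0 : ψ ≠ 0 := by
      rintro rfl
      exact hψm (zero_pow hm.ne')
    apply (QuotientAddGroup.eq_zero_iff _).2
    rw [AddSubgroup.mem_addSubgroupOf]
    refine ⟨ψ, hψ0, fun Q => ?_⟩
    show redDiv G m (Pic0.mk D₀) Q = Q.ord ψ
    apply mul_left_cancel₀ hmZ
    rw [mul_redDiv_apply hd Q, ← hφ, hψ, Q.ord_mul ha hψm, S18lib.Cech.ord_const, zero_add,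
      S18lib.Cech.ord_pow]

/-- a class with trivial reduction Kummer class has all orders divisible by `m` -/
theorem kapDvd_of_kTriv {g : ℕ} (hF : IsCurveOfGenus L F g) (G : GaussDatum A F Fk) {m : ℕ}
    {D₀ : Divisor.degZero (K := L) (F := F)} {z : F} (hz0 : z ≠ 0)
    (hz : ∀ P : Place L F, P.ord z = (m : ℤ) * (D₀ : Divisor L F) P) (h : KTriv G m z) :
    KapDvd G m (Pic0.mk D₀) := fun Q => by
  have h1 := (isCPow_kapFun_iff hF G hz0 hz).2 h
  obtain ⟨t, ht⟩ := h1.dvd_ord (kapFun_ne_zero G m _) Q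
  rw [kapOrd, ht]
  push_cast
  rw [ZMod.natCast_self, zero_mul]

end Fermat.Agent.S44lib.Kap

end
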