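/-
S44lib / Kap / Delta  (helper6)  — Project LSq, blocks Q2a / Q5: the Kummer dictionary on the
special fibre.

For a function field `Fk` over the residue field `k` of `A`:

* `kumCl m : Pic⁰(Fk) → Om A Fk m`, `y = [E]`, `m • E = div φ ↦ [φ]`   (the Kummer map `δ`);
* `kumCl_eq` (any representative computes it), `kumCl_of_kummerRel`, `kumCl_add`;
* **`kumCl_eq_zero_iff`** : on the `m`-torsion, `kumCl m y = 0 ↔ y = 0`   (`δ` is injective);
* **`kumCl_redCl`**       : `kumCl m (redCl G m x) = kapCl G m x` under `KapDvd G m x`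
                            (the class of `Ψ x` on a component is `δ` of the reduced class);
* **`kumCl_correspondence`** : `δ (ψb_* φb^* y) = N_ψb (φb (δ y))`   (`δ` is Hecke-equivariant);
* `kumHom hFk m : Pic⁰(Fk)[m] →+ Om A Fk m`, `kumHom_injective`;
* `ordHom_kumCl` : the orders of `δ y` vanish modulo `m` at every place.
-/
import Fermat.Agent.S44lib.Kap.Red
import Fermat.Agent.S44lib.Kap.NormInert

set_option autoImplicit false
set_option linter.unusedSectionVars false

noncomputable section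

namespace Fermat.Agent.S44lib.Kap

open AlgebraicCurve Fermat.Agent.LSb Fermat.Agent.S18lib Fermat.Agent.S29lib.D

variable {L : Type*} [Field L] {A : ValuationSubring L}
variable {F : Type*} [Field F] [Algebra L F]
variable {Fk : Type*} [Field Fk] [Algebra (IsLocalRing.ResidueField A) Fk]
variable {Fk' : Type*} [Field Fk'] [Algebra (IsLocalRing.ResidueField A) Fk']

local notation "k" => IsLocalRing.ResidueField A

open Classical in
/-- a Kummer function of the `m`-torsion class `y` of the special fibre (`1` off the torsion) -/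
def kumFun (m : ℕ) (y : Pic0 (IsLocalRing.ResidueField A) Fk) : Fk :=
  if h : (m : ℤ) • y = 0 then (exists_rep_of_smul_eq_zero h).choose_spec.choose else 1

theorem kumFun_ne_zero (m : ℕ) (y : Pic0 (IsLocalRing.ResidueField A) Fk) : kumFun m y ≠ 0 := by
  classical
  rw [kumFun]
  split_ifs with h
  · exact (exists_rep_of_smul_eq_zero h).choose_spec.choose_spec.2.1
  · exact one_ne_zero

theorem kumFun_rep {m : ℕ} {y : Pic0 (IsLocalRing.ResidueField A) Fk} (hy : (m : ℤ) • y = 0) :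
    ∃ E : Divisor.degZero (K := IsLocalRing.ResidueField A) (F := Fk), Pic0.mk E = y ∧
      ∀ Q : Place k Fk, Q.ord (kumFun m y) = (m : ℤ) * (E : Divisor k Fk) Q := by
  classical
  rw [kumFun, dif_pos hy]
  exact ⟨(exists_rep_of_smul_eq_zero hy).choose,
    (exists_rep_of_smul_eq_zero hy).choose_spec.choose_spec.1,
    (exists_rep_of_smul_eq_zero hy).choose_spec.choose_spec.2.2⟩

/-- **the Kummer map of the special fibre** -/
def kumCl (m : ℕ) (y : Pic0 (IsLocalRing.ResidueField A) Fk) : Om A Fk m :=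
  Om.mk (kumFun m y) (kumFun_ne_zero m y)

/-- **any representative computes the Kummer class** -/
theorem kumCl_eq {gk : ℕ} (hFk : IsCurveOfGenus k Fk gk) {m : ℕ}
    {E : Divisor.degZero (K := IsLocalRing.ResidueField A) (F := Fk)} {φ : Fk} (hφ0 : φ ≠ 0)
    (hφ : ∀ Q : Place k Fk, Q.ord φ = (m : ℤ) * (E : Divisor k Fk) Q) :
    kumCl m (Pic0.mk E) = (Om.mk φ hφ0 : Om A Fk m) := by
  have hy : (m : ℤ) • (Pic0.mk E : Pic0 k Fk) = 0 := smul_mk_eq_zero_of_ord hφ0 hφ
  obtain ⟨E', hE', hord⟩ := kumFun_rep (A := A) hy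
  obtain ⟨a, f, -, -, h⟩ := exists_eq_const_mul_pow hFk m hE' (kumFun_ne_zero m _) hφ0 hord hφ
  rw [kumCl, Om.mk_eq_mk_iff]
  refine ⟨a, f, ?_⟩
  rw [h]
  field_simp [kumFun_ne_zero (A := A) m (Pic0.mk E)]

/-- the class of a Kummer representative -/
theorem kumCl_of_kummerRel {gk : ℕ} (hFk : IsCurveOfGenus k Fk gk) {m : ℕ}
    {y : Pic0 (IsLocalRing.ResidueField A) Fk} {φ : Fk} (h : KummerRel m y φ) :
    kumCl m y = (Om.mk φ h.ne_zero : Om A Fk m) := by
  obtain ⟨hφ0, E, rfl, hE⟩ := h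
  exact kumCl_eq hFk hφ0 fun Q => (hE Q).symm

theorem kumCl_add {gk : ℕ} (hFk : IsCurveOfGenus k Fk gk) {m : ℕ}
    {y y' : Pic0 (IsLocalRing.ResidueField A) Fk} (hy : (m : ℤ) • y = 0)
    (hy' : (m : ℤ) • y' = 0) :
    (kumCl m (y + y') : Om A Fk m) = kumCl m y + kumCl m y' := by
  obtain ⟨φ, hφ⟩ := S29lib.D.exists_kummerRel hy
  obtain ⟨φ', hφ'⟩ := S29lib.D.exists_kummerRel hy'
  rw [kumCl_of_kummerRel hFk (hφ.mul hφ'), kumCl_of_kummerRel hFk hφ, kumCl_of_kummerRel hFk hφ',
    ← Om.mk_mul]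

/-- **the Kummer map is injective on the `m`-torsion** -/
theorem kumCl_eq_zero_iff {gk : ℕ} (hFk : IsCurveOfGenus k Fk gk) {m : ℕ} (hm : 0 < m)
    {y : Pic0 (IsLocalRing.ResidueField A) Fk} (hy : (m : ℤ) • y = 0) :
    (kumCl m y : Om A Fk m) = 0 ↔ y = 0 := by
  constructor
  · intro h
    obtain ⟨E, rfl, hord⟩ := kumFun_rep (A := A) hy
    rw [kumCl, Om.mk_eq_zero_iff] at h
    obtain ⟨a, ψ, hψ⟩ := h
    have hk := kumFun_ne_zero (A := A) m (Pic0.mk E)
    have ha : algebraMap k Fk a ≠ 0 := by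
      intro h0
      rw [hψ, h0, zero_mul] at hk
      exact hk rfl
    have hψm : ψ ^ m ≠ 0 := by
      intro h0
      rw [hψ, h0, mul_zero] at hk
      exact hk rfl
    have hψ0 : ψ ≠ 0 := by
      rintro rfl
      exact hψm (zero_pow hm.ne')
    apply (QuotientAddGroup.eq_zero_iff _).2
    rw [AddSubgroup.mem_addSubgroupOf]
    refine ⟨ψ, hψ0, fun Q => ?_⟩
    have h1 := hord Q
    rw [hψ, Q.ord_mul ha hψm, S18lib.Cech.ord_const, zero_add, S18lib.Cech.ord_pow] at h1
    have hmZ : (m : ℤ) ≠ 0 := by exact_mod_cast hm.ne'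
    exact (mul_left_cancel₀ hmZ h1).symm
  · rintro rfl
    have h := kumCl_of_kummerRel (A := A) hFk (kummerRel_zero_one (K := k) (F := Fk) m)
    rw [h]
    exact Om.mk_one

/-- the Kummer map as a homomorphism on the `m`-torsion -/
def kumHom {gk : ℕ} (hFk : IsCurveOfGenus k Fk gk) (m : ℕ) :
    Pic0.torsion (IsLocalRing.ResidueField A) Fk m →+ Om A Fk m :=
  AddMonoidHom.mk' (fun y : Pic0.torsion (IsLocalRing.ResidueField A) Fk m =>
    (kumCl m (y : Pic0 (IsLocalRing.ResidueField A) Fk) : Om A Fk m)) fun y y' => by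
    rw [AddSubgroup.coe_add]
    exact kumCl_add hFk (Pic0.mem_torsion.1 y.2) (Pic0.mem_torsion.1 y'.2)

theorem kumHom_apply {gk : ℕ} (hFk : IsCurveOfGenus k Fk gk) (m : ℕ)
    (y : Pic0.torsion (IsLocalRing.ResidueField A) Fk m) :
    (kumHom hFk m y : Om A Fk m) = kumCl m (y : Pic0 k Fk) := rfl

/-- **the Kummer map is injective on the `m`-torsion**, homomorphism form -/
theorem kumHom_injective {gk : ℕ} (hFk : IsCurveOfGenus k Fk gk) {m : ℕ} (hm : 0 < m) :
    Function.Injective (kumHom (A := A) hFk m) :=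
  (injective_iff_map_eq_zero _).2 fun y hy => by
    have h : (kumCl m (y : Pic0 k Fk) : Om A Fk m) = 0 := hy
    exact Subtype.ext ((kumCl_eq_zero_iff hFk hm (Pic0.mem_torsion.1 y.2)).1 h)

/-- the orders of a Kummer class vanish modulo `m` -/
theorem ordHom_kumCl {m : ℕ} {y : Pic0 (IsLocalRing.ResidueField A) Fk} (hy : (m : ℤ) • y = 0)
    (Q : Place k Fk) : Om.ordHom Q (kumCl m y : Om A Fk m) = 0 := by
  obtain ⟨E, -, hord⟩ := kumFun_rep (A := A) hy
  rw [kumCl, Om.ordHom_mk, hord]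
  push_cast
  rw [ZMod.natCast_self, zero_mul]

/-- **the class of `Ψ x` on a component is the Kummer class of the reduced class** -/
theorem kumCl_redCl [HasPrincipalDivisors (IsLocalRing.ResidueField A) Fk] {gk : ℕ}
    (hFk : IsCurveOfGenus k Fk gk) (G : GaussDatum A F Fk) {m : ℕ} (hm : 0 < m) {x : Pic0 L F} (hd : KapDvd G m x) :
    kumCl m (redCl G m x) = kapCl G m x := by
  rw [redCl_def hm hd]
  exact kumCl_eq hFk (kapFun_ne_zero G m x) fun Q => (mul_redDiv_apply hd Q).symm

variable [HasPrincipalDivisors (IsLocalRing.ResidueField A) Fk']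
variable (φb ψb : Fk →ₐ[IsLocalRing.ResidueField A] Fk')
variable (hφ : φb.toRingHom.IsIntegral) (hψ : ψb.toRingHom.IsIntegral)
variable (hFI : FundamentalIdentityAlong (IsLocalRing.ResidueField A) φb hφ)
variable (hfin : FiniteAlong (IsLocalRing.ResidueField A) ψb)
variable (hN : NormFormulaAlong (IsLocalRing.ResidueField A) ψb hfin)

/-- **the Kummer map is equivariant for correspondences** -/
theorem kumCl_correspondence {gk : ℕ} (hFk : IsCurveOfGenus k Fk gk) {m : ℕ}
    {y : Pic0 (IsLocalRing.ResidueField A) Fk} (hy : (m : ℤ) • y = 0) :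
    kumCl m (Pic0.correspondence φb ψb hφ hψ hFI hfin hN y) =
      Om.normAlong ψb m hfin (Om.map φb (kumCl m y)) := by
  obtain ⟨f, hf⟩ := S29lib.D.exists_kummerRel hy
  rw [kumCl_of_kummerRel hFk (hf.correspondence φb ψb hφ hψ hFI hfin hN),
    kumCl_of_kummerRel hFk hf, Om.map_mk, Om.normAlong_mk]

end Fermat.Agent.S44lib.Kap

end
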