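/-
S44lib / Kap / Main  (helper6)  — Project LSq, block Q2a: THE INTERFACE.

For a nodal reduction datum `D : N.NRedDatum A F F₁ F₂` with `C : LSb.NodalCtx D.nod g g₁ g₂`:

* `cMap₁ D C m`, `cMap₂ D C m : J[m] →+ (Fin s → ZMod m)`     (`Kap/CMap.lean`)
* `Jf D C m : AddSubgroup J[m]`  := `ker cMap₁ ⊓ ker cMap₂`     ("the finite part")
* `red₁ D C hm`, `red₂ D C hm : Jf D C m →+ Pic⁰(Fᵢ)[m]`, `red₁_eq`, `red₂_eq`
* **`mem_NKred_iff`** : for `x ∈ J[p ^ n]` (`p` the residue characteristic, `k` perfect):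
    `x ∈ N.NKred D ↔ ∃ hx : x ∈ Jf, red₁ ⟨x, hx⟩ = 0 ∧ red₂ ⟨x, hx⟩ = 0`
* inertia: `smul_mem_Jf`, `red₁_smul`, `red₂_smul`.
-/
import Fermat.Agent.S44lib.Kap.CMap
import Fermat.Agent.S44lib.Kap.Red

set_option autoImplicit false
set_option linter.unusedSectionVars false

noncomputable section

namespace Fermat.Agent.S44lib.Kap

open AlgebraicCurve Fermat.Agent.LSb Fermat.Agent.S18lib Fermat.Agent.S33lib
open Fermat.Agent.S33lib.N

variable {L : Type*} [Field L] {A : ValuationSubring L}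
variable {F : Type*} [Field F] [Algebra L F] [HasPrincipalDivisors L F]
variable {F₁ F₂ : Type*} [Field F₁] [Field F₂]
variable [Algebra (IsLocalRing.ResidueField A) F₁] [Algebra (IsLocalRing.ResidueField A) F₂]
variable [HasPrincipalDivisors (IsLocalRing.ResidueField A) F₁]
  [HasPrincipalDivisors (IsLocalRing.ResidueField A) F₂]

local notation "k" => IsLocalRing.ResidueField A

variable (D : NRedDatum A F F₁ F₂) {g g₁ g₂ : ℕ} (C : NodalCtx D.nod g g₁ g₂)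

/-- on the first component: all orders divisible by `m` iff the node orders are -/
theorem kapDvd₁_iff (m : ℕ) (x : Pic0.torsion L F m) :
    KapDvd D.nod.V₁ m (x : Pic0 L F) ↔ cMap₁ D C m x = 0 := by
  constructor
  · intro h
    funext c
    rw [cMap₁_apply]
    exact h _
  · intro h Q
    by_cases hQ : ∃ c, Q = D.nod.x₁ c
    · obtain ⟨c, rfl⟩ := hQ
      have := congrFun h c
      rwa [cMap₁_apply] at this
    · push Not at hQ
      exact kapOrd_eq_zero_of_good C.hF D.D₁ (Pic0.mem_torsion.1 x.2) (good₁_of_ne D hQ)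

/-- on the second component -/
theorem kapDvd₂_iff (m : ℕ) (x : Pic0.torsion L F m) :
    KapDvd D.nod.V₂ m (x : Pic0 L F) ↔ cMap₂ D C m x = 0 := by
  constructor
  · intro h
    funext c
    rw [cMap₂_apply]
    exact h _
  · intro h Q
    by_cases hQ : ∃ c, Q = D.nod.x₂ c
    · obtain ⟨c, rfl⟩ := hQ
      have := congrFun h c
      rwa [cMap₂_apply] at this
    · push Not at hQ
      exact kapOrd_eq_zero_of_good C.hF D.D₂ (Pic0.mem_torsion.1 x.2) (good₂_of_ne D hQ)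

/-- **the finite part of `J[m]`**: the classes whose reduction Kummer functions have node orders
divisible by `m` on both components -/
def Jf (m : ℕ) : AddSubgroup (Pic0.torsion L F m) := (cMap₁ D C m).ker ⊓ (cMap₂ D C m).ker

theorem mem_Jf {m : ℕ} {x : Pic0.torsion L F m} :
    x ∈ Jf D C m ↔ cMap₁ D C m x = 0 ∧ cMap₂ D C m x = 0 := by
  rw [Jf, AddSubgroup.mem_inf, AddMonoidHom.mem_ker, AddMonoidHom.mem_ker]

theorem kapDvd₁_of_mem_Jf {m : ℕ} {x : Pic0.torsion L F m} (hx : x ∈ Jf D C m) :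
    KapDvd D.nod.V₁ m (x : Pic0 L F) := (kapDvd₁_iff D C m x).2 ((mem_Jf D C).1 hx).1

theorem kapDvd₂_of_mem_Jf {m : ℕ} {x : Pic0.torsion L F m} (hx : x ∈ Jf D C m) :
    KapDvd D.nod.V₂ m (x : Pic0 L F) := (kapDvd₂_iff D C m x).2 ((mem_Jf D C).1 hx).2

/-- **the reduction to the first component**, `Jf → Pic⁰(F₁)[m]` -/
def red₁ {m : ℕ} (hm : 0 < m) : Jf D C m →+ Pic0.torsion k F₁ m :=
  AddMonoidHom.mk' (fun x => ⟨redCl D.nod.V₁ m ((x : Pic0.torsion L F m) : Pic0 L F),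
    Pic0.mem_torsion.2 (smul_redCl hm (kapDvd₁_of_mem_Jf D C x.2))⟩) fun x y => by
    apply Subtype.ext
    show redCl D.nod.V₁ m (((x + y : Jf D C m) : Pic0.torsion L F m) : Pic0 L F) = _
    rw [AddSubgroup.coe_add, AddSubgroup.coe_add]
    exact redCl_add C.hF D.nod.V₁ hm (Pic0.mem_torsion.1 x.1.2) (Pic0.mem_torsion.1 y.1.2)
      (kapDvd₁_of_mem_Jf D C x.2) (kapDvd₁_of_mem_Jf D C y.2)

/-- **the reduction to the second component**, `Jf → Pic⁰(F₂)[m]` -/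
def red₂ {m : ℕ} (hm : 0 < m) : Jf D C m →+ Pic0.torsion k F₂ m :=
  AddMonoidHom.mk' (fun x => ⟨redCl D.nod.V₂ m ((x : Pic0.torsion L F m) : Pic0 L F),
    Pic0.mem_torsion.2 (smul_redCl hm (kapDvd₂_of_mem_Jf D C x.2))⟩) fun x y => by
    apply Subtype.ext
    show redCl D.nod.V₂ m (((x + y : Jf D C m) : Pic0.torsion L F m) : Pic0 L F) = _
    rw [AddSubgroup.coe_add, AddSubgroup.coe_add]
    exact redCl_add C.hF D.nod.V₂ hm (Pic0.mem_torsion.1 x.1.2) (Pic0.mem_torsion.1 y.1.2)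
      (kapDvd₂_of_mem_Jf D C x.2) (kapDvd₂_of_mem_Jf D C y.2)

theorem coe_red₁ {m : ℕ} (hm : 0 < m) (x : Jf D C m) :
    ((red₁ D C hm x : Pic0.torsion k F₁ m) : Pic0 k F₁) =
      redCl D.nod.V₁ m ((x : Pic0.torsion L F m) : Pic0 L F) := rfl

theorem coe_red₂ {m : ℕ} (hm : 0 < m) (x : Jf D C m) :
    ((red₂ D C hm x : Pic0.torsion k F₂ m) : Pic0 k F₂) =
      redCl D.nod.V₂ m ((x : Pic0.torsion L F m) : Pic0 L F) := rfl

/-- **characterisation of `red₁`**: if `x = [D₀]`, `m • D₀ = div z`, `z` a `V₁`-unit and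
`div z̄ = m • E` on `F₁`, then `red₁ x = [E]` -/
theorem red₁_eq {m : ℕ} (hm : 0 < m) (x : Jf D C m) {D₀ : Divisor.degZero (K := L) (F := F)}
    {z : F} (hx : Pic0.mk D₀ = ((x : Pic0.torsion L F m) : Pic0 L F)) (hz0 : z ≠ 0)
    (hz : ∀ P : Place L F, P.ord z = (m : ℤ) * (D₀ : Divisor L F) P)
    (hne : D.nod.V₁.redF z ≠ 0) {E : Divisor k F₁}
    (hE : ∀ Q : Place k F₁, Q.ord (D.nod.V₁.redF z) = (m : ℤ) * E Q) :
    ((red₁ D C hm x : Pic0.torsion k F₁ m) : Pic0 k F₁) =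
      Pic0.mk ⟨E, degree_eq_zero_of_ord hm hE⟩ := by
  rw [coe_red₁, ← hx]
  exact redCl_eq C.hF D.nod.V₁ hm hz0 hz hne hE

/-- **characterisation of `red₂`** -/
theorem red₂_eq {m : ℕ} (hm : 0 < m) (x : Jf D C m) {D₀ : Divisor.degZero (K := L) (F := F)}
    {z : F} (hx : Pic0.mk D₀ = ((x : Pic0.torsion L F m) : Pic0 L F)) (hz0 : z ≠ 0)
    (hz : ∀ P : Place L F, P.ord z = (m : ℤ) * (D₀ : Divisor L F) P)
    (hne : D.nod.V₂.redF z ≠ 0) {E : Divisor k F₂}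
    (hE : ∀ Q : Place k F₂, Q.ord (D.nod.V₂.redF z) = (m : ℤ) * E Q) :
    ((red₂ D C hm x : Pic0.torsion k F₂ m) : Pic0 k F₂) =
      Pic0.mk ⟨E, degree_eq_zero_of_ord hm hE⟩ := by
  rw [coe_red₂, ← hx]
  exact redCl_eq C.hF D.nod.V₂ hm hz0 hz hne hE

/-- **THE KERNEL OF REDUCTION ON `p ^ n`-TORSION**: `x ∈ N.NKred D` iff `x` lies in the finite part
and both its reductions vanish. -/
theorem mem_NKred_iff (ctr : Fin g → Place L F) (Qc : Fin g → Pt A F₁ F₂)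
    (hr : ∀ i, D.r (ctr i) = some (Qc i)) (hQ : Function.Injective Qc)
    (hell : D.ell (D.push₁ (Core.sumPts ctr)) (D.push₂ (Core.sumPts ctr)) = 1)
    (p : ℕ) [ExpChar k p] (hroot : ∀ a : k, ∃ b : k, b ^ p = a) (n : ℕ)
    (x : Pic0.torsion L F (p ^ n)) :
    (x : Pic0 L F) ∈ NKred D ↔
      ∃ hx : x ∈ Jf D C (p ^ n),
        red₁ D C (pow_pos (expChar_pos k p) n) ⟨x, hx⟩ = 0 ∧
        red₂ D C (pow_pos (expChar_pos k p) n) ⟨x, hx⟩ = 0 := by
  have hm : 0 < p ^ n := pow_pos (expChar_pos k p) n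
  have hxt := Pic0.mem_torsion.1 x.2
  rw [mem_NKred_iff_kTrivCl D C ctr Qc hr hQ hell p hroot n hxt]
  obtain ⟨D₀, z, hxD, hz0, hz⟩ := exists_rep_of_smul_eq_zero hxt
  rw [← hxD, kTrivCl_iff C.hF hz0 hz]
  constructor
  · rintro ⟨h₁, h₂⟩
    have hd₁ : KapDvd D.nod.V₁ (p ^ n) (x : Pic0 L F) := by
      rw [← hxD]; exact kapDvd_of_kTriv C.hF D.nod.V₁ hz0 hz h₁
    have hd₂ : KapDvd D.nod.V₂ (p ^ n) (x : Pic0 L F) := by
      rw [← hxD]; exact kapDvd_of_kTriv C.hF D.nod.V₂ hz0 hz h₂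
    have hx : x ∈ Jf D C (p ^ n) :=
      (mem_Jf D C).2 ⟨(kapDvd₁_iff D C _ x).1 hd₁, (kapDvd₂_iff D C _ x).1 hd₂⟩
    refine ⟨hx, Subtype.ext ?_, Subtype.ext ?_⟩
    · rw [coe_red₁]
      show redCl D.nod.V₁ (p ^ n) (x : Pic0 L F) = 0
      rw [← hxD]
      exact (redCl_eq_zero_iff C.hF C.hF₁ D.nod.V₁ hm hz0 hz (by rw [hxD]; exact hd₁)).2 h₁
    · rw [coe_red₂]
      show redCl D.nod.V₂ (p ^ n) (x : Pic0 L F) = 0
      rw [← hxD]
      exact (redCl_eq_zero_iff C.hF C.hF₂ D.nod.V₂ hm hz0 hz (by rw [hxD]; exact hd₂)).2 h₂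
  · rintro ⟨hx, h₁, h₂⟩
    have hd₁ := kapDvd₁_of_mem_Jf D C hx
    have hd₂ := kapDvd₂_of_mem_Jf D C hx
    have e₁ : redCl D.nod.V₁ (p ^ n) (x : Pic0 L F) = 0 := congrArg Subtype.val h₁
    have e₂ : redCl D.nod.V₂ (p ^ n) (x : Pic0 L F) = 0 := congrArg Subtype.val h₂
    rw [← hxD] at hd₁ hd₂ e₁ e₂
    exact ⟨(redCl_eq_zero_iff C.hF C.hF₁ D.nod.V₁ hm hz0 hz hd₁).1 e₁,
      (redCl_eq_zero_iff C.hF C.hF₂ D.nod.V₂ hm hz0 hz hd₂).1 e₂⟩

/-! ### inertia -/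

/-- the finite part is stable under inertial automorphisms -/
theorem smul_mem_Jf {σ : SemilinearAut L F} (hσ : D.nod.IsInertial σ) {m : ℕ}
    {x : Pic0.torsion L F m} (hx : x ∈ Jf D C m) : σ • x ∈ Jf D C m := by
  rw [mem_Jf] at hx ⊢
  rw [cMap₁_smul D C hσ, cMap₂_smul D C hσ]
  exact hx

/-- inertia invariance of `redCl`, first component -/
theorem redCl₁_smul {σ : SemilinearAut L F} (hσ : D.nod.IsInertial σ) {m : ℕ} (hm : 0 < m)
    {x : Pic0.torsion L F m} (hx : x ∈ Jf D C m) :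
    redCl D.nod.V₁ m (((σ • x : Pic0.torsion L F m)) : Pic0 L F) =
      redCl D.nod.V₁ m (x : Pic0 L F) := by
  have hd := kapDvd₁_of_mem_Jf D C hx
  obtain ⟨D₀, z, hxD, hz0, hz, hred⟩ := kapFun_rep D.nod.V₁ (Pic0.mem_torsion.1 x.2)
  have hne : D.nod.V₁.redF z ≠ 0 := by rw [hred]; exact kapFun_ne_zero _ _ _
  have hσz0 : σ • z ≠ 0 := by
    rw [SemilinearAut.smul_def]
    exact (map_ne_zero _).2 hz0
  have hσz : ∀ P : Place L F, P.ord (σ • z) =
      (m : ℤ) * ((SemilinearAut.degZeroSMulHom σ D₀ : Divisor.degZero (K := L) (F := F)) :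
        Divisor L F) P := by
    intro P
    rw [NodalDatum.IsInertial.ord_smul_eq, hz, SemilinearAut.coe_degZeroSMulHom,
      SemilinearAut.divisor_smul_apply]
  have hred' : D.nod.V₁.redF (σ • z) = D.nod.V₁.redF z :=
    hσ.red₁ z (D.nod.V₁.mem_of_redF_ne_zero hne)
  have hE : ∀ Q : Place k F₁, Q.ord (D.nod.V₁.redF z) =
      (m : ℤ) * redDiv D.nod.V₁ m (x : Pic0 L F) Q := by
    intro Q
    rw [hred, mul_redDiv_apply hd]
  have hE' : ∀ Q : Place k F₁, Q.ord (D.nod.V₁.redF (σ • z)) =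
      (m : ℤ) * redDiv D.nod.V₁ m (x : Pic0 L F) Q := by
    rw [hred']; exact hE
  rw [SemilinearAut.coe_torsion_smul, ← hxD, SemilinearAut.pic0_smul_mk,
    redCl_eq C.hF D.nod.V₁ hm hσz0 hσz (by rw [hred']; exact hne) hE',
    redCl_eq C.hF D.nod.V₁ hm hz0 hz hne hE]

/-- inertia invariance of `redCl`, second component -/
theorem redCl₂_smul {σ : SemilinearAut L F} (hσ : D.nod.IsInertial σ) {m : ℕ} (hm : 0 < m)
    {x : Pic0.torsion L F m} (hx : x ∈ Jf D C m) :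
    redCl D.nod.V₂ m (((σ • x : Pic0.torsion L F m)) : Pic0 L F) =
      redCl D.nod.V₂ m (x : Pic0 L F) := by
  have hd := kapDvd₂_of_mem_Jf D C hx
  obtain ⟨D₀, z, hxD, hz0, hz, hred⟩ := kapFun_rep D.nod.V₂ (Pic0.mem_torsion.1 x.2)
  have hne : D.nod.V₂.redF z ≠ 0 := by rw [hred]; exact kapFun_ne_zero _ _ _
  have hσz0 : σ • z ≠ 0 := by
    rw [SemilinearAut.smul_def]
    exact (map_ne_zero _).2 hz0
  have hσz : ∀ P : Place L F, P.ord (σ • z) =
      (m : ℤ) * ((SemilinearAut.degZeroSMulHom σ D₀ : Divisor.degZero (K := L) (F := F)) :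
        Divisor L F) P := by
    intro P
    rw [NodalDatum.IsInertial.ord_smul_eq, hz, SemilinearAut.coe_degZeroSMulHom,
      SemilinearAut.divisor_smul_apply]
  have hred' : D.nod.V₂.redF (σ • z) = D.nod.V₂.redF z :=
    hσ.red₂ z (D.nod.V₂.mem_of_redF_ne_zero hne)
  have hE : ∀ Q : Place k F₂, Q.ord (D.nod.V₂.redF z) =
      (m : ℤ) * redDiv D.nod.V₂ m (x : Pic0 L F) Q := by
    intro Q
    rw [hred, mul_redDiv_apply hd]
  have hE' : ∀ Q : Place k F₂, Q.ord (D.nod.V₂.redF (σ • z)) =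
      (m : ℤ) * redDiv D.nod.V₂ m (x : Pic0 L F) Q := by
    rw [hred']; exact hE
  rw [SemilinearAut.coe_torsion_smul, ← hxD, SemilinearAut.pic0_smul_mk,
    redCl_eq C.hF D.nod.V₂ hm hσz0 hσz (by rw [hred']; exact hne) hE',
    redCl_eq C.hF D.nod.V₂ hm hz0 hz hne hE]

/-- **inertia invariance of `red₁`** -/
theorem red₁_smul {σ : SemilinearAut L F} (hσ : D.nod.IsInertial σ) {m : ℕ} (hm : 0 < m)
    (x : Jf D C m) :
    red₁ D C hm ⟨σ • (x : Pic0.torsion L F m), smul_mem_Jf D C hσ x.2⟩ = red₁ D C hm x :=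
  Subtype.ext (redCl₁_smul D C hσ hm x.2)

/-- **inertia invariance of `red₂`** -/
theorem red₂_smul {σ : SemilinearAut L F} (hσ : D.nod.IsInertial σ) {m : ℕ} (hm : 0 < m)
    (x : Jf D C m) :
    red₂ D C hm ⟨σ • (x : Pic0.torsion L F m), smul_mem_Jf D C hσ x.2⟩ = red₂ D C hm x :=
  Subtype.ext (redCl₂_smul D C hσ hm x.2)

end Fermat.Agent.S44lib.Kap

end
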