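/-
S44lib / Kap / Psi  (helper6)  — Project LSq, block Q2a: the map `Ψ` of the geometric package.

For a nodal datum `D` with reductions `V₁`, `V₂` (residue function fields `F₁`, `F₂`):

* `psi D m : Pic⁰(F) → Om A F₁ m × Om A F₂ m`, `x ↦ (kapCl V₁ m x, kapCl V₂ m x)`;
* `psi_add` (additive on `J[m]`), `psi_smul` (invariant under inertial automorphisms on `J[m]`);
* `psi_eq_zero_iff : psi D m x = 0 ↔ KTrivCl D m x`, and for a nodal REDUCTION datum, `m = p ^ n`:
  **`psi_eq_zero_iff_mem_NKred : psi D.nod (p ^ n) x = 0 ↔ x ∈ NKred D`** on `J[p ^ n]`;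
* `resMap D m : Om A F₁ m × Om A F₂ m →+ (Fin s → ZMod m) × (Fin s → ZMod m)` (orders at the nodes on
  BOTH components), `resMap_psi` (`= (cMap₁, cMap₂)`), `ordHom_psi_eq_zero_of_ne₁/₂` (orders `≡ 0`
  off the nodes), `m_smul_res`.
-/
import Fermat.Agent.S44lib.Kap.Main
import Fermat.Agent.S44lib.Kap.Om

set_option autoImplicit false
set_option linter.unusedSectionVars false

noncomputable section

namespace Fermat.Agent.S44lib.Kap

open AlgebraicCurve Fermat.Agent.LSb Fermat.Agent.S18lib Fermat.Agent.S33lib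
open Fermat.Agent.S33lib.N

variable {L : Type*} [Field L] {A : ValuationSubring L}
variable {F : Type*} [Field F] [Algebra L F]
variable {F₁ F₂ : Type*} [Field F₁] [Field F₂]
variable [Algebra (IsLocalRing.ResidueField A) F₁] [Algebra (IsLocalRing.ResidueField A) F₂]

local notation "k" => IsLocalRing.ResidueField A

/-! ### inertia invariance of the class map -/

/-- the reduction Kummer class on the first component is invariant under inertial automorphisms -/
theorem kapCl₁_smul {D : NodalDatum A F F₁ F₂} {g : ℕ} (hF : IsCurveOfGenus L F g)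
    {σ : SemilinearAut L F} (hσ : D.IsInertial σ) {m : ℕ} {x : Pic0 L F} (hx : (m : ℤ) • x = 0) :
    kapCl D.V₁ m (σ • x) = kapCl D.V₁ m x := by
  obtain ⟨D₀, z, hxD, hz0, hz, hred⟩ := kapFun_rep D.V₁ hx
  have hne : D.V₁.redF z ≠ 0 := by rw [hred]; exact kapFun_ne_zero _ _ _
  have hσz0 : σ • z ≠ 0 := by
    rw [SemilinearAut.smul_def]
    exact (map_ne_zero _).2 hz0
  have hσz : ∀ P : Place L F, P.ord (σ • z) =
      (m : ℤ) * ((SemilinearAut.degZeroSMulHom σ D₀ : Divisor.degZero (K := L) (F := F)) :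
        Divisor L F) P := by
    intro P
    rw [NodalDatum.IsInertial.ord_smul_eq, hz, SemilinearAut.coe_degZeroSMulHom,
      SemilinearAut.divisor_smul_apply]
  have hred' : D.V₁.redF (σ • z) = D.V₁.redF z := hσ.red₁ z (D.V₁.mem_of_redF_ne_zero hne)
  have hne' : D.V₁.redF (σ • z) ≠ 0 := by rw [hred']; exact hne
  rw [← hxD, SemilinearAut.pic0_smul_mk, kapCl_eq hF D.V₁ hσz0 hσz hne',
    kapCl_eq hF D.V₁ hz0 hz hne]
  exact Om.mk_congr hne' hred'

/-- the reduction Kummer class on the second component is invariant under inertial automorphisms -/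
theorem kapCl₂_smul {D : NodalDatum A F F₁ F₂} {g : ℕ} (hF : IsCurveOfGenus L F g)
    {σ : SemilinearAut L F} (hσ : D.IsInertial σ) {m : ℕ} {x : Pic0 L F} (hx : (m : ℤ) • x = 0) :
    kapCl D.V₂ m (σ • x) = kapCl D.V₂ m x := by
  obtain ⟨D₀, z, hxD, hz0, hz, hred⟩ := kapFun_rep D.V₂ hx
  have hne : D.V₂.redF z ≠ 0 := by rw [hred]; exact kapFun_ne_zero _ _ _
  have hσz0 : σ • z ≠ 0 := by
    rw [SemilinearAut.smul_def]
    exact (map_ne_zero _).2 hz0
  have hσz : ∀ P : Place L F, P.ord (σ • z) =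
      (m : ℤ) * ((SemilinearAut.degZeroSMulHom σ D₀ : Divisor.degZero (K := L) (F := F)) :
        Divisor L F) P := by
    intro P
    rw [NodalDatum.IsInertial.ord_smul_eq, hz, SemilinearAut.coe_degZeroSMulHom,
      SemilinearAut.divisor_smul_apply]
  have hred' : D.V₂.redF (σ • z) = D.V₂.redF z := hσ.red₂ z (D.V₂.mem_of_redF_ne_zero hne)
  have hne' : D.V₂.redF (σ • z) ≠ 0 := by rw [hred']; exact hne
  rw [← hxD, SemilinearAut.pic0_smul_mk, kapCl_eq hF D.V₂ hσz0 hσz hne',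
    kapCl_eq hF D.V₂ hz0 hz hne]
  exact Om.mk_congr hne' hred'

/-! ### the map `Ψ` -/

/-- **the map `Ψ`**: the pair of reduction Kummer classes on the two components -/
def psi (D : NodalDatum A F F₁ F₂) (m : ℕ) (x : Pic0 L F) : Om A F₁ m × Om A F₂ m :=
  (kapCl D.V₁ m x, kapCl D.V₂ m x)

theorem psi_fst (D : NodalDatum A F F₁ F₂) (m : ℕ) (x : Pic0 L F) :
    (psi D m x).1 = kapCl D.V₁ m x := rfl

theorem psi_snd (D : NodalDatum A F F₁ F₂) (m : ℕ) (x : Pic0 L F) :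
    (psi D m x).2 = kapCl D.V₂ m x := rfl

/-- `Ψ` is additive on the `m`-torsion -/
theorem psi_add {D : NodalDatum A F F₁ F₂} {g : ℕ} (hF : IsCurveOfGenus L F g) {m : ℕ}
    {x y : Pic0 L F} (hx : (m : ℤ) • x = 0) (hy : (m : ℤ) • y = 0) :
    psi D m (x + y) = psi D m x + psi D m y := by
  rw [psi, kapCl_add hF D.V₁ hx hy, kapCl_add hF D.V₂ hx hy]
  rfl

/-- `Ψ` is invariant under inertial automorphisms on the `m`-torsion -/
theorem psi_smul {D : NodalDatum A F F₁ F₂} {g : ℕ} (hF : IsCurveOfGenus L F g)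
    {σ : SemilinearAut L F} (hσ : D.IsInertial σ) {m : ℕ} {x : Pic0 L F} (hx : (m : ℤ) • x = 0) :
    psi D m (σ • x) = psi D m x := by
  rw [psi, kapCl₁_smul hF hσ hx, kapCl₂_smul hF hσ hx]
  rfl

/-- the kernel of `Ψ` on the `m`-torsion: trivial reduction Kummer classes -/
theorem psi_eq_zero_iff {D : NodalDatum A F F₁ F₂} {g : ℕ} (hF : IsCurveOfGenus L F g) {m : ℕ}
    {x : Pic0 L F} (hx : (m : ℤ) • x = 0) : psi D m x = 0 ↔ KTrivCl D m x := by
  obtain ⟨D₀, z, rfl, hz0, hz⟩ := exists_rep_of_smul_eq_zero hx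
  rw [kTrivCl_iff hF hz0 hz, ← kapCl_eq_zero_iff hF D.V₁ hz0 hz, ← kapCl_eq_zero_iff hF D.V₂ hz0 hz,
    psi, Prod.mk_eq_zero]

/-! ### the residue map -/

/-- **the residue map**: the orders at the nodes, on both components -/
def resMap (D : NodalDatum A F F₁ F₂) (m : ℕ) :
    Om A F₁ m × Om A F₂ m →+ (Fin D.s → ZMod m) × (Fin D.s → ZMod m) :=
  AddMonoidHom.prodMap (AddMonoidHom.pi fun c => Om.ordHom (D.x₁ c))
    (AddMonoidHom.pi fun c => Om.ordHom (D.x₂ c))

theorem resMap_fst (D : NodalDatum A F F₁ F₂) (m : ℕ) (ω : Om A F₁ m × Om A F₂ m) (c : Fin D.s) :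
    (resMap D m ω).1 c = Om.ordHom (D.x₁ c) ω.1 := rfl

theorem resMap_snd (D : NodalDatum A F F₁ F₂) (m : ℕ) (ω : Om A F₁ m × Om A F₂ m) (c : Fin D.s) :
    (resMap D m ω).2 c = Om.ordHom (D.x₂ c) ω.2 := rfl

/-- the target of the residue map is killed by `m` -/
theorem m_smul_res {s : ℕ} (m : ℕ) (r : (Fin s → ZMod m) × (Fin s → ZMod m)) :
    (m : ℤ) • r = 0 := by
  have h : ∀ a : ZMod m, (m : ℤ) • a = 0 := fun a => by
    rw [zsmul_eq_mul, Int.cast_natCast, ZMod.natCast_self, zero_mul]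
  ext c
  · show (m : ℤ) • r.1 c = 0
    exact h _
  · show (m : ℤ) • r.2 c = 0
    exact h _

section Global

variable [HasPrincipalDivisors L F]
variable [HasPrincipalDivisors (IsLocalRing.ResidueField A) F₁]
  [HasPrincipalDivisors (IsLocalRing.ResidueField A) F₂]

variable (D : NRedDatum A F F₁ F₂) {g g₁ g₂ : ℕ} (C : NodalCtx D.nod g g₁ g₂)

/-- the residues of `Ψ x` are the component maps -/
theorem resMap_psi (m : ℕ) (x : Pic0.torsion L F m) :
    resMap D.nod m (psi D.nod m (x : Pic0 L F)) = (cMap₁ D C m x, cMap₂ D C m x) := rfl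

/-- `res (Ψ x) = 0` iff `x` lies in the finite part -/
theorem resMap_psi_eq_zero_iff (m : ℕ) (x : Pic0.torsion L F m) :
    resMap D.nod m (psi D.nod m (x : Pic0 L F)) = 0 ↔ x ∈ Jf D C m := by
  rw [resMap_psi D C, Prod.mk_eq_zero, mem_Jf]

include C in
/-- off the nodes the orders of `Ψ x` vanish modulo `m`: first component -/
theorem ordHom_psi_eq_zero_of_ne₁ {m : ℕ} {x : Pic0 L F} (hx : (m : ℤ) • x = 0)
    {Q : Place k F₁} (hQ : ∀ c, Q ≠ D.nod.x₁ c) :
    Om.ordHom Q (psi D.nod m x).1 = 0 := by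
  rw [psi_fst, ordHom_kapCl]
  exact kapOrd_eq_zero_of_good C.hF D.D₁ hx (good₁_of_ne D hQ)

include C in
/-- off the nodes the orders of `Ψ x` vanish modulo `m`: second component -/
theorem ordHom_psi_eq_zero_of_ne₂ {m : ℕ} {x : Pic0 L F} (hx : (m : ℤ) • x = 0)
    {Q : Place k F₂} (hQ : ∀ c, Q ≠ D.nod.x₂ c) :
    Om.ordHom Q (psi D.nod m x).2 = 0 := by
  rw [psi_snd, ordHom_kapCl]
  exact kapOrd_eq_zero_of_good C.hF D.D₂ hx (good₂_of_ne D hQ)

include C in
/-- **THE KERNEL OF `Ψ` ON `J[p ^ n]` IS THE KERNEL OF REDUCTION** -/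
theorem psi_eq_zero_iff_mem_NKred (ctr : Fin g → Place L F) (Qc : Fin g → Pt A F₁ F₂)
    (hr : ∀ i, D.r (ctr i) = some (Qc i)) (hQ : Function.Injective Qc)
    (hell : D.ell (D.push₁ (Core.sumPts ctr)) (D.push₂ (Core.sumPts ctr)) = 1)
    (p : ℕ) [ExpChar k p] (hroot : ∀ a : k, ∃ b : k, b ^ p = a) (n : ℕ) {x : Pic0 L F}
    (hx : ((p ^ n : ℕ) : ℤ) • x = 0) :
    psi D.nod (p ^ n) x = 0 ↔ x ∈ NKred D := by
  rw [psi_eq_zero_iff C.hF hx, mem_NKred_iff_kTrivCl D C ctr Qc hr hQ hell p hroot n hx]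

end Global

end Fermat.Agent.S44lib.Kap

end
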