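/-
S44lib / Kap / PsiRed  (helper6)  — Project LSq, blocks Q2a / Q5.

**On the finite part, `Ψ` is the pair of Kummer classes of the two reductions**:
for `x ∈ Jf D C m` (`res (Ψ x) = 0`),

    `psi D.nod m x = (kumCl m (red₁ x), kumCl m (red₂ x))`,

hence `psi D.nod m x = 0 ↔ red₁ x = 0 ∧ red₂ x = 0`, and for every pair of additive maps
`t₁ t₂` on `Pic⁰(Fᵢ)` intertwined with `T₁ T₂` on `Om A Fᵢ m` by the Kummer maps, an eigen-equation
for `(T₁, T₂)` on `Ψ x` is an eigen-equation for `(t₁, t₂)` on `(red₁ x, red₂ x)`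
(`eigen_red_of_eigen_psi`).
-/
import Fermat.Agent.S44lib.Kap.Psi
import Fermat.Agent.S44lib.Kap.Delta

set_option autoImplicit false
set_option linter.unusedSectionVars false

noncomputable section

namespace Fermat.Agent.S44lib.Kap

open AlgebraicCurve Fermat.Agent.LSb Fermat.Agent.S18lib Fermat.Agent.S33lib
open Fermat.Agent.S33lib.N

variable {L : Type*} [Field L] {A : ValuationSubring L}
variable {F : Type*} [Field F] [Algebra L F] [HasPrincipalDivisors L F]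
variable {F₁ F₂ : Type*} [Field F₁] [Field F₂]
variable [Algebra (IsLocalRing.ResidueField A) F₁] [Algebra (IsLocalRing.ResidueField A) F₂]
variable [HasPrincipalDivisors (IsLocalRing.ResidueField A) F₁]
  [HasPrincipalDivisors (IsLocalRing.ResidueField A) F₂]

local notation "k" => IsLocalRing.ResidueField A

variable (D : NRedDatum A F F₁ F₂) {g g₁ g₂ : ℕ} (C : NodalCtx D.nod g g₁ g₂)

/-- **on the finite part, `Ψ` is the pair of Kummer classes of the reductions** -/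
theorem psi_eq_kumCl {m : ℕ} (hm : 0 < m) (x : Jf D C m) :
    psi D.nod m ((x : Pic0.torsion L F m) : Pic0 L F) =
      (kumCl m ((red₁ D C hm x : Pic0.torsion k F₁ m) : Pic0 k F₁),
        kumCl m ((red₂ D C hm x : Pic0.torsion k F₂ m) : Pic0 k F₂)) := by
  rw [coe_red₁, coe_red₂, kumCl_redCl C.hF₁ D.nod.V₁ hm (kapDvd₁_of_mem_Jf D C x.2),
    kumCl_redCl C.hF₂ D.nod.V₂ hm (kapDvd₂_of_mem_Jf D C x.2)]
  rfl

/-- on the finite part, `Ψ x = 0` iff both reductions vanish -/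
theorem psi_eq_zero_iff_red {m : ℕ} (hm : 0 < m) (x : Jf D C m) :
    psi D.nod m ((x : Pic0.torsion L F m) : Pic0 L F) = 0 ↔
      red₁ D C hm x = 0 ∧ red₂ D C hm x = 0 := by
  rw [psi_eq_kumCl D C hm x, Prod.mk_eq_zero,
    kumCl_eq_zero_iff C.hF₁ hm (Pic0.mem_torsion.1 (red₁ D C hm x).2),
    kumCl_eq_zero_iff C.hF₂ hm (Pic0.mem_torsion.1 (red₂ D C hm x).2)]
  constructor
  · rintro ⟨h₁, h₂⟩
    exact ⟨Subtype.ext h₁, Subtype.ext h₂⟩
  · rintro ⟨h₁, h₂⟩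
    exact ⟨congrArg Subtype.val h₁, congrArg Subtype.val h₂⟩

/-- **transfer of eigen-equations from `Ψ x` to the reductions**: if `tᵢ` on `Pic⁰(Fᵢ)` and `Tᵢ` on
`Om A Fᵢ m` are intertwined by the Kummer maps on the `m`-torsion and `tᵢ` preserves the
`m`-torsion, then `(T₁, T₂) (Ψ x) = a • Ψ x` implies `tᵢ (redᵢ x) = a • redᵢ x`. -/
theorem eigen_red_of_eigen_psi {m : ℕ} (hm : 0 < m) (x : Jf D C m)
    (t₁ : Pic0 k F₁ →+ Pic0 k F₁) (t₂ : Pic0 k F₂ →+ Pic0 k F₂)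
    (T₁ : Om A F₁ m →+ Om A F₁ m) (T₂ : Om A F₂ m →+ Om A F₂ m)
    (h₁ : ∀ y : Pic0 k F₁, (m : ℤ) • y = 0 → kumCl m (t₁ y) = T₁ (kumCl m y))
    (h₂ : ∀ y : Pic0 k F₂, (m : ℤ) • y = 0 → kumCl m (t₂ y) = T₂ (kumCl m y))
    (a : ℤ)
    (heig : AddMonoidHom.prodMap T₁ T₂ (psi D.nod m ((x : Pic0.torsion L F m) : Pic0 L F)) =
      a • psi D.nod m ((x : Pic0.torsion L F m) : Pic0 L F)) :
    t₁ ((red₁ D C hm x : Pic0.torsion k F₁ m) : Pic0 k F₁) =
        a • ((red₁ D C hm x : Pic0.torsion k F₁ m) : Pic0 k F₁) ∧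
      t₂ ((red₂ D C hm x : Pic0.torsion k F₂ m) : Pic0 k F₂) =
        a • ((red₂ D C hm x : Pic0.torsion k F₂ m) : Pic0 k F₂) := by
  rw [psi_eq_kumCl D C hm x] at heig
  have e₁ : T₁ (kumCl m ((red₁ D C hm x : Pic0.torsion k F₁ m) : Pic0 k F₁)) =
      a • kumCl m ((red₁ D C hm x : Pic0.torsion k F₁ m) : Pic0 k F₁) := congrArg Prod.fst heig
  have e₂ : T₂ (kumCl m ((red₂ D C hm x : Pic0.torsion k F₂ m) : Pic0 k F₂)) =
      a • kumCl m ((red₂ D C hm x : Pic0.torsion k F₂ m) : Pic0 k F₂) := congrArg Prod.snd heig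
  have ht₁ := Pic0.mem_torsion.1 (red₁ D C hm x).2
  have ht₂ := Pic0.mem_torsion.1 (red₂ D C hm x).2
  have hmt₁ : t₁ ((red₁ D C hm x : Pic0.torsion k F₁ m) : Pic0 k F₁) ∈ Pic0.torsion k F₁ m := by
    rw [Pic0.mem_torsion, ← map_zsmul t₁, ht₁, map_zero]
  have hmt₂ : t₂ ((red₂ D C hm x : Pic0.torsion k F₂ m) : Pic0 k F₂) ∈ Pic0.torsion k F₂ m := by
    rw [Pic0.mem_torsion, ← map_zsmul t₂, ht₂, map_zero]
  have k₁ : (⟨_, hmt₁⟩ : Pic0.torsion k F₁ m) = a • red₁ D C hm x := by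
    apply kumHom_injective (A := A) C.hF₁ hm
    rw [map_zsmul, kumHom_apply, kumHom_apply]
    exact (h₁ _ ht₁).trans e₁
  have k₂ : (⟨_, hmt₂⟩ : Pic0.torsion k F₂ m) = a • red₂ D C hm x := by
    apply kumHom_injective (A := A) C.hF₂ hm
    rw [map_zsmul, kumHom_apply, kumHom_apply]
    exact (h₂ _ ht₂).trans e₂
  exact ⟨congrArg Subtype.val k₁, congrArg Subtype.val k₂⟩

end Fermat.Agent.S44lib.Kap

end
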