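/-
S44lib / Kap / Inst  (helper6)  — Project LSq, block Q2a: THE Q2a FIELDS OF THE GEOMETRIC PACKAGE.

For a concrete nodal package `I : S33lib.N.NModInst N p A` (level `N`, `p ∥ N`, `A` over `p`;
`I.D.nod` the nodal datum, `I.F₁`, `I.F₂` the function fields of the two components):

* `QOm I  = Om A I.F₁ p × Om A I.F₂ p`                       (the target `Ω`)
* `QRes I = (Fin s → ZMod p) × (Fin s → ZMod p)`              (the residues `R`, BOTH components)
* `QPsi I : JZero N → QOm I`   := `psi I.D.nod p`             (`Ψ`)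
* `QresHom I : QOm I →+ QRes I` := `resMap I.D.nod p`          (`res`)
* `QK I : AddSubgroup (JZero N)` := `NKred I.D ⊓ J[p]`         (`K`)

and the fields of `S44lib.PsiPackage` owned by Q2a, in the exact shape of `S44lib/Iface.lean`:
`qPsi_add`, `qPsi_inertia`, `qK_le`, `mem_qK`, `qK_noTriv`, `p_smul_qRes`; further
`qres_qPsi_eq_zero_iff` (`res (Ψ x) = 0 ↔ x ∈ Jf`) and `qPsi_ne_zero_iff` (for `res (Ψ x) = 0`:
`Ψ x ≠ 0 ↔ (red₁ x, red₂ x) ≠ 0` in `Pic⁰(F₁)[p] × Pic⁰(F₂)[p]`).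
-/
import Fermat.Agent.S44lib.Kap.PsiRed
import Fermat.Agent.S33lib.N.Main
import Fermat.Agent.S33lib.Conn.Main

set_option autoImplicit false
set_option linter.unusedSectionVars false
set_option linter.style.haveILetI false

noncomputable section

namespace Fermat.Agent.S44lib.Kap

open AlgebraicCurve ModularCurve Fermat.Agent.LSb Fermat.Agent.S18lib Fermat.Agent.S19lib
open Fermat.Agent.S33lib Fermat.Agent.S33lib.N

local notation "Qb" => AlgebraicClosure ℚ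
local notation "GQ" => (AlgebraicClosure ℚ ≃ₐ[ℚ] AlgebraicClosure ℚ)

variable {N : ℕ} [NeZero N] {p : ℕ} {A : ValuationSubring Qb} (I : NModInst N p A)

/-- the target of `Ψ` -/
abbrev QOm : Type := Om A I.F₁ p × Om A I.F₂ p

/-- the residues at the nodes, on both components -/
abbrev QRes : Type := (Fin I.D.nod.s → ZMod p) × (Fin I.D.nod.s → ZMod p)

/-- **`Ψ`** -/
def QPsi (x : JZero N) : QOm I :=
  letI := I.hpd
  psi I.D.nod p x

/-- **`res`** -/
def QresHom : QOm I →+ QRes I := resMap I.D.nod p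

/-- **`K`**: the `p`-torsion of the kernel of reduction -/
def QK : AddSubgroup (JZero N) :=
  letI := I.hpd
  NKred I.D ⊓ tors N (p : ℤ)

theorem smul_eq_zero_of_mem_tors {x : JZero N} (hx : x ∈ tors N (p : ℤ)) : (p : ℤ) • x = 0 :=
  (Submodule.mem_torsionBy_iff _ _).1 hx

theorem smul_mem_tors (σ : GQ) {x : JZero N} (hx : x ∈ tors N (p : ℤ)) :
    σ • x ∈ tors N (p : ℤ) := by
  have h := smul_eq_zero_of_mem_tors hx
  show σ • x ∈ Submodule.torsionBy ℤ (JZero N) (p : ℤ)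
  rw [Submodule.mem_torsionBy_iff]
  have h1 := map_zsmul (DistribSMul.toAddMonoidHom (JZero N) σ) (p : ℤ) x
  rw [h, map_zero] at h1
  exact h1.symm

/-- `Ψ_add` -/
theorem qPsi_add : ∀ x ∈ tors N (p : ℤ), ∀ y ∈ tors N (p : ℤ),
    QPsi I (x + y) = QPsi I x + QPsi I y := by
  intro x hx y hy
  letI := I.hpd
  exact psi_add I.ctx.hF (smul_eq_zero_of_mem_tors hx) (smul_eq_zero_of_mem_tors hy)

/-- `Ψ_inertia` -/
theorem qPsi_inertia : ∀ σ ∈ IA A, ∀ x ∈ tors N (p : ℤ), QPsi I (σ • x) = QPsi I x := by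
  intro σ hσ x hx
  letI := I.hpd
  exact psi_smul I.ctx.hF (I.inertial σ hσ) (smul_eq_zero_of_mem_tors hx)

/-- `K_le` -/
theorem qK_le : QK I ≤ tors N (p : ℤ) := inf_le_right

/-- `p_smul_R` -/
theorem p_smul_qRes : ∀ r : QRes I, (p : ℤ) • r = 0 := fun r => m_smul_res p r

/-- an element of `J[p]` as an element of `Pic0.torsion` -/
def torsOf {x : JZero N} (hx : x ∈ tors N (p : ℤ)) : Pic0.torsion Qb (FBar N) p :=
  ⟨x, Pic0.mem_torsion.2 (smul_eq_zero_of_mem_tors hx)⟩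

/-- `res (Ψ x) = 0` iff `x` lies in the finite part `Jf` -/
theorem qres_qPsi_eq_zero_iff {x : JZero N} (hx : x ∈ tors N (p : ℤ)) :
    QresHom I (QPsi I x) = 0 ↔
      letI := I.hpd
      torsOf hx ∈ Jf I.D I.ctx p := by
  letI := I.hpd
  exact resMap_psi_eq_zero_iff I.D I.ctx p (torsOf hx)

variable [hp : Fact p.Prime]

/-- `mem_K` -/
theorem mem_qK (hA : A.LiesOverPrime p) : ∀ x ∈ tors N (p : ℤ), x ∈ QK I ↔ QPsi I x = 0 := by
  intro x hx
  letI := I.hpd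
  haveI : CharP (kRes A) p := Fermat.Agent.S18lib.V.charP_residueField A hA
  haveI : ExpChar (kRes A) p := ExpChar.prime hp.out
  haveI : IsAlgClosed (kRes A) := Gink.isAlgClosed_residueField A
  have hroot : ∀ a : kRes A, ∃ b : kRes A, b ^ p = a := fun a =>
    IsAlgClosed.exists_pow_nat_eq a hp.out.pos
  obtain ⟨a, -⟩ := I.famS ∅
  have hx1 : ((p ^ 1 : ℕ) : ℤ) • x = 0 := by
    rw [pow_one]
    exact smul_eq_zero_of_mem_tors hx
  have h := psi_eq_zero_iff_mem_NKred I.D I.ctx (fun i => (a.ch i).P0) a.Qb a.r_P0 a.inj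
    a.ell_push_E p hroot 1 hx1
  rw [pow_one] at h
  show x ∈ NKred I.D ⊓ tors N (p : ℤ) ↔ psi I.D.nod p x = 0
  rw [h, AddSubgroup.mem_inf]
  exact ⟨fun h' => h'.1, fun h' => ⟨h', hx⟩⟩

/-- `K_noTriv` -/
theorem qK_noTriv (hp2 : p ≠ 2) (hA : A.LiesOverPrime p) : NoTrivSubquotIn A (QK I) := by
  obtain ⟨G, hG⟩ := I.exists_iGerm (Fermat.Agent.S19lib.D.compStmt_A0 A hA)
  have hp0 : ((p : ℕ) : ℤ) ≠ 0 := by exact_mod_cast hp.out.ne_zero
  haveI : Finite (QK I) := Germ.finite_of_le_tors hp0 (qK_le I)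
  have hst : ∀ σ ∈ IA A, ∀ x ∈ QK I, σ • x ∈ QK I := by
    intro σ hσ x hx
    have hxT := qK_le I hx
    rw [mem_qK I hA _ (smul_mem_tors σ hxT), qPsi_inertia I σ hσ x hxT]
    exact (mem_qK I hA x hxT).1 hx
  have hKG : QK I ≤ G.K := by
    rw [hG]
    exact inf_le_left
  obtain ⟨O, hO⟩ := Germ.exists_connected_hopfOrder_of_iGerm hA G (QK I) hKG hst
  refine Conn.connStmt p hp.out hp2 A hA (JZero N) (QK I) 1 (fun x hx => ?_) hst O hO
  have h := smul_eq_zero_of_mem_tors (qK_le I hx)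
  rw [pow_one, ← natCast_zsmul]
  exact h

/-! ### the finite part: `res (Ψ x) = 0` -/

/-- **for `res (Ψ x) = 0`, `Ψ x` is the pair of Kummer classes of the reductions of `x`** in
`Pic⁰(F₁)[p] × Pic⁰(F₂)[p]` -/
theorem qPsi_eq_kumCl {x : JZero N} (hx : x ∈ tors N (p : ℤ))
    (hres : QresHom I (QPsi I x) = 0) :
    letI := I.hpd
    QPsi I x =
      (kumCl p ((red₁ I.D I.ctx hp.out.pos ⟨torsOf hx, (qres_qPsi_eq_zero_iff I hx).1 hres⟩ :
          Pic0.torsion (kRes A) I.F₁ p) : Pic0 (kRes A) I.F₁),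
        kumCl p ((red₂ I.D I.ctx hp.out.pos ⟨torsOf hx, (qres_qPsi_eq_zero_iff I hx).1 hres⟩ :
          Pic0.torsion (kRes A) I.F₂ p) : Pic0 (kRes A) I.F₂)) := by
  letI := I.hpd
  exact psi_eq_kumCl I.D I.ctx hp.out.pos ⟨torsOf hx, (qres_qPsi_eq_zero_iff I hx).1 hres⟩

/-- for `res (Ψ x) = 0`: `Ψ x = 0` iff both reductions of `x` vanish -/
theorem qPsi_eq_zero_iff_red {x : JZero N} (hx : x ∈ tors N (p : ℤ))
    (hres : QresHom I (QPsi I x) = 0) :
    letI := I.hpd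
    QPsi I x = 0 ↔
      red₁ I.D I.ctx hp.out.pos ⟨torsOf hx, (qres_qPsi_eq_zero_iff I hx).1 hres⟩ = 0 ∧
      red₂ I.D I.ctx hp.out.pos ⟨torsOf hx, (qres_qPsi_eq_zero_iff I hx).1 hres⟩ = 0 := by
  letI := I.hpd
  exact psi_eq_zero_iff_red I.D I.ctx hp.out.pos ⟨torsOf hx, (qres_qPsi_eq_zero_iff I hx).1 hres⟩

end Fermat.Agent.S44lib.Kap

end
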