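/-
S44lib / Kap / Package  (helper6)  — Project LSq: THE BUILDER OF THE GEOMETRIC PACKAGE.

Over ANY nodal package `I : S33lib.N.NModInst N p A` the geometric package
`S44lib.PsiPackage N p A` of `S44lib/Iface.lean` is assembled from Q2a (`Kap/Inst.lean`, proved:
`Ω = QOm I`, `R = QRes I`, `Ψ = QPsi I`, `res = QresHom I`, `K = QK I`) and three inputs, split by
owner:

* `structure HeckeInputs I` (`TΩ TR Eis Ψ_hecke res_hecke eis`)      — helper2, `Q4/Inst.lean`;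
* `def MPrimeStmt I Eis : Prop`   ((M′))                               — helper7/9/4/1, `Lvl/`;
* `def OldStmt I TΩ : Prop`       (Q5)                                 — helper2/3/8/6, `Q5/`;

* `mkPsiPackage I hp2 hA H hM hO : PsiPackage N p A`;
* `geomQStmt_of_modInputs` : the three inputs over the concrete packages
  `modNModInst hqM hA h5` (level `M q`, `q ≥ 5`, `q ∤ M`) ⇒ `GeomQStmt`.

(The earlier `QInputs` form with `nb` + (R) lives in `Kap/PackageOld.lean`, unused.)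
-/
import Fermat.Agent.S44lib.Iface
import Fermat.Agent.S44lib.Kap.Inst
import Fermat.Agent.S44lib.Kap.ModInst

set_option autoImplicit false
set_option linter.unusedSectionVars false
set_option linter.style.haveILetI false

noncomputable section

namespace Fermat.Agent.S44lib.Kap

open AlgebraicCurve ModularCurve Fermat.Agent.S18lib Fermat.Agent.LSb Fermat.Agent.S19lib
open Fermat.Agent.S33lib Fermat.Agent.S33lib.N

local notation "Qb" => AlgebraicClosure ℚ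
local notation "GQ" => (AlgebraicClosure ℚ ≃ₐ[ℚ] AlgebraicClosure ℚ)
local notation "Zbar" => integralClosure ℤ ℂ

variable {M q : ℕ} [NeZero M] [NeZero q] [hq : Fact q.Prime] {A : ValuationSubring Qb}

/-! ### the general builder: any nodal package, inputs split by owner -/

section General

variable {N : ℕ} [NeZero N] {p : ℕ} {A : ValuationSubring Qb} (I : NModInst N p A)

/-- **the Hecke inputs** (Q4 + `Ψ_hecke`, helper2) over a nodal package `I` -/
structure HeckeInputs where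
  /-- Hecke operators on `Ω` -/
  TΩ : Nat.Primes → (QOm I →+ QOm I)
  /-- Hecke operators on the residues -/
  TR : Nat.Primes → (QRes I →+ QRes I)
  /-- the Eisenstein subgroup -/
  Eis : AddSubgroup (QRes I)
  Ψ_hecke : ∀ ℓ : Nat.Primes, ¬ (ℓ : ℕ) ∣ N → ∀ x ∈ tors N (p : ℤ),
    QPsi I (heckeOperatorBar N ℓ x) = TΩ ℓ (QPsi I x)
  res_hecke : ∀ ℓ : Nat.Primes, ¬ (ℓ : ℕ) ∣ N → ∀ x ∈ tors N (p : ℤ),
    QresHom I (TΩ ℓ (QPsi I x)) = TR ℓ (QresHom I (QPsi I x))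
  eis : ∀ ℓ : Nat.Primes, ¬ (ℓ : ℕ) ∣ N → (ℓ : ℕ) ≠ p → ∀ r ∈ Eis,
    TR ℓ r = ((ℓ : ℕ) + 1 : ℤ) • r

/-- **(M′) for the nodal package `I`**, with values in the subgroup `Eis` -/
def MPrimeStmt (Eis : AddSubgroup (QRes I)) : Prop :=
  ∀ x ∈ tors N (p : ℤ), ∀ w : Qb, IsUnitRoot A p w → FixedOver A p w x →
    (∀ σ ∈ IOne A p, ∀ τ ∈ IOne A p, τ • (σ • x - x) = σ • x - x) →
    QresHom I (QPsi I x) ∈ Eis

/-- **Q5 for the nodal package `I`**, for the Hecke operators `TΩ` -/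
def OldStmt (TΩ : Nat.Primes → (QOm I →+ QOm I)) : Prop :=
  ∀ x ∈ tors N (p : ℤ), QPsi I x ≠ 0 → QresHom I (QPsi I x) = 0 →
    ∀ (a : ℕ → ℤ) (S : ℕ → Prop),
    (∀ ℓ, S ℓ → ℓ.Prime ∧ ¬ ℓ ∣ N ∧ ℓ ≠ p) →
    (∃ ℓ, S ℓ ∧ ¬ (p : ℤ) ∣ a ℓ - (ℓ + 1)) →
    (∀ (ℓ : ℕ) (hℓ : ℓ.Prime), S ℓ → TΩ ⟨ℓ, hℓ⟩ (QPsi I x) = (a ℓ) • QPsi I x) →
    ∃ (g : CuspForm (CongruenceSubgroup.Gamma0 (N / p)) 2) (𝔪 : Ideal Zbar),
      g.IsNormalizedEigenform ∧ 𝔪.IsMaximal ∧ (p : Zbar) ∈ 𝔪 ∧ CongruentTo g 𝔪 a S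

/-- **the geometric package** from a nodal package, the Hecke inputs, (M′) and Q5 -/
def mkPsiPackage [Fact p.Prime] (hp2 : p ≠ 2) (hA : A.LiesOverPrime p) (H : HeckeInputs I)
    (hM : MPrimeStmt I H.Eis) (hO : OldStmt I H.TΩ) : PsiPackage N p A where
  Ω := QOm I
  R := QRes I
  Ψ := QPsi I
  res := QresHom I
  TΩ := H.TΩ
  TR := H.TR
  Eis := H.Eis
  K := QK I
  Ψ_add := qPsi_add I
  Ψ_inertia := qPsi_inertia I
  Ψ_hecke := H.Ψ_hecke
  res_hecke := H.res_hecke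
  K_le := qK_le I
  mem_K := mem_qK I hA
  K_noTriv := qK_noTriv I hp2 hA
  p_smul_R := p_smul_qRes I
  mprime := fun x hx w hw hf h => hM x hx w hw hf h
  eis := H.eis
  old := fun x hx h0 hr a S hS hE heig => hO x hx h0 hr a S hS hE heig

end General

/-- **`GeomQStmt`** from the Hecke inputs, (M′) and Q5 over the concrete packages `modNModInst` -/
theorem geomQStmt_of_modInputs
    (hQ : ∀ (M q : ℕ) [NeZero M] [NeZero q] [Fact q.Prime] (A : ValuationSubring Qb)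
      (hqM : ¬ q ∣ M) (hA : A.LiesOverPrime q) (h5 : 5 ≤ q),
      ∃ H : HeckeInputs (modNModInst hqM hA h5),
        MPrimeStmt (modNModInst hqM hA h5) H.Eis ∧ OldStmt (modNModInst hqM hA h5) H.TΩ) :
    GeomQStmt := by
  intro N _ p hp h5 hpN hp2N A hA
  obtain ⟨M, rfl⟩ := hpN
  have hM : M ≠ 0 := fun h => (NeZero.ne (p * M)) (by rw [h, mul_zero])
  have hpM : ¬ p ∣ M := fun ⟨M', hM'⟩ => hp2N ⟨M', by rw [hM']; ring⟩
  haveI : NeZero M := ⟨hM⟩
  haveI : NeZero p := ⟨hp.ne_zero⟩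
  haveI : Fact p.Prime := ⟨hp⟩
  obtain ⟨H, hMp, hO⟩ := hQ M p A hpM hA h5
  have e : M * p = p * M := mul_comm M p
  have key : ∀ (N' : ℕ) (h : M * p = N') [NeZero N'], Nonempty (PsiPackage N' p A) := by
    intro N' h _
    subst h
    exact ⟨mkPsiPackage (modNModInst hpM hA h5) (by omega) hA H hMp hO⟩
  exact key (p * M) e

end Fermat.Agent.S44lib.Kap

end
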