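/-
S44lib / Kap / PushPull  (helper6)  — Project LSq, block Q2a.

**Equivariance of the reduction Kummer class under a pure pull-back / a pure push-forward**, and the
composite-hypothesis form of `kapCl_correspondence`.

* `KummerRel.pullbackAlong`  : `f` Kummer representative of `x` ⇒ `φ f` one of `φ^* x`;
* `KummerRel.pushforwardAlong`: `h` Kummer representative of `y` ⇒ `N_ψ h` one of `ψ_* y`;
* **`kapCl_pullbackAlong`**  : `kapCl G' m (φ^* x) = Om.map φb (kapCl G m x)`       (`GaussCompat`);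
* **`kapCl_pushforwardAlong`**: `kapCl G m (ψ_* y) = nb (kapCl G' m y)`              (`NormCompat`);
* **`kapCl_correspondence_of_red`** : if `G.redF (N_ψ (φ f)) = nrm (G.redF f)` for all `G`-units `f`,
  for some map `nrm` inducing `nb : Om A Fk m →+ Om A Fk m`, then
  `kapCl G m (ψ_* φ^* x) = nb (kapCl G m x)` — no Gauss datum upstairs is needed.
-/
import Fermat.Agent.S44lib.Kap.Hecke
import Fermat.Agent.LSb.Xfer.PushPull

set_option autoImplicit false
set_option linter.unusedSectionVars false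

noncomputable section

namespace Fermat.Agent.S44lib.Kap

open AlgebraicCurve Fermat.Agent.LSb Fermat.Agent.S18lib Fermat.Agent.S29lib.D

variable {L : Type*} [Field L] {A : ValuationSubring L}
variable {F : Type*} [Field F] [Algebra L F]
variable {F' : Type*} [Field F'] [Algebra L F']
variable {Fk : Type*} [Field Fk] [Algebra (IsLocalRing.ResidueField A) Fk]
variable {Fk' : Type*} [Field Fk'] [Algebra (IsLocalRing.ResidueField A) Fk']

local notation "k" => IsLocalRing.ResidueField A

variable [HasPrincipalDivisors L F']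
variable (φ ψ : F →ₐ[L] F') (hφ : φ.toRingHom.IsIntegral) (hψ : ψ.toRingHom.IsIntegral)
variable (hFI : FundamentalIdentityAlong L φ hφ)
variable (hfin : FiniteAlong L ψ) (hN : NormFormulaAlong L ψ hfin)

/-- **Kummer representatives under a pull-back.** -/
theorem kummerRel_pullbackAlong {n : ℕ} {x : Pic0 L F} {f : F} (h : KummerRel n x f) :
    KummerRel n (Xfer.pic0PullbackAlong φ hφ hFI x) (φ f) := by
  obtain ⟨hf, D, rfl, hD⟩ := h
  refine ⟨(map_ne_zero φ).2 hf, ⟨Divisor.pullbackAlong φ hφ (D : Divisor L F),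
    Divisor.pullbackAlong_mem_degZero φ hφ hFI D.2⟩, (Xfer.pic0PullbackAlong_mk φ hφ hFI D).symm,
    fun P => ?_⟩
  have h1 : ∀ v : Place L F, ((n : ℤ) • (D : Divisor L F)) v = v.ord f := fun v => by
    rw [Finsupp.smul_apply, smul_eq_mul, hD v]
  rw [← pullbackAlong_apply_eq_ord φ hφ h1 P, map_zsmul, Finsupp.smul_apply, smul_eq_mul]

/-- **Kummer representatives under a push-forward.** -/
theorem kummerRel_pushforwardAlong {n : ℕ} {y : Pic0 L F'} {h : F'} (hy : KummerRel n y h) :
    KummerRel n (Xfer.pic0PushforwardAlong ψ hψ hfin hN y) (normAlong ψ h) := by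
  obtain ⟨hh, E, rfl, hE⟩ := hy
  refine ⟨normAlong_ne_zero ψ hh hfin, ⟨Divisor.pushforwardAlong ψ hψ (E : Divisor L F'),
    Divisor.pushforwardAlong_mem_degZero ψ hψ E.2⟩,
    (Xfer.pic0PushforwardAlong_mk ψ hψ hfin hN E).symm, fun P => ?_⟩
  have h1 : ∀ w : Place L F', ((n : ℤ) • (E : Divisor L F')) w = w.ord h := fun w => by
    rw [Finsupp.smul_apply, smul_eq_mul, hE w]
  rw [← pushforwardAlong_apply_eq_ord ψ hψ hfin hN hh h1 P, map_zsmul, Finsupp.smul_apply,
    smul_eq_mul]

/-- **Equivariance of the reduction Kummer class under a pull-back** `φ^*`. -/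
theorem kapCl_pullbackAlong {g g' : ℕ} (hF : IsCurveOfGenus L F g) (hF' : IsCurveOfGenus L F' g')
    {G : GaussDatum A F Fk} {G' : GaussDatum A F' Fk'}
    {φb : Fk →ₐ[IsLocalRing.ResidueField A] Fk'} (hφG : GaussCompat G G' φ φb) {m : ℕ}
    {x : Pic0 L F} (hx : (m : ℤ) • x = 0) :
    kapCl G' m (Xfer.pic0PullbackAlong φ hφ hFI x) = Om.map φb (kapCl G m x) := by
  obtain ⟨f, hrel, hred⟩ := exists_kummerRel G hx
  have hne : G.redF f ≠ 0 := by rw [hred]; exact kapFun_ne_zero _ _ _
  have hfO : f ∈ G.O := G.mem_of_redF_ne_zero hne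
  have hne' : G'.redF (φ f) ≠ 0 := by
    rw [hφG.red f hfO]
    exact (map_ne_zero φb).2 hne
  rw [kapCl_of_kummerRel hF' G' (kummerRel_pullbackAlong φ hφ hFI hrel) hne',
    kapCl_of_kummerRel hF G hrel hne, Om.map_mk]
  exact Om.mk_congr hne' (hφG.red f hfO)

/-- **Equivariance of the reduction Kummer class under a push-forward** `ψ_*`. -/
theorem kapCl_pushforwardAlong {g g' : ℕ} (hF : IsCurveOfGenus L F g)
    (hF' : IsCurveOfGenus L F' g') {G : GaussDatum A F Fk} {G' : GaussDatum A F' Fk'} {m : ℕ}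
    {nb : Om A Fk' m →+ Om A Fk m} (hψG : NormCompat G G' ψ m nb) {y : Pic0 L F'}
    (hy : (m : ℤ) • y = 0) :
    kapCl G m (Xfer.pic0PushforwardAlong ψ hψ hfin hN y) = nb (kapCl G' m y) := by
  obtain ⟨h, hrel, hred⟩ := exists_kummerRel G' hy
  have hne : G'.redF h ≠ 0 := by rw [hred]; exact kapFun_ne_zero _ _ _
  rw [kapCl_of_kummerRel hF G (kummerRel_pushforwardAlong ψ hψ hfin hN hrel) (hψG.ne _ hne),
    hψG.cl _ hne, kapCl_of_kummerRel hF' G' hrel hne]

/-- **Equivariance under a correspondence, composite-hypothesis form**: it suffices to know the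
reduction of `N_ψ (φ f)` for the `G`-units `f` of `F`; no Gauss datum on `F'` is involved. -/
theorem kapCl_correspondence_of_red {g : ℕ} (hF : IsCurveOfGenus L F g) {G : GaussDatum A F Fk}
    {m : ℕ} {nb : Om A Fk m →+ Om A Fk m}
    (hne : ∀ f : F, G.redF f ≠ 0 → G.redF (normAlong ψ (φ f)) ≠ 0)
    (hcl : ∀ (f : F) (h : G.redF f ≠ 0),
      Om.mk (G.redF (normAlong ψ (φ f))) (hne f h) = nb (Om.mk (G.redF f) h))
    {x : Pic0 L F} (hx : (m : ℤ) • x = 0) :
    kapCl G m (Pic0.correspondence φ ψ hφ hψ hFI hfin hN x) = nb (kapCl G m x) := by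
  obtain ⟨f, hrel, hred⟩ := exists_kummerRel G hx
  have hne0 : G.redF f ≠ 0 := by rw [hred]; exact kapFun_ne_zero _ _ _
  have hrel' := hrel.correspondence φ ψ hφ hψ hFI hfin hN
  rw [kapCl_of_kummerRel hF G hrel' (hne f hne0), hcl f hne0, kapCl_of_kummerRel hF G hrel hne0]

end Fermat.Agent.S44lib.Kap

end
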